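/-
[PK5] (S30 packaging, architect helper25): from the quadratic relations
`ρ(σ)² - t ρ(σ) + ε(σ) = 0` (the output of `gcl_good_cyclo`) on an irreducible representation to
`dim ≤ 2` and, in dimension `2`, to the characteristic polynomials `X² - t X + ε(σ)`, with `t`
UNIQUE (so `t = a_ℓ` at a Frobenius element at `ℓ`).

* `pkc_field`   : over an algebraically closed field (the [QG] lemma + uniqueness of the trace);
* `pkc_baseChange` : for a finite free module `Λ` over a domain `O ⊆ Ω`, irreducibility tested on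
                  `Ω ⊗[O] Λ`, characteristic polynomials over `O`;
* `pkc_matrix`  : the same with `U` any `Ω`-space carrying the base-changed matrices.

Owner: helper9.  Prefix `pkc_`.
-/
import Mathlib
import Fermat.Agent.JT3.Algebra.QuadGroup

set_option autoImplicit false
set_option linter.style.haveILetI false
set_option linter.unusedSectionVars false

namespace Fermat.Agent.JT3

open Polynomial Module

/-! ### Uniqueness of the trace -/

section unique

variable {R : Type*} [CommRing R] {M : Type*} [AddCommGroup M] [Module R M]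
  {G : Type*} [Group G]

/-- Two quadratic relations for an invertible endomorphism differ by `(t - t') • 1 = 0`. -/
theorem pkc_sub_smul_one_eq_zero (ρ : G →* Module.End R M) (g : G) {t t' e : R}
    (h : ρ g * ρ g - t • ρ g + e • (1 : Module.End R M) = 0)
    (h' : ρ g * ρ g - t' • ρ g + e • (1 : Module.End R M) = 0) :
    (t - t') • (1 : Module.End R M) = 0 := by
  have h1 : (t - t') • ρ g = 0 := by
    have : (t - t') • ρ g = (ρ g * ρ g - t' • ρ g + e • (1 : Module.End R M)) -
        (ρ g * ρ g - t • ρ g + e • (1 : Module.End R M)) := by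
      rw [sub_smul]; abel
    rw [this, h, h', sub_zero]
  have h2 : ((t - t') • ρ g) * ρ g⁻¹ = 0 := by rw [h1, zero_mul]
  rwa [smul_mul_assoc, ← map_mul, mul_inv_cancel, map_one] at h2

end unique

/-! ### Over an algebraically closed field -/

section field

variable {K : Type*} [Field K] [IsAlgClosed K] {U : Type*} [AddCommGroup U] [Module K U]
  [FiniteDimensional K U] [Nontrivial U] {G : Type*} [Group G]

theorem pkc_trace_unique (ρ : G →* Module.End K U) (g : G) {t t' e : K}
    (h : ρ g * ρ g - t • ρ g + e • (1 : Module.End K U) = 0)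
    (h' : ρ g * ρ g - t' • ρ g + e • (1 : Module.End K U) = 0) : t = t' := by
  have h1 := pkc_sub_smul_one_eq_zero ρ g h h'
  obtain ⟨v, hv⟩ := exists_ne (0 : U)
  have h2 : (t - t') • v = 0 := by
    have := LinearMap.congr_fun h1 v
    simpa using this
  rcases smul_eq_zero.mp h2 with h3 | h3
  · exact sub_eq_zero.mp h3
  · exact absurd h3 hv

/-- **[PK5] over an algebraically closed field**: an irreducible representation all of whose
elements satisfy `ρ(g)² - t ρ(g) + ε(g) = 0` has dimension `≤ 2`; in dimension `2` every such `t`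
is the trace and `ε(g)` the determinant. -/
theorem pkc_field (h2 : (2 : K) ≠ 0) (ρ : G →* Module.End K U) (ε : G →* K)
    (hirr : ∀ W : Submodule K U, (∀ g, W ≤ W.comap (ρ g)) → W = ⊥ ∨ W = ⊤)
    (hrel : ∀ g, ∃ t : K, ρ g * ρ g - t • ρ g + ε g • (1 : Module.End K U) = 0) :
    finrank K U ≤ 2 ∧ (finrank K U = 2 → ∀ (g : G) (t : K),
      ρ g * ρ g - t • ρ g + ε g • (1 : Module.End K U) = 0 →
        (ρ g).charpoly = X ^ 2 - C t * X + C (ε g)) := by
  choose t₀ ht₀ using hrel
  have hrel' : ∀ g, ρ g * ρ g - t₀ g • ρ g + ((ε.toHomUnits g : Kˣ) : K) •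
      (1 : Module.End K U) = 0 := by
    intro g
    rw [MonoidHom.coe_toHomUnits]
    exact ht₀ g
  refine ⟨qg_finrank_le_two h2 hirr hrel', fun hd g t ht => ?_⟩
  have h1 := qg_charpoly h2 hirr hrel' hd g
  rw [MonoidHom.coe_toHomUnits] at h1
  rw [h1, pkc_trace_unique ρ g ht (ht₀ g)]

end field

/-! ### Lattices: base change to an algebraically closed field -/

section baseChange

open scoped TensorProduct

variable {O : Type*} [CommRing O] [IsDomain O] {Ω : Type*} [Field Ω] [IsAlgClosed Ω] [Algebra O Ω]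
  {Λ : Type*} [AddCommGroup Λ] [Module O Λ] [Module.Free O Λ] [Module.Finite O Λ]
  {G : Type*} [Group G]

/-- The base change of a representation on `Λ` to `Ω ⊗[O] Λ`. -/
noncomputable def pkc_bc (Ω : Type*) [Field Ω] [Algebra O Ω] (ρ : G →* Module.End O Λ) :
    G →* Module.End Ω (Ω ⊗[O] Λ) where
  toFun g := (ρ g).baseChange Ω
  map_one' := by rw [map_one, LinearMap.baseChange_one]
  map_mul' g h := by rw [map_mul, LinearMap.baseChange_mul]

@[simp] theorem pkc_bc_apply (ρ : G →* Module.End O Λ) (g : G) :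
    pkc_bc Ω ρ g = (ρ g).baseChange Ω := rfl

/-- A polynomial relation of degree two base-changes. -/
theorem pkc_bc_relation (ρ : G →* Module.End O Λ) (g : G) {t e : O}
    (h : ρ g * ρ g - t • ρ g + e • (1 : Module.End O Λ) = 0) :
    pkc_bc Ω ρ g * pkc_bc Ω ρ g - algebraMap O Ω t • pkc_bc Ω ρ g +
      algebraMap O Ω e • (1 : Module.End Ω (Ω ⊗[O] Λ)) = 0 := by
  have h1 := congrArg (LinearMap.baseChange Ω) h
  rw [LinearMap.baseChange_zero, LinearMap.baseChange_add, LinearMap.baseChange_sub,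
    LinearMap.baseChange_mul, LinearMap.baseChange_smul, LinearMap.baseChange_smul,
    LinearMap.baseChange_one] at h1
  rw [pkc_bc_apply, algebraMap_smul, algebraMap_smul]
  exact h1

/-- **[PK5] for a lattice**: `Λ` finite free over a domain `O ⊆ Ω`, `Ω` algebraically closed of
characteristic `≠ 2`, `Ω ⊗[O] Λ` irreducible, all `ρ(g)` satisfying
`ρ(g)² - t ρ(g) + ε(g) = 0`: then `rank Λ ≤ 2`, and in rank `2` the characteristic polynomial of
`ρ(g)` over `O` is `X² - t X + ε(g)` for EVERY `t` satisfying the relation. -/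
theorem pkc_baseChange (hinj : Function.Injective (algebraMap O Ω)) (h2 : (2 : Ω) ≠ 0)
    [Nontrivial Λ] (ρ : G →* Module.End O Λ) (ε : G →* O)
    (hirr : ∀ W : Submodule Ω (Ω ⊗[O] Λ), (∀ g, W ≤ W.comap (pkc_bc Ω ρ g)) → W = ⊥ ∨ W = ⊤)
    (hrel : ∀ g, ∃ t : O, ρ g * ρ g - t • ρ g + ε g • (1 : Module.End O Λ) = 0) :
    finrank O Λ ≤ 2 ∧ (finrank O Λ = 2 → ∀ (g : G) (t : O),
      ρ g * ρ g - t • ρ g + ε g • (1 : Module.End O Λ) = 0 →
        (ρ g).charpoly = X ^ 2 - C t * X + C (ε g)) := by
  have hrank : finrank Ω (Ω ⊗[O] Λ) = finrank O Λ := Module.finrank_baseChange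
  have hpos : 0 < finrank O Λ := Module.finrank_pos
  haveI : Nontrivial (Ω ⊗[O] Λ) := Module.nontrivial_of_finrank_pos (R := Ω) (by rw [hrank]; exact hpos)
  obtain ⟨hle, hch⟩ := pkc_field h2 (pkc_bc Ω ρ) ((algebraMap O Ω : O →* Ω).comp ε) hirr
    (fun g => by
      obtain ⟨t, ht⟩ := hrel g
      exact ⟨algebraMap O Ω t, pkc_bc_relation ρ g ht⟩)
  rw [hrank] at hle hch
  refine ⟨hle, fun hd g t ht => ?_⟩
  have h1 := hch hd g (algebraMap O Ω t) (pkc_bc_relation ρ g ht)
  rw [pkc_bc_apply, LinearMap.charpoly_baseChange] at h1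
  apply Polynomial.map_injective (algebraMap O Ω) hinj
  rw [h1]
  simp

end baseChange

/-! ### Lattices: matrix form -/

section matrix

variable {O : Type*} [CommRing O] {Ω : Type*} [Field Ω] [IsAlgClosed Ω] [Algebra O Ω]
  {Λ : Type*} [AddCommGroup Λ] [Module O Λ] [Module.Free O Λ] [Module.Finite O Λ]
  {U : Type*} [AddCommGroup U] [Module Ω U]
  {G : Type*} [Group G] {ι : Type*} [Fintype ι] [DecidableEq ι]

/-- A relation of degree two on `Λ` passes to `U` when the matrices of `ρU` are the images of the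
matrices of `ρΛ`. -/
theorem pkc_matrix_relation (b : Basis ι O Λ) (bU : Basis ι Ω U)
    (ρΛ : G →* Module.End O Λ) (ρU : G →* Module.End Ω U)
    (hmat : ∀ g, LinearMap.toMatrix bU bU (ρU g) =
      (LinearMap.toMatrix b b (ρΛ g)).map (algebraMap O Ω)) (g : G) {t e : O}
    (h : ρΛ g * ρΛ g - t • ρΛ g + e • (1 : Module.End O Λ) = 0) :
    ρU g * ρU g - algebraMap O Ω t • ρU g + algebraMap O Ω e • (1 : Module.End Ω U) = 0 := by
  apply (LinearMap.toMatrix bU bU).injective
  have h1 := congrArg (LinearMap.toMatrix b b) h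
  simp only [map_add, map_sub, map_smul, map_zero, Module.End.mul_eq_comp,
    LinearMap.toMatrix_comp b b b, Module.End.one_eq_id, LinearMap.toMatrix_id] at h1
  simp only [map_add, map_sub, map_smul, map_zero, Module.End.mul_eq_comp,
    LinearMap.toMatrix_comp bU bU bU, Module.End.one_eq_id, LinearMap.toMatrix_id, hmat]
  have h3 := congrArg (fun M : Matrix ι ι O => M.map (algebraMap O Ω)) h1
  simp only [Matrix.map_add (algebraMap O Ω) (map_add _),
    Matrix.map_sub (algebraMap O Ω) (map_sub _), Matrix.map_mul,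
    Matrix.map_zero (algebraMap O Ω) (map_zero _)] at h3
  rw [Matrix.map_smul' (algebraMap O Ω) t _ (map_mul _),
    Matrix.map_smul' (algebraMap O Ω) e _ (map_mul _),
    Matrix.map_one (algebraMap O Ω) (map_zero _) (map_one _)] at h3
  exact h3

/-- **[PK5], matrix form**: as `pkc_baseChange`, with `U` any `Ω`-space with a basis in which the
matrices of `ρU` are the images of the matrices of `ρΛ` in a basis of `Λ`. -/
theorem pkc_matrix (hinj : Function.Injective (algebraMap O Ω)) (h2 : (2 : Ω) ≠ 0)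
    [Nonempty ι] (b : Basis ι O Λ) (bU : Basis ι Ω U)
    (ρΛ : G →* Module.End O Λ) (ρU : G →* Module.End Ω U)
    (hmat : ∀ g, LinearMap.toMatrix bU bU (ρU g) =
      (LinearMap.toMatrix b b (ρΛ g)).map (algebraMap O Ω))
    (ε : G →* O)
    (hirr : ∀ W : Submodule Ω U, (∀ g, W ≤ W.comap (ρU g)) → W = ⊥ ∨ W = ⊤)
    (hrel : ∀ g, ∃ t : O, ρΛ g * ρΛ g - t • ρΛ g + ε g • (1 : Module.End O Λ) = 0) :
    Fintype.card ι ≤ 2 ∧ (Fintype.card ι = 2 → ∀ (g : G) (t : O),
      ρΛ g * ρΛ g - t • ρΛ g + ε g • (1 : Module.End O Λ) = 0 →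
        (ρΛ g).charpoly = X ^ 2 - C t * X + C (ε g)) := by
  haveI : FiniteDimensional Ω U := Module.Finite.of_basis bU
  haveI : Nontrivial U := by
    obtain ⟨i⟩ := ‹Nonempty ι›
    exact nontrivial_of_ne (bU i) 0 (bU.ne_zero i)
  have hrank : finrank Ω U = Fintype.card ι := Module.finrank_eq_card_basis bU
  obtain ⟨hle, hch⟩ := pkc_field h2 ρU ((algebraMap O Ω : O →* Ω).comp ε) hirr
    (fun g => by
      obtain ⟨t, ht⟩ := hrel g
      exact ⟨algebraMap O Ω t, pkc_matrix_relation b bU ρΛ ρU hmat g ht⟩)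
  rw [hrank] at hle hch
  refine ⟨hle, fun hd g t ht => ?_⟩
  have h1 := hch hd g (algebraMap O Ω t) (pkc_matrix_relation b bU ρΛ ρU hmat g ht)
  rw [← LinearMap.charpoly_toMatrix (ρU g) bU, hmat, Matrix.charpoly_map,
    LinearMap.charpoly_toMatrix] at h1
  apply Polynomial.map_injective (algebraMap O Ω) hinj
  rw [h1]
  simp

end matrix

end Fermat.Agent.JT3
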