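/-
[PK] = S30 packaging (lead Design Note #17 (4)(b)(d)): the seam structure.

`pk_Tate p N S` is what the Jacobian side (T1-G5 Tate module, T2-lite, S37/S18) has to produce for
the packaging theorem `pk_S30 : pk_Tate p N S → (statement of S30 for p N S)`:
a finite free `ℤ_[p]`-module with an adically continuous Galois action, unramified outside `N p`,
with commuting Hecke operators `Tl ℓ` (`ℓ` prime, `ℓ ∤ N`, `ℓ ∉ S`) commuting with Galois, the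
Eichler-Shimura relation at Frobenius elements, and `eigen`: every character of the weight-2 Hecke
algebra of level `N` away from `S` with values in a complete DVR `O'` as in S30 extends to the
`ℤ_[p]`-algebra generated by the `Tl ℓ` in `End Tp`.

Owner: helper25.  Prefix `pk_`.
-/
import Mathlib
import Fermat.Prelude.Def_CuspForm_HeckeGaloisRepDatum

set_option autoImplicit false

namespace Fermat.Agent.JT3

open IsLocalRing

local notation "GQ" => (AlgebraicClosure ℚ ≃ₐ[ℚ] AlgebraicClosure ℚ)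
local notation "Qbar" => AlgebraicClosure ℚ

/-- `ℓ` is a good prime: prime, not dividing `N`, outside `S`. -/
def pk_Good (N : ℕ) (S : Finset ℕ) (ℓ : ℕ) : Prop :=
  ℓ.Prime ∧ ¬ ℓ ∣ N ∧ ℓ ∉ (↑S : Set ℕ)

/-- The Hecke operators at the good primes, as a set of endomorphisms. -/
def pk_heckeSet {p : ℕ} [Fact p.Prime] (N : ℕ) (S : Finset ℕ) {Tp : Type} [AddCommGroup Tp]
    [Module ℤ_[p] Tp] (Tl : ℕ → Module.End ℤ_[p] Tp) : Set (Module.End ℤ_[p] Tp) :=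
  {T | ∃ ℓ, pk_Good N S ℓ ∧ T = Tl ℓ}

theorem pk_mem_heckeSet {p : ℕ} [Fact p.Prime] {N : ℕ} {S : Finset ℕ} {Tp : Type}
    [AddCommGroup Tp] [Module ℤ_[p] Tp] (Tl : ℕ → Module.End ℤ_[p] Tp) {ℓ : ℕ}
    (hℓ : ℓ.Prime) (hℓN : ¬ ℓ ∣ N) (hℓS : ℓ ∉ (↑S : Set ℕ)) :
    Tl ℓ ∈ Algebra.adjoin ℤ_[p] (pk_heckeSet N S Tl) :=
  Algebra.subset_adjoin ⟨ℓ, ⟨hℓ, hℓN, hℓS⟩, rfl⟩

/-- The Tate-module package of `J₀(N)` consumed by the S30 packaging. -/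
structure pk_Tate (p : ℕ) [Fact p.Prime] (N : ℕ) [NeZero N] (S : Finset ℕ) : Type 1 where
  /-- the Tate module -/
  Tp : Type
  [instAddCommGroup : AddCommGroup Tp]
  [instModule : Module ℤ_[p] Tp]
  [instFree : Module.Free ℤ_[p] Tp]
  [instFinite : Module.Finite ℤ_[p] Tp]
  /-- the Galois action -/
  ρ : GQ →* Module.End ℤ_[p] Tp
  cont : GaloisActionIsAdicContinuous ℤ_[p] ρ
  unram : ∀ q : ℕ, q.Prime → ¬ q ∣ N → q ≠ p → ∀ P : ValuationSubring Qbar, P.LiesOverPrime q →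
    ∀ σ ∈ P.inertiaSubgroupIn ℚ, ρ σ = 1
  /-- the Hecke operators (only the values at good primes matter) -/
  Tl : ℕ → Module.End ℤ_[p] Tp
  Tl_comm : ∀ ℓ ℓ' : ℕ, Commute (Tl ℓ) (Tl ℓ')
  Tl_ρ : ∀ (ℓ : ℕ) (σ : GQ), Commute (Tl ℓ) (ρ σ)
  frob : ∀ ℓ : ℕ, pk_Good N S ℓ → ∀ A : ValuationSubring Qbar, A.LiesOverPrime ℓ →
    ∀ φ : GQ, A.IsFrobeniusAt φ ℓ → ρ φ * ρ φ - Tl ℓ * ρ φ + (ℓ : ℤ_[p]) • 1 = 0
  eigen : ∀ (O' : Type) [CommRing O'] [IsDomain O'] [IsDiscreteValuationRing O']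
    [IsAdicComplete (maximalIdeal O') O'] [CharZero O'] (_ : (p : O') ∈ maximalIdeal O')
    (χ : CuspForm.heckeAlgebra N 2 (↑S : Set ℕ) →+* O'),
    ∃ χ₀ : ↥(Algebra.adjoin ℤ_[p] (pk_heckeSet N S Tl)) →+* O',
      ∀ (ℓ : ℕ) (hℓ : ℓ.Prime) (hℓN : ¬ ℓ ∣ N) (hℓS : ℓ ∉ (↑S : Set ℕ)),
        χ₀ ⟨Tl ℓ, pk_mem_heckeSet Tl hℓ hℓN hℓS⟩ = χ (CuspForm.heckeAlgebra.T hℓ hℓN hℓS)

attribute [instance] pk_Tate.instAddCommGroup pk_Tate.instModule pk_Tate.instFree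
  pk_Tate.instFinite

/-- The statement of S30 for fixed `p N S` (verbatim body of the frozen statement). -/
def pk_S30Statement (p : ℕ) [Fact p.Prime] (N : ℕ) [NeZero N] (S : Finset ℕ) : Prop :=
  ∀ (𝒪' : Type) [CommRing 𝒪'] [IsDomain 𝒪'] [IsDiscreteValuationRing 𝒪']
      [IsAdicComplete (IsLocalRing.maximalIdeal 𝒪') 𝒪'] [Finite (IsLocalRing.ResidueField 𝒪')]
      [CharZero 𝒪'] (_hp𝒪' : (p : 𝒪') ∈ IsLocalRing.maximalIdeal 𝒪')
      (χ : CuspForm.heckeAlgebra N 2 (↑S : Set ℕ) →+* 𝒪'),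
      ∃ (𝒪'' : Type) (_ : CommRing 𝒪'') (_ : IsDomain 𝒪'') (_ : IsDiscreteValuationRing 𝒪'')
        (_ : IsAdicComplete (IsLocalRing.maximalIdeal 𝒪'') 𝒪'')
        (_ : Finite (IsLocalRing.ResidueField 𝒪'')) (_ : CharZero 𝒪'')
        (_ : Algebra 𝒪' 𝒪'') (_ : Module.Finite 𝒪' 𝒪'') (_ : IsLocalHom (algebraMap 𝒪' 𝒪'')),
      Function.Injective (algebraMap 𝒪' 𝒪'') ∧
      ∃ ρ : GaloisRepAdic 𝒪'',
        (∀ (ℓ : ℕ) (hℓ : ℓ.Prime) (hℓN : ¬ ℓ ∣ N) (hℓS : ℓ ∉ (↑S : Set ℕ)),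
          ∀ A : ValuationSubring (AlgebraicClosure ℚ), A.LiesOverPrime ℓ →
            ∀ σ : AlgebraicClosure ℚ ≃ₐ[ℚ] AlgebraicClosure ℚ, A.IsFrobeniusAt σ ℓ →
              LinearMap.charpoly (ρ.ρ σ) =
                Polynomial.X ^ 2 -
                  Polynomial.C (algebraMap 𝒪' 𝒪'' (χ (CuspForm.heckeAlgebra.T hℓ hℓN hℓS))) *
                    Polynomial.X + Polynomial.C ((ℓ : 𝒪''))) ∧
        (∀ q : ℕ, q.Prime → ¬ q ∣ N → q ≠ p → ρ.IsUnramifiedAt q)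

end Fermat.Agent.JT3
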