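/-
[PK] = S30 packaging (lead Design Note #17 (4)(b)), leaf PK2: existence of eigenvectors.

* `pke_exists_killed`   : a commutative artinian ring acting faithfully on a module, `m` a proper
                          ideal: some nonzero vector is killed by `m`.
* `pke_exists_eigen`    : a commutative `K`-algebra `R` acting on a finite-dimensional `V` through
                          `ev`, a character `χ : R →ₐ[K] K` vanishing on `ker ev`: there is a nonzero
                          simultaneous eigenvector with eigencharacter `χ`.  (`_matrix`: matrix form.)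
* `pke_linearIndependent_map` : linear independence in `R^n` survives a flat base change.
* `pke_eigen_matrix`    : `R` a Dedekind domain, `A` a commutative `R`-algebra of `n × n` matrices
                          over `R`, `F ⊇ R` a field, `χ₀ : A →ₐ[R] F`: `F^n` contains a nonzero
                          simultaneous eigenvector with eigencharacter `χ₀`
                          ("the eigencharacter occurs after extension of scalars").

* `pke_exists_socle`, `pke_exists_eigenvector` (helper6): the same for a commutative subalgebra of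
                          `End_K V`.

Owners: helper6 (pke_exists_socle, pke_exists_eigenvector), helper25 (the rest).  Prefix `pke_`.
-/
import Mathlib

set_option autoImplicit false
set_option linter.style.haveILetI false
set_option linter.overlappingInstances false

namespace Fermat.Agent.JT3

open TensorProduct

/-! ### helper6's version (landed first, 2a80ba6): subalgebra-of-`End` form -/

/-- In a commutative Artinian ring every proper ideal annihilates a nonzero element. -/
theorem pke_exists_socle {A : Type*} [CommRing A] [IsArtinianRing A] (𝔪 : Ideal A)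
    (h𝔪 : 𝔪 ≠ ⊤) : ∃ x : A, x ≠ 0 ∧ ∀ m ∈ 𝔪, m * x = 0 := by
  classical
  -- the powers of `𝔪` stabilise
  obtain ⟨n, hn⟩ := IsArtinian.monotone_stabilizes
    (⟨fun n => OrderDual.toDual (𝔪 ^ n), fun a b hab => Ideal.pow_le_pow_right hab⟩ :
      ℕ →o (Ideal A)ᵒᵈ)
  have hstab : 𝔪 ^ n = 𝔪 ^ (n + 1) := congrArg OrderDual.ofDual (hn (n + 1) (Nat.le_succ n))
  -- Nakayama: an element `r ≡ 1 mod 𝔪` killing `𝔪 ^ n`
  obtain ⟨r, hr1, hr⟩ := Submodule.exists_sub_one_mem_and_smul_eq_zero_of_fg_of_le_smul 𝔪
    (𝔪 ^ n) (IsNoetherian.noetherian _) (by rw [smul_eq_mul, ← pow_succ', ← hstab])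
  have hr0 : r ≠ 0 := by
    rintro rfl
    apply h𝔪
    rw [Ideal.eq_top_iff_one]
    have : (0 : A) - 1 ∈ 𝔪 := hr1
    rw [zero_sub] at this
    simpa using 𝔪.neg_mem this
  -- the least `k` with `𝔪 ^ k r = 0`
  have hex : ∃ k, ∀ y ∈ 𝔪 ^ k, y * r = 0 := ⟨n, fun y hy => by
    have := hr y hy
    rwa [smul_eq_mul, mul_comm] at this⟩
  have hk := Nat.find_spec hex
  have hk0 : Nat.find hex ≠ 0 := by
    intro h0
    rw [h0] at hk
    exact hr0 (by simpa using hk 1 (by simp))
  obtain ⟨k, hk'⟩ := Nat.exists_eq_succ_of_ne_zero hk0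
  have hmin : ¬ ∀ y ∈ 𝔪 ^ k, y * r = 0 := Nat.find_min hex (by rw [hk']; exact Nat.lt_succ_self k)
  push Not at hmin
  obtain ⟨y, hy, hyr⟩ := hmin
  refine ⟨y * r, hyr, fun m hm => ?_⟩
  rw [← mul_assoc]
  apply hk
  rw [hk', pow_succ']
  exact Ideal.mul_mem_mul hm hy

/-- **Eigenvectors for a character of a commutative algebra of endomorphisms.** -/
theorem pke_exists_eigenvector {K : Type*} [Field K] {V : Type*} [AddCommGroup V] [Module K V]
    [FiniteDimensional K V] (A : Subalgebra K (Module.End K V))
    (hcomm : ∀ a ∈ A, ∀ b ∈ A, a * b = b * a) (χ : A →ₐ[K] K) :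
    ∃ v : V, v ≠ 0 ∧ ∀ a : A, (a : Module.End K V) v = χ a • v := by
  let _ : CommRing A :=
    { (inferInstance : Ring A) with
      mul_comm := fun a b => Subtype.ext (hcomm a a.2 b b.2) }
  have : IsArtinianRing A := IsArtinianRing.of_finite K A
  have h𝔪 : RingHom.ker (χ : A →+* K) ≠ ⊤ := RingHom.ker_ne_top _
  obtain ⟨x, hx0, hx⟩ := pke_exists_socle (RingHom.ker (χ : A →+* K)) h𝔪
  have hx0' : (x : Module.End K V) ≠ 0 := fun h => hx0 (Subtype.ext h)
  obtain ⟨w, hw⟩ : ∃ w, (x : Module.End K V) w ≠ 0 := by
    by_contra hcon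
    push Not at hcon
    exact hx0' (LinearMap.ext hcon)
  refine ⟨(x : Module.End K V) w, hw, fun a => ?_⟩
  have hmem : a - algebraMap K A (χ a) ∈ RingHom.ker (χ : A →+* K) := by
    rw [RingHom.mem_ker]
    change χ (a - algebraMap K A (χ a)) = 0
    rw [map_sub, AlgHom.commutes, Algebra.algebraMap_self_apply, sub_self]
  have h1 := hx _ hmem
  have h2 : ((a - algebraMap K A (χ a) : A) : Module.End K V) ((x : Module.End K V) w) = 0 := by
    have := congrArg (fun z : A => (z : Module.End K V) w) h1
    simpa using this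
  have h3 : ((a - algebraMap K A (χ a) : A) : Module.End K V) =
      (a : Module.End K V) - χ a • 1 := by
    rw [Subalgebra.coe_sub, Subalgebra.coe_algebraMap, Algebra.algebraMap_eq_smul_one]
  rw [h3, LinearMap.sub_apply, LinearMap.smul_apply, Module.End.one_apply, sub_eq_zero] at h2
  exact h2

/-! ### helper25's version: abstract algebra + kernel condition, matrix forms, flat base change -/

/-- Core of (b): a commutative artinian ring `A` acting faithfully on a nonzero module `V`, and a
ring homomorphism `χ : A → k` to a field... here in ideal form: `m` an ideal with `1 ∉ m`;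
there is a nonzero vector killed by `m`. -/
theorem pke_exists_killed {A : Type*} [CommRing A] [IsArtinianRing A]
    {V : Type*} [AddCommGroup V] [Module A V]
    (hfaith : ∀ a : A, (∀ v : V, a • v = 0) → a = 0)
    (m : Ideal A) (hm : m ≠ ⊤) :
    ∃ v : V, v ≠ 0 ∧ ∀ a ∈ m, a • v = 0 := by
  classical
  -- the powers of `m` stabilise
  obtain ⟨n, hn⟩ := IsArtinian.monotone_stabilizes (R := A) (M := A)
    ⟨fun k => OrderDual.toDual (m ^ (k + 1)), fun a b hab =>
      OrderDual.toDual_le_toDual.2 (Ideal.pow_le_pow_right (by omega))⟩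
  have hn' : ∀ k, n ≤ k → m ^ (n + 1) = m ^ (k + 1) := fun k hk =>
    OrderDual.toDual.injective (hn k hk)
  have hidem : IsIdempotentElem (m ^ (n + 1)) := by
    show m ^ (n + 1) * m ^ (n + 1) = m ^ (n + 1)
    rw [← pow_add]
    exact (hn' (n + 1 + n) (by omega)).symm
  set I := m ^ (n + 1) with hI
  have hfg : I.FG := (isNoetherianRing_iff_ideal_fg A).1 inferInstance I
  obtain ⟨e, he, hIe⟩ := (Ideal.isIdempotentElem_iff_of_fg I hfg).1 hidem
  have hem : e ∈ m := by
    have : e ∈ I := by rw [hIe]; exact Ideal.mem_span_singleton_self e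
    exact Ideal.pow_le_self (by omega) this
  have h1e : (1 - e) ≠ 0 := by
    intro h
    apply hm
    rw [Ideal.eq_top_iff_one]
    have : (1 : A) = e := by rw [sub_eq_zero] at h; exact h
    rw [this]; exact hem
  obtain ⟨w, hw⟩ : ∃ w : V, (1 - e) • w ≠ 0 := by
    by_contra hcon
    push Not at hcon
    exact h1e (hfaith _ hcon)
  set w' := (1 - e) • w with hw'
  have hkill : ∀ x ∈ m ^ (n + 1), x • w' = 0 := by
    intro x hx
    rw [← hI, hIe, Ideal.mem_span_singleton'] at hx
    obtain ⟨y, rfl⟩ := hx
    rw [hw', smul_smul]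
    have : y * e * (1 - e) = 0 := by
      have h2 : e * e = e := he
      calc y * e * (1 - e) = y * (e - e * e) := by ring
        _ = 0 := by rw [h2, sub_self, mul_zero]
    rw [this, zero_smul]
  -- least `k` with `m ^ k` killing `w'`
  have hex : ∃ k, ∀ x ∈ m ^ k, x • w' = 0 := ⟨n + 1, hkill⟩
  set k := Nat.find hex with hk
  have hk0 : k ≠ 0 := by
    intro h0
    have := Nat.find_spec hex
    rw [← hk, h0, pow_zero] at this
    exact hw (by simpa using this 1 (by rw [Ideal.one_eq_top]; exact Submodule.mem_top))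
  obtain ⟨j, hj⟩ := Nat.exists_eq_succ_of_ne_zero hk0
  have hjlt : j < k := by omega
  have hnot := Nat.find_min hex (hk ▸ hjlt)
  push Not at hnot
  obtain ⟨x, hx, hxw⟩ := hnot
  refine ⟨x • w', hxw, fun a ha => ?_⟩
  rw [smul_smul]
  have : a * x ∈ m ^ k := by
    rw [hj, pow_succ']
    exact Ideal.mul_mem_mul ha hx
  exact Nat.find_spec hex (a * x) (hk ▸ this)


/-- (b) of Design Note #17 (4): a commutative algebra `R` acting on a nonzero finite-dimensional
space `V` through `ev`, and a character `χ` of `R` that vanishes on the kernel of the action: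
there is a nonzero simultaneous eigenvector with eigencharacter `χ`. -/
theorem pke_exists_eigen {K R V : Type*} [Field K] [CommRing R] [Algebra K R]
    [AddCommGroup V] [Module K V] [FiniteDimensional K V]
    (ev : R →ₐ[K] Module.End K V) (χ : R →ₐ[K] K) (hker : ∀ r, ev r = 0 → χ r = 0) :
    ∃ v : V, v ≠ 0 ∧ ∀ r, ev r v = χ r • v := by
  classical
  set J : Ideal R := RingHom.ker (ev : R →+* Module.End K V) with hJ
  let A := R ⧸ J
  let evA : A →ₐ[K] Module.End K V := Ideal.Quotient.liftₐ J ev (fun r hr => hr)
  have hevA : Function.Injective evA := by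
    rw [injective_iff_map_eq_zero]
    intro a ha
    obtain ⟨r, rfl⟩ := Ideal.Quotient.mk_surjective a
    have : ev r = 0 := ha
    exact Ideal.Quotient.eq_zero_iff_mem.2 this
  let χA : A →ₐ[K] K := Ideal.Quotient.liftₐ J χ (fun r hr => hker r hr)
  haveI : Module.Finite K A := Module.Finite.of_injective evA.toLinearMap hevA
  haveI : IsArtinianRing A := IsArtinianRing.of_finite K A
  letI : Module A V := Module.compHom V (evA : A →+* Module.End K V)
  have hsmul : ∀ (a : A) (v : V), a • v = evA a v := fun a v => rfl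
  have hfaith : ∀ a : A, (∀ v : V, a • v = 0) → a = 0 := by
    intro a ha
    apply hevA
    rw [map_zero]
    exact LinearMap.ext fun v => by rw [← hsmul, ha v, LinearMap.zero_apply]
  have hm : RingHom.ker (χA : A →+* K) ≠ ⊤ := by
    intro h
    have : (1 : A) ∈ RingHom.ker (χA : A →+* K) := by rw [h]; exact Submodule.mem_top
    rw [RingHom.mem_ker] at this
    simp at this
  obtain ⟨v, hv, hkill⟩ := pke_exists_killed (A := A) (V := V) hfaith _ hm
  refine ⟨v, hv, fun r => ?_⟩
  have hmem : Ideal.Quotient.mk J r - algebraMap K A (χ r) ∈ RingHom.ker (χA : A →+* K) := by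
    rw [RingHom.mem_ker, map_sub]
    have h1 : (χA : A →+* K) (Ideal.Quotient.mk J r) = χ r := rfl
    have h2 : (χA : A →+* K) (algebraMap K A (χ r)) = χ r := by
      show χA (algebraMap K A (χ r)) = χ r
      rw [AlgHom.commutes]; rfl
    rw [h1, h2, sub_self]
  have := hkill _ hmem
  rw [hsmul, map_sub, LinearMap.sub_apply, AlgHom.commutes, sub_eq_zero] at this
  rw [Module.algebraMap_end_apply] at this
  exact this


/-- (LI) Linear independence in `R^n` survives a flat extension of scalars `R → S`
(coordinatewise). -/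
theorem pke_linearIndependent_map {R S : Type*} [CommRing R] [CommRing S] [Algebra R S]
    [Module.Flat R S] {ι n : Type*} [Fintype n] [DecidableEq n] (v : ι → n → R)
    (hv : LinearIndependent R v) :
    LinearIndependent S (fun i => (algebraMap R S) ∘ v i) := by
  have h1 : LinearIndependent S (fun i => (1 : S) ⊗ₜ[R] v i) :=
    Module.Flat.linearIndependent_one_tmul hv
  have h2 := h1.map' (TensorProduct.piScalarRight R S S n).toLinearMap
    (LinearMap.ker_eq_bot.2 (TensorProduct.piScalarRight R S S n).injective)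
  have h3 : (fun i => (algebraMap R S) ∘ v i) =
      (⇑(TensorProduct.piScalarRight R S S n).toLinearMap ∘ fun i => (1 : S) ⊗ₜ[R] v i) := by
    funext i
    funext j
    simp [TensorProduct.piScalarRightHom_tmul, Algebra.smul_def]
  rw [h3]
  exact h2


/-- Matrix form of `pke_exists_eigen`. -/
theorem pke_exists_eigen_matrix {K R n : Type*} [Field K] [CommRing R] [Algebra K R]
    [Fintype n] [DecidableEq n]
    (ev : R →ₐ[K] Matrix n n K) (χ : R →ₐ[K] K) (hker : ∀ r, ev r = 0 → χ r = 0) :
    ∃ v : n → K, v ≠ 0 ∧ ∀ r, (ev r).mulVec v = χ r • v := by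
  obtain ⟨v, hv, h⟩ := pke_exists_eigen
    (ev := ((Matrix.toLinAlgEquiv' : Matrix n n K ≃ₐ[K] _).toAlgHom).comp ev) χ (by
      intro r hr
      apply hker
      have : (Matrix.toLinAlgEquiv' : Matrix n n K ≃ₐ[K] _) (ev r) = 0 := hr
      simpa using this)
  refine ⟨v, hv, fun r => ?_⟩
  have := h r
  simpa using this

/-- Extension of scalars of an eigencharacter: `A` a commutative `R`-algebra of `n × n` matrices
over a Dedekind domain `R`, `χ₀ : A → F` an `R`-algebra homomorphism to a field `F ⊇ R`. Then
`F^n` contains a nonzero simultaneous eigenvector with eigencharacter `χ₀`. -/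
theorem pke_eigen_matrix {R A F n : Type*} [CommRing R] [IsDomain R] [IsDedekindDomain R]
    [CommRing A] [Algebra R A] [Field F] [Algebra R F] [FaithfulSMul R F]
    [Fintype n] [DecidableEq n]
    (j : A →ₐ[R] Matrix n n R) (hj : Function.Injective j) (χ₀ : A →ₐ[R] F) :
    ∃ v : n → F, v ≠ 0 ∧ ∀ a : A, ((j a).map (algebraMap R F)).mulVec v = χ₀ a • v := by
  classical
  haveI : Module.Flat R F := inferInstance
  let jF : A →ₐ[R] Matrix n n F := ((Algebra.ofId R F).mapMatrix).comp j
  let evM : F ⊗[R] A →ₐ[F] Matrix n n F :=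
    Algebra.TensorProduct.lift (Algebra.ofId F (Matrix n n F)) jF
      (fun c a => Algebra.commute_algebraMap_left c (jF a))
  let χB : F ⊗[R] A →ₐ[F] F :=
    Algebra.TensorProduct.lift (AlgHom.id F F) χ₀ (fun c a => Commute.all _ _)
  have hevM : ∀ (c : F) (a : A), evM (c ⊗ₜ[R] a) = c • (j a).map (algebraMap R F) := by
    intro c a
    have h0 : evM (c ⊗ₜ[R] a) = (Algebra.ofId F (Matrix n n F)) c * jF a :=
      Algebra.TensorProduct.lift_tmul _ _ _ c a
    rw [h0]
    show algebraMap F (Matrix n n F) c * ((j a).map (algebraMap R F)) = _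
    rw [Algebra.algebraMap_eq_smul_one, smul_mul_assoc, one_mul]
  have hχB : ∀ (c : F) (a : A), χB (c ⊗ₜ[R] a) = c * χ₀ a := by
    intro c a
    exact Algebra.TensorProduct.lift_tmul _ _ _ c a
  -- injectivity of `evM`
  have hinj0 : Function.Injective (j.toLinearMap.lTensor F) :=
    Module.Flat.lTensor_preserves_injective_linearMap (M := F) j.toLinearMap hj
  have hev : ∀ x : F ⊗[R] A,
      evM x = (matrixEquivTensor n R F).symm (j.toLinearMap.lTensor F x) := by
    intro x
    induction x using TensorProduct.induction_on with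
    | zero => simp
    | tmul c a =>
      rw [LinearMap.lTensor_tmul, matrixEquivTensor_apply_symm, hevM]
      rfl
    | add x y hx hy => rw [map_add, map_add, map_add, hx, hy]
  have hinj : Function.Injective evM := by
    intro x y hxy
    rw [hev, hev] at hxy
    exact hinj0 ((matrixEquivTensor n R F).symm.injective hxy)
  obtain ⟨v, hv, h⟩ := pke_exists_eigen_matrix evM χB (by
    intro r hr
    have : r = 0 := hinj (by rw [hr, map_zero])
    rw [this, map_zero])
  refine ⟨v, hv, fun a => ?_⟩
  have h1 := h ((1 : F) ⊗ₜ[R] a)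
  have h2 : evM ((1 : F) ⊗ₜ[R] a) = (j a).map (algebraMap R F) := by
    rw [hevM, one_smul]
  have h3 : χB ((1 : F) ⊗ₜ[R] a) = χ₀ a := by
    rw [hχB, one_mul]
  rw [h2, h3] at h1
  exact h1

end Fermat.Agent.JT3
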