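import Mathlib
import Fermat.Prelude.Def_GaloisRep_Adic

/-!
# S30 packaging, PK4, module form: the lattice cut out by a subspace (prefix `pkb_`)

`O` a principal ideal domain, `Kb` a field which is a torsion-free `O`-algebra, `M` a finite free
`O`-module, `V` a `Kb`-vector space and `ι : M → V` an `O`-linear map with `Kb ⊗ M ≃ V`
(`IsBaseChange Kb ι`).  For a `Kb`-subspace `U ⊆ V`:

* `pkb_lat ι U = {m | ι m ∈ U}` is a saturated, finite free `O`-submodule of `M`;
* if `U` is spanned by `ι (pkb_lat ι U)` (the subspace is "defined over `Frac O`") then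
  `pkb_lat ι U → U` is again a base change (`pkb_isBaseChange`), so
  `rank_O (pkb_lat ι U) = dim_Kb U`;
* a group acting compatibly on `M` and `V` and stabilising `U` acts on the lattice
  (`pkb_rho`), adic continuity and triviality of single elements are inherited, and a minimal
  stable `U` gives an irreducible `Kb ⊗ pkb_lat ι U` (`pkb_irreducible`).
-/

set_option autoImplicit false

open TensorProduct

namespace Fermat.Agent.JT3

section lattice

variable {O : Type*} [CommRing O] [IsDomain O] [IsPrincipalIdealRing O]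
  {Kb : Type*} [Field Kb] [Algebra O Kb] [NoZeroSMulDivisors O Kb]
  {M : Type*} [AddCommGroup M] [Module O M]
  {V : Type*} [AddCommGroup V] [Module Kb V] [Module O V] [IsScalarTower O Kb V]
  (ι : M →ₗ[O] V) (U : Submodule Kb V)

/-- The lattice `{m ∈ M | ι m ∈ U}`. -/
def pkb_lat : Submodule O M := (U.restrictScalars O).comap ι

omit [IsDomain O] [IsPrincipalIdealRing O] [NoZeroSMulDivisors O Kb] in
theorem pkb_mem_lat {m : M} : m ∈ pkb_lat ι U ↔ ι m ∈ U := Iff.rfl

omit [IsPrincipalIdealRing O] in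
/-- The lattice is saturated. -/
theorem pkb_saturated {a : O} (ha : a ≠ 0) {m : M} (h : a • m ∈ pkb_lat ι U) :
    m ∈ pkb_lat ι U := by
  rw [pkb_mem_lat, map_smul, ← algebraMap_smul Kb a (ι m)] at h
  have ha' : algebraMap O Kb a ≠ 0 := by
    intro h0
    apply ha
    have h1 : a • (1 : Kb) = 0 := by rw [Algebra.smul_def, mul_one]; exact h0
    rcases smul_eq_zero.1 h1 with h2 | h2
    · exact h2
    · exact absurd h2 one_ne_zero
  have := U.smul_mem (algebraMap O Kb a)⁻¹ h
  rwa [smul_smul, inv_mul_cancel₀ ha', one_smul] at this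

/-- The map `pkb_lat ι U → U`. -/
def pkb_incl : pkb_lat ι U →ₗ[O] U :=
  ι.restrict (p := pkb_lat ι U) (q := U.restrictScalars O) (fun _ hx => hx)

omit [IsDomain O] [IsPrincipalIdealRing O] [NoZeroSMulDivisors O Kb] in
@[simp] theorem pkb_incl_coe (x : pkb_lat ι U) : ((pkb_incl ι U x : U) : V) = ι (x : M) := rfl

/-- **The lattice of a subspace defined over `Frac O` is a base change.** -/
theorem pkb_isBaseChange (hι : IsBaseChange Kb ι)
    (hU : U ≤ Submodule.span Kb (ι '' (pkb_lat ι U : Set M))) :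
    IsBaseChange Kb (pkb_incl ι U) := by
  set φ : Kb ⊗[O] (pkb_lat ι U) →ₗ[Kb] U := LinearMap.liftBaseChange Kb (pkb_incl ι U) with hφ
  -- injectivity: flatness of `Kb`
  have hinj : Function.Injective φ := by
    have h1 : Function.Injective ((pkb_lat ι U).subtype.baseChange Kb) := by
      rw [LinearMap.baseChange_eq_ltensor]
      exact Module.Flat.lTensor_preserves_injective_linearMap _ (Submodule.injective_subtype _)
    have h2 : ∀ z, (U.subtype (φ z) : V) = hι.equiv ((pkb_lat ι U).subtype.baseChange Kb z) := by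
      intro z
      induction z using TensorProduct.induction_on with
      | zero => simp
      | tmul c x =>
        rw [hφ, LinearMap.liftBaseChange_tmul, LinearMap.baseChange_tmul, IsBaseChange.equiv_tmul]
        rfl
      | add x y hx hy => rw [map_add, map_add, hx, hy, map_add, map_add]
    intro z z' hzz'
    apply h1
    apply hι.equiv.injective
    rw [← h2, ← h2, hzz']
  -- surjectivity: `U` is spanned by the lattice
  have hsurj : Function.Surjective φ := by
    have hle : Submodule.span Kb (ι '' (pkb_lat ι U : Set M)) ≤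
        LinearMap.range (U.subtype ∘ₗ φ) := by
      rw [Submodule.span_le]
      rintro _ ⟨m, hm, rfl⟩
      refine ⟨1 ⊗ₜ ⟨m, hm⟩, ?_⟩
      rw [LinearMap.comp_apply, hφ, LinearMap.liftBaseChange_tmul, one_smul]
      rfl
    rintro ⟨u, hu⟩
    obtain ⟨z, hz⟩ := hle (hU hu)
    exact ⟨z, Subtype.ext hz⟩
  exact IsBaseChange.of_equiv (LinearEquiv.ofBijective φ ⟨hinj, hsurj⟩)
    (fun x => by
      change φ (1 ⊗ₜ x) = pkb_incl ι U x
      rw [hφ, LinearMap.liftBaseChange_tmul, one_smul])

variable [Module.Free O M] [Module.Finite O M]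

/-- The rank of the lattice is the dimension of the subspace. -/
theorem pkb_finrank (hι : IsBaseChange Kb ι)
    (hU : U ≤ Submodule.span Kb (ι '' (pkb_lat ι U : Set M))) :
    Module.finrank O (pkb_lat ι U) = Module.finrank Kb U := by
  rw [← Module.finrank_baseChange (R := Kb) (S := O) (M' := pkb_lat ι U)]
  exact (pkb_isBaseChange ι U hι hU).equiv.finrank_eq

end lattice

section group

variable {O : Type*} [CommRing O] [IsDomain O] [IsPrincipalIdealRing O]
  {Kb : Type*} [Field Kb] [Algebra O Kb] [NoZeroSMulDivisors O Kb]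
  {M : Type*} [AddCommGroup M] [Module O M]
  {V : Type*} [AddCommGroup V] [Module Kb V] [Module O V] [IsScalarTower O Kb V]
  (ι : M →ₗ[O] V) (U : Submodule Kb V)
  {G : Type*} [Group G] (ρM : G →* Module.End O M) (ρV : G →* Module.End Kb V)
  (hc : ∀ σ m, ι (ρM σ m) = ρV σ (ι m)) (hst : ∀ σ, U ≤ U.comap (ρV σ))

include hc hst in
omit [IsDomain O] [IsPrincipalIdealRing O] [NoZeroSMulDivisors O Kb] in
theorem pkb_stable (σ : G) {m : M} (hm : m ∈ pkb_lat ι U) : ρM σ m ∈ pkb_lat ι U := by
  rw [pkb_mem_lat, hc]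
  exact hst σ hm

/-- The action on the lattice. -/
def pkb_rho : G →* Module.End O (pkb_lat ι U) where
  toFun σ := (ρM σ).restrict (p := pkb_lat ι U) (q := pkb_lat ι U)
    (fun _ hm => pkb_stable ι U ρM ρV hc hst σ hm)
  map_one' := by
    ext x
    simp
  map_mul' σ τ := by
    ext x
    simp [LinearMap.restrict_apply]

omit [IsDomain O] [IsPrincipalIdealRing O] [NoZeroSMulDivisors O Kb] in
@[simp] theorem pkb_rho_coe (σ : G) (x : pkb_lat ι U) :
    ((pkb_rho ι U ρM ρV hc hst σ x : pkb_lat ι U) : M) = ρM σ (x : M) := rfl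

omit [IsDomain O] [IsPrincipalIdealRing O] [NoZeroSMulDivisors O Kb] in
/-- Triviality is inherited (unramifiedness). -/
theorem pkb_rho_eq_one {σ : G} (h : ρM σ = 1) : pkb_rho ι U ρM ρV hc hst σ = 1 := by
  ext x
  rw [pkb_rho_coe, h]
  rfl

omit [IsDomain O] [IsPrincipalIdealRing O] [NoZeroSMulDivisors O Kb] in
/-- The map `pkb_lat ι U → U` is equivariant. -/
theorem pkb_incl_equivariant (σ : G) (x : pkb_lat ι U) :
    ((pkb_incl ι U (pkb_rho ι U ρM ρV hc hst σ x) : U) : V) = ρV σ (pkb_incl ι U x : U) := by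
  rw [pkb_incl_coe, pkb_rho_coe, hc, pkb_incl_coe]

/-- Congruences modulo a power of the maximal ideal are inherited by the lattice. -/
theorem pkb_adic [IsLocalRing O] (σ : G) (n : ℕ)
    (h : ∀ v : M, ρM σ v - v ∈ (IsLocalRing.maximalIdeal O ^ n) • (⊤ : Submodule O M))
    (x : pkb_lat ι U) :
    pkb_rho ι U ρM ρV hc hst σ x - x ∈
      (IsLocalRing.maximalIdeal O ^ n) • (⊤ : Submodule O (pkb_lat ι U)) := by
  obtain ⟨π, hπ⟩ : ∃ π : O, IsLocalRing.maximalIdeal O = Ideal.span {π} :=
    ⟨_, (Submodule.IsPrincipal.span_singleton_generator (IsLocalRing.maximalIdeal O)).symm⟩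
  have hpow : IsLocalRing.maximalIdeal O ^ n = Ideal.span {π ^ n} := by
    rw [hπ, Ideal.span_singleton_pow]
  rw [hpow, Submodule.ideal_span_singleton_smul]
  have h1 := h (x : M)
  rw [hpow, Submodule.ideal_span_singleton_smul] at h1
  obtain ⟨m, -, hm⟩ := h1
  change π ^ n • m = _ at hm
  by_cases h0 : π ^ n = 0
  · rw [h0, zero_smul] at hm
    have : pkb_rho ι U ρM ρV hc hst σ x - x = 0 := Subtype.ext (by
      rw [Submodule.coe_sub, pkb_rho_coe, ← hm]; rfl)
    rw [this]
    exact Submodule.zero_mem _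
  · have hmem : π ^ n • m ∈ pkb_lat ι U := by
      rw [hm]
      exact Submodule.sub_mem _ (pkb_stable ι U ρM ρV hc hst σ x.2) x.2
    have hm' : m ∈ pkb_lat ι U := pkb_saturated ι U h0 hmem
    refine ⟨⟨m, hm'⟩, Submodule.mem_top, Subtype.ext ?_⟩
    change π ^ n • m = _
    rw [hm]
    rfl

/-- The equivalence `Kb ⊗ lattice ≃ U` is equivariant. -/
theorem pkb_equiv_equivariant (hι : IsBaseChange Kb ι)
    (hU : U ≤ Submodule.span Kb (ι '' (pkb_lat ι U : Set M))) (σ : G)
    (z : Kb ⊗[O] (pkb_lat ι U)) :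
    (((pkb_isBaseChange ι U hι hU).equiv
        ((pkb_rho ι U ρM ρV hc hst σ).baseChange Kb z) : U) : V) =
      ρV σ (((pkb_isBaseChange ι U hι hU).equiv z : U) : V) := by
  induction z using TensorProduct.induction_on with
  | zero => simp
  | tmul c x =>
    rw [LinearMap.baseChange_tmul, IsBaseChange.equiv_tmul, IsBaseChange.equiv_tmul,
      Submodule.coe_smul, Submodule.coe_smul, map_smul, pkb_incl_equivariant]
  | add x y hx hy =>
    rw [map_add, map_add, Submodule.coe_add, hx, hy, map_add, Submodule.coe_add, map_add]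

/-- **Irreducibility**: if `U` is a minimal stable subspace then `Kb ⊗ lattice` has no proper
nonzero stable subspace. -/
theorem pkb_irreducible (hι : IsBaseChange Kb ι)
    (hU : U ≤ Submodule.span Kb (ι '' (pkb_lat ι U : Set M)))
    (hmin : ∀ U' : Submodule Kb V, U' ≤ U → (∀ σ, U' ≤ U'.comap (ρV σ)) → U' = ⊥ ∨ U' = U)
    (W : Submodule Kb (Kb ⊗[O] (pkb_lat ι U)))
    (hW : ∀ σ, W ≤ W.comap ((pkb_rho ι U ρM ρV hc hst σ).baseChange Kb)) :
    W = ⊥ ∨ W = ⊤ := by
  set e := (pkb_isBaseChange ι U hι hU).equiv with he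
  set U' : Submodule Kb V := (W.map (e : _ →ₗ[Kb] U)).map U.subtype with hU'
  have hle : U' ≤ U := by
    rintro _ ⟨u, -, rfl⟩
    exact u.2
  have hstab : ∀ σ, U' ≤ U'.comap (ρV σ) := by
    rintro σ _ ⟨_, ⟨z, hz, rfl⟩, rfl⟩
    refine ⟨e ((pkb_rho ι U ρM ρV hc hst σ).baseChange Kb z), ⟨_, hW σ hz, rfl⟩, ?_⟩
    exact pkb_equiv_equivariant ι U ρM ρV hc hst hι hU σ z
  rcases hmin U' hle hstab with h | h
  · left
    rw [eq_bot_iff]
    intro z hz
    have h1 : ((e z : U) : V) ∈ U' := ⟨e z, ⟨z, hz, rfl⟩, rfl⟩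
    rw [h, Submodule.mem_bot] at h1
    have h2 : e z = 0 := Subtype.ext h1
    rw [Submodule.mem_bot]
    exact e.injective (h2.trans (map_zero e).symm)
  · right
    rw [eq_top_iff]
    intro z _
    have h1 : ((e z : U) : V) ∈ U' := by rw [h]; exact (e z).2
    obtain ⟨u, ⟨z', hz', rfl⟩, hu⟩ := h1
    have h2 : e z' = e z := Subtype.ext hu
    rw [← e.injective h2]
    exact hz'

end group

section natural

/-! ### The natural instance: `M = O ⊗[R] T`, `V = Kb ⊗[R] T` -/

variable (R : Type*) [CommRing R] (O : Type*) [CommRing O] [Algebra R O]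
  (Kb : Type*) [Field Kb] [Algebra R Kb] [Algebra O Kb] [IsScalarTower R O Kb]
  (T : Type*) [AddCommGroup T] [Module R T]

/-- The natural map `O ⊗[R] T → Kb ⊗[R] T`. -/
noncomputable def pkb_iota : O ⊗[R] T →ₗ[O] Kb ⊗[R] T :=
  TensorProduct.AlgebraTensorModule.map (Algebra.linearMap O Kb) (LinearMap.id : T →ₗ[R] T)

@[simp] theorem pkb_iota_tmul (a : O) (t : T) :
    pkb_iota R O Kb T (a ⊗ₜ t) = algebraMap O Kb a ⊗ₜ t := rfl

/-- `Kb ⊗[R] T` is the base change of `O ⊗[R] T`. -/
theorem pkb_iota_isBaseChange : IsBaseChange Kb (pkb_iota R O Kb T) := by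
  refine IsBaseChange.of_equiv (TensorProduct.AlgebraTensorModule.cancelBaseChange R O Kb Kb T)
    (fun x => ?_)
  induction x using TensorProduct.induction_on with
  | zero => simp
  | tmul a t =>
    rw [TensorProduct.AlgebraTensorModule.cancelBaseChange_tmul, pkb_iota_tmul,
      Algebra.smul_def, mul_one]
  | add x y hx hy => rw [TensorProduct.tmul_add, map_add, hx, hy, map_add]

/-- Base changes of an endomorphism of `T` are compatible with `pkb_iota`. -/
theorem pkb_iota_baseChange (f : T →ₗ[R] T) (x : O ⊗[R] T) :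
    pkb_iota R O Kb T (f.baseChange O x) = f.baseChange Kb (pkb_iota R O Kb T x) := by
  induction x using TensorProduct.induction_on with
  | zero => simp
  | tmul a t => simp
  | add x y hx hy => rw [map_add, map_add, hx, hy, map_add, map_add]

end natural

section galois

local notation "Qbar" => AlgebraicClosure ℚ
local notation "GQ" => (AlgebraicClosure ℚ ≃ₐ[ℚ] AlgebraicClosure ℚ)

variable {O : Type} [CommRing O] [IsDomain O] [IsPrincipalIdealRing O] [IsLocalRing O]
  {Kb : Type*} [Field Kb] [Algebra O Kb] [NoZeroSMulDivisors O Kb]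
  {M : Type} [AddCommGroup M] [Module O M]
  {V : Type*} [AddCommGroup V] [Module Kb V] [Module O V] [IsScalarTower O Kb V]
  (ι : M →ₗ[O] V) (U : Submodule Kb V)
  (ρM : GQ →* Module.End O M) (ρV : GQ →* Module.End Kb V)
  (hc : ∀ σ m, ι (ρM σ m) = ρV σ (ι m)) (hst : ∀ σ, U ≤ U.comap (ρV σ))

/-- **Adic continuity is inherited by the lattice.** -/
theorem pkb_adicContinuous (h : GaloisActionIsAdicContinuous O ρM) :
    GaloisActionIsAdicContinuous O (pkb_rho ι U ρM ρV hc hst) := by
  intro n
  obtain ⟨L, hL, hσ⟩ := h n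
  exact ⟨L, hL, fun σ hσL x => pkb_adic ι U ρM ρV hc hst σ n (hσ σ hσL) x⟩

end galois

end Fermat.Agent.JT3
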