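/-
[PK] = S30 packaging, PK7 auxiliary lemmas for the final assembly `Pack/Main.lean`
(rational route: `𝒪'' := 𝒪'`, `K := Frac 𝒪'`, module form of the lattice).

* `pk_bc`                : base change of a representation along `A → B`;
* `pk_adicContinuous_bc` : adic continuity is preserved by base change along a local homomorphism;
* `pk_isLocalHom_padic`, `pk_padic_injective` : ring homomorphisms `ℤ_[p] → O`;
* `pk_clear_denominators`, `pk_le_span_lat` : every subspace of `Frac O ⊗ T` is spanned by its
  lattice points (the hypothesis `hU` of helper6's `pkb_` lemmas);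
* `pk_eigen_tensor`      : simultaneous eigenvector in `K ⊗ T` (tensor form of `pke_eigen_matrix`);
* `pk_iota_injective`, `pk_exists_minimal_le`, `pk_bc_relation`, `pk_eq_of_smul_one`.

Owner: helper25.  Prefix `pk_`.
-/
import Mathlib
import Fermat.Prelude.Def_GaloisRep_Adic
import Fermat.Agent.JT3.Pack.LatticeBC
import Fermat.Agent.JT3.Pack.Eigen

set_option autoImplicit false

namespace Fermat.Agent.JT3

open IsLocalRing TensorProduct

local notation "GQ" => (AlgebraicClosure ℚ ≃ₐ[ℚ] AlgebraicClosure ℚ)
local notation "Qbar" => AlgebraicClosure ℚ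

section bc

variable {A : Type*} [CommRing A] {T : Type*} [AddCommGroup T] [Module A T]
  {G : Type*} [Group G]

/-- Base change of a representation on an `A`-module to an `A`-algebra `B`. -/
noncomputable def pk_bc (B : Type*) [CommRing B] [Algebra A B] (ρ : G →* Module.End A T) :
    G →* Module.End B (B ⊗[A] T) where
  toFun g := (ρ g).baseChange B
  map_one' := by rw [map_one, LinearMap.baseChange_one]
  map_mul' g h := by rw [map_mul, LinearMap.baseChange_mul]

@[simp] theorem pk_bc_apply (B : Type*) [CommRing B] [Algebra A B] (ρ : G →* Module.End A T)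
    (g : G) : pk_bc B ρ g = (ρ g).baseChange B := rfl

/-- A quadratic relation is preserved by base change. -/
theorem pk_bc_relation (B : Type*) [CommRing B] [Algebra A B] (ρ : G →* Module.End A T) (g : G)
    {t e : A} (h : ρ g * ρ g - t • ρ g + e • 1 = 0) :
    pk_bc B ρ g * pk_bc B ρ g - algebraMap A B t • pk_bc B ρ g + algebraMap A B e • 1 = 0 := by
  have h1 := congrArg (LinearMap.baseChange B) h
  rw [LinearMap.baseChange_add, LinearMap.baseChange_sub, LinearMap.baseChange_mul,
    LinearMap.baseChange_smul, LinearMap.baseChange_smul, LinearMap.baseChange_one,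
    LinearMap.baseChange_zero] at h1
  rw [pk_bc_apply, algebraMap_smul, algebraMap_smul]
  exact h1

end bc

/-- Adic continuity is preserved by base change along a local homomorphism. -/
theorem pk_adicContinuous_bc {A B : Type} [CommRing A] [IsLocalRing A] [CommRing B]
    [IsLocalRing B] [Algebra A B] [IsLocalHom (algebraMap A B)]
    {T : Type} [AddCommGroup T] [Module A T] (ρ : GQ →* Module.End A T)
    (h : GaloisActionIsAdicContinuous A ρ) : GaloisActionIsAdicContinuous B (pk_bc B ρ) := by
  intro n
  obtain ⟨L, hL, h1⟩ := h n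
  refine ⟨L, hL, fun σ hσ => ?_⟩
  have hmap : (maximalIdeal A ^ n).map (algebraMap A B) ≤ maximalIdeal B ^ n := by
    rw [Ideal.map_pow]
    exact Ideal.pow_right_mono (Ideal.map_le_iff_le_comap.mpr fun a ha =>
      Ideal.mem_comap.mpr (map_nonunit (algebraMap A B) a ha)) n
  have hpure : ∀ (b : B) (v : T),
      (ρ σ).baseChange B (b ⊗ₜ[A] v) - b ⊗ₜ[A] v ∈
        (maximalIdeal B ^ n) • (⊤ : Submodule B (B ⊗[A] T)) := by
    intro b v
    rw [LinearMap.baseChange_tmul, ← TensorProduct.tmul_sub]
    refine Submodule.smul_induction_on (p := fun x => b ⊗ₜ[A] x ∈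
      (maximalIdeal B ^ n) • (⊤ : Submodule B (B ⊗[A] T))) (h1 σ hσ v) ?_ ?_
    · intro a ha w _
      rw [TensorProduct.tmul_smul, TensorProduct.smul_tmul', Algebra.smul_def, ← smul_eq_mul,
        ← TensorProduct.smul_tmul']
      exact Submodule.smul_mem_smul (hmap (Ideal.mem_map_of_mem _ ha)) Submodule.mem_top
    · intro x y hx hy
      rw [TensorProduct.tmul_add]
      exact Submodule.add_mem _ hx hy
  intro w
  rw [pk_bc_apply]
  induction w using TensorProduct.induction_on with
  | zero => rw [map_zero, sub_zero]; exact Submodule.zero_mem _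
  | tmul b v => exact hpure b v
  | add x y hx hy =>
    rw [map_add, add_sub_add_comm]
    exact Submodule.add_mem _ hx hy

/-- A ring homomorphism from `ℤ_[p]` to a local ring with `p` in the maximal ideal is local. -/
theorem pk_isLocalHom_padic (p : ℕ) [Fact p.Prime] {O : Type*} [CommRing O] [IsLocalRing O]
    (hp : (p : O) ∈ maximalIdeal O) (φ : ℤ_[p] →+* O) : IsLocalHom φ := by
  refine ⟨fun a ha => ?_⟩
  by_contra hna
  have hmem : a ∈ maximalIdeal ℤ_[p] := hna
  rw [PadicInt.maximalIdeal_eq_span_p, Ideal.mem_span_singleton'] at hmem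
  obtain ⟨b, rfl⟩ := hmem
  rw [map_mul, map_natCast] at ha
  have : (p : O) ∈ maximalIdeal O := hp
  exact (mem_maximalIdeal _).1 (Ideal.mul_mem_left _ (φ b) this) ha

/-- A ring homomorphism from `ℤ_[p]` to a domain of characteristic zero is injective. -/
theorem pk_padic_injective (p : ℕ) [Fact p.Prime] {O : Type*} [CommRing O] [IsDomain O]
    [CharZero O] (φ : ℤ_[p] →+* O) : Function.Injective φ := by
  rw [injective_iff_map_eq_zero]
  intro x hx
  by_contra hx0
  have hspec := PadicInt.unitCoeff_spec hx0
  rw [hspec, map_mul, map_pow, map_natCast] at hx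
  rcases mul_eq_zero.1 hx with h | h
  · exact ((PadicInt.unitCoeff hx0).isUnit.map φ).ne_zero h
  · have hp0 : (p : O) ≠ 0 := Nat.cast_ne_zero.2 (Fact.out : p.Prime).ne_zero
    exact pow_ne_zero _ hp0 h

section denominators

variable (R : Type*) [CommRing R] (O : Type*) [CommRing O] [IsDomain O] [Algebra R O]
  (K : Type*) [Field K] [Algebra R K] [Algebra O K] [IsScalarTower R O K] [IsFractionRing O K]
  (T : Type*) [AddCommGroup T] [Module R T]

/-- Clearing denominators in `K ⊗ T`, `K = Frac O`. -/
theorem pk_clear_denominators (v : K ⊗[R] T) :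
    ∃ (s : O) (m : O ⊗[R] T), s ≠ 0 ∧ pkb_iota R O K T m = algebraMap O K s • v := by
  induction v using TensorProduct.induction_on with
  | zero => exact ⟨1, 0, one_ne_zero, by simp⟩
  | tmul c t =>
    obtain ⟨x, s, hs, rfl⟩ := IsFractionRing.div_surjective (A := O) c
    refine ⟨s, x ⊗ₜ t, nonZeroDivisors.ne_zero hs, ?_⟩
    rw [pkb_iota_tmul, TensorProduct.smul_tmul', smul_eq_mul, mul_div_cancel₀]
    exact (map_ne_zero_iff _ (IsFractionRing.injective O K)).2 (nonZeroDivisors.ne_zero hs)
  | add v w hv hw =>
    obtain ⟨s, m, hs, hm⟩ := hv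
    obtain ⟨s', m', hs', hm'⟩ := hw
    refine ⟨s * s', s' • m + s • m', mul_ne_zero hs hs', ?_⟩
    rw [map_add, map_smul, map_smul, hm, hm', smul_add, map_mul, ← algebraMap_smul K s',
      ← algebraMap_smul K s, smul_smul, smul_smul, mul_comm]

/-- Every subspace of `K ⊗ T` is spanned by its lattice points. -/
theorem pk_le_span_lat (U : Submodule K (K ⊗[R] T)) :
    U ≤ Submodule.span K
      (pkb_iota R O K T '' (pkb_lat (pkb_iota R O K T) U : Set (O ⊗[R] T))) := by
  intro u hu
  obtain ⟨s, m, hs, hm⟩ := pk_clear_denominators R O K T u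
  have hs' : algebraMap O K s ≠ 0 := (map_ne_zero_iff _ (IsFractionRing.injective O K)).2 hs
  have hmem : m ∈ pkb_lat (pkb_iota R O K T) U := by
    rw [pkb_mem_lat, hm]
    exact U.smul_mem _ hu
  have : u = (algebraMap O K s)⁻¹ • pkb_iota R O K T m := by
    rw [hm, smul_smul, inv_mul_cancel₀ hs', one_smul]
  rw [this]
  exact Submodule.smul_mem _ _ (Submodule.subset_span ⟨m, hmem, rfl⟩)

end denominators

/-- Step (b) of Design Note #17 (4) in tensor form: a commutative algebra `A` of endomorphisms of a
finite free module `T` over a Dedekind domain `R`, a field `K ⊇ R` and an `R`-algebra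
homomorphism `χ₀ : A → K`: `K ⊗ T` contains a nonzero simultaneous eigenvector with eigencharacter
`χ₀`. -/
theorem pk_eigen_tensor {R : Type*} [CommRing R] [IsDedekindDomain R]
    {T : Type*} [AddCommGroup T] [Module R T] [Module.Free R T] [Module.Finite R T]
    (A : Subalgebra R (Module.End R T)) (hcomm : ∀ a ∈ A, ∀ b ∈ A, a * b = b * a)
    {K : Type*} [Field K] [Algebra R K] [FaithfulSMul R K] (χ₀ : A →ₐ[R] K) :
    ∃ v : K ⊗[R] T, v ≠ 0 ∧ ∀ a : A, (a : Module.End R T).baseChange K v = χ₀ a • v := by
  classical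
  let _ : CommRing A :=
    { (inferInstance : Ring A) with
      mul_comm := fun a b => Subtype.ext (hcomm a a.2 b b.2) }
  set ι := Module.Free.ChooseBasisIndex R T
  let b : Module.Basis ι R T := Module.Free.chooseBasis R T
  let j : A →ₐ[R] Matrix ι ι R := (LinearMap.toMatrixAlgEquiv b).toAlgHom.comp A.val
  have hj : Function.Injective j := by
    intro x y hxy
    exact Subtype.ext ((LinearMap.toMatrixAlgEquiv b).injective hxy)
  obtain ⟨v, hv, h⟩ := pke_eigen_matrix j hj χ₀
  let bK : Module.Basis ι K (K ⊗[R] T) := Algebra.TensorProduct.basis K b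
  refine ⟨bK.equivFun.symm v, ?_, fun a => ?_⟩
  · intro h0
    apply hv
    have := congrArg bK.equivFun h0
    rwa [LinearEquiv.apply_symm_apply, map_zero] at this
  · apply bK.equivFun.injective
    rw [map_smul, LinearEquiv.apply_symm_apply]
    have h1 := h a
    have h2 : LinearMap.toMatrix bK bK ((a : Module.End R T).baseChange K) =
        (j a).map (algebraMap R K) := LinearMap.toMatrix_baseChange K _ b b
    rw [← h2] at h1
    have h3 := LinearMap.toMatrix_mulVec_repr bK bK ((a : Module.End R T).baseChange K)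
      (bK.equivFun.symm v)
    have h4 : (bK.repr (bK.equivFun.symm v) : ι → K) = v := by
      have := bK.equivFun.apply_symm_apply v
      exact this
    rw [h4] at h3
    rw [← h1, h3]
    rfl

/-- `O ⊗ T → K ⊗ T` is injective when `T` is flat and `O → K` is injective. -/
theorem pk_iota_injective (R : Type*) [CommRing R] (O : Type*) [CommRing O] [Algebra R O]
    (K : Type*) [Field K] [Algebra R K] [Algebra O K] [IsScalarTower R O K]
    (T : Type*) [AddCommGroup T] [Module R T] [Module.Flat R T]
    (hinj : Function.Injective (algebraMap O K)) :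
    Function.Injective (pkb_iota R O K T) := by
  let f : O →ₗ[R] K := (Algebra.linearMap O K).restrictScalars R
  have hf : Function.Injective f := hinj
  have h1 : Function.Injective (f.rTensor T) :=
    Module.Flat.rTensor_preserves_injective_linearMap f hf
  have h2 : ∀ x, pkb_iota R O K T x = f.rTensor T x := by
    intro x
    induction x using TensorProduct.induction_on with
    | zero => simp
    | tmul a t => rfl
    | add x y hx hy => rw [map_add, map_add, hx, hy]
  intro x y hxy
  rw [h2, h2] at hxy
  exact h1 hxy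

/-- A nonzero stable subspace of a finite-dimensional representation contains a minimal nonzero
stable subspace. -/
theorem pk_exists_minimal_le {K : Type*} [Field K] {V : Type*} [AddCommGroup V] [Module K V]
    [FiniteDimensional K V] {G : Type*} [Group G] (ρ : G →* Module.End K V)
    (W : Submodule K V) (hW0 : W ≠ ⊥) (hWst : ∀ g, W ≤ W.comap (ρ g)) :
    ∃ U : Submodule K V, U ≤ W ∧ U ≠ ⊥ ∧ (∀ g, U ≤ U.comap (ρ g)) ∧
      ∀ U' : Submodule K V, U' ≤ U → (∀ g, U' ≤ U'.comap (ρ g)) → U' = ⊥ ∨ U' = U := by
  classical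
  let P : ℕ → Prop := fun n => ∃ U : Submodule K V, U ≤ W ∧ U ≠ ⊥ ∧ (∀ g, U ≤ U.comap (ρ g)) ∧
    Module.finrank K U = n
  have hex : ∃ n, P n := ⟨_, W, le_rfl, hW0, hWst, rfl⟩
  obtain ⟨U, hUW, hU0, hUs, hUn⟩ := Nat.find_spec hex
  refine ⟨U, hUW, hU0, hUs, fun U' hle hs' => ?_⟩
  by_cases h0 : U' = ⊥
  · exact Or.inl h0
  · right
    have hmin : Nat.find hex ≤ Module.finrank K U' :=
      Nat.find_min' hex ⟨U', hle.trans hUW, h0, hs', rfl⟩
    rw [← hUn] at hmin
    exact Submodule.eq_of_le_of_finrank_le hle hmin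

/-- On a nontrivial free module over a domain, `r • 1 = 0` forces `r = 0`. -/
theorem pk_eq_of_smul_one {O : Type*} [CommRing O] [IsDomain O] {Λ : Type*} [AddCommGroup Λ]
    [Module O Λ] [Module.Free O Λ] [Nontrivial Λ] {r : O}
    (h : r • (1 : Module.End O Λ) = 0) : r = 0 := by
  obtain ⟨x, hx⟩ := exists_ne (0 : Λ)
  have h1 : r • x = 0 := by
    have := LinearMap.congr_fun h x
    simpa using this
  rcases smul_eq_zero.1 h1 with h2 | h2
  · exact h2
  · exact absurd h2 hx

end Fermat.Agent.JT3
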