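/-
[PK] S30 packaging, leaf [ODD] (helper28): the quadratic group lemma over an ARBITRARY field with
`2 ≠ 0`, in the presence of an odd involution (complex conjugation).

`K` any field, `(2 : K) ≠ 0`, `ρ : G →* End_K U` with no proper nonzero stable subspace,
`ε : G →* Kˣ`, `t : G → K` with `ρ(g)² - t(g) ρ(g) + ε(g) = 0` for all `g`, and `c ∈ G` with
`c * c = 1`, `ε c = -1`.  Then `dim U ≤ 2` (`pko_finrank_le_two`), and if `dim U = 2` then
`charpoly (ρ g) = X² - t(g) X + ε(g)` for all `g` (`pko_charpoly`; this part needs no involution).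
No Burnside, no algebraic closure, no division algebras.  Also: existence of a minimal stable
subspace, restriction of a representation to it (`pko_exists_minimal`, `pko_restrict*`).
Uses only `qg_anti` / `qg_c_anti` from `JT3/Algebra/QuadGroup.lean` (valid over any field).
Prefix `pko_`.
-/
import Mathlib
import Fermat.Agent.JT3.Algebra.QuadGroup

set_option autoImplicit false
set_option linter.unusedSectionVars false
set_option linter.style.haveILetI false

namespace Fermat.Agent.JT3

open Module

section odd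

variable {K : Type*} [Field K] {U : Type*} [AddCommGroup U] [Module K U]
  {G : Type*} [Group G] {ρ : G →* (U →ₗ[K] U)} {ε : G →* Kˣ} {t : G → K}

variable (h : ∀ g, ρ g * ρ g - t g • ρ g + (ε g : K) • (1 : Module.End K U) = 0)
  {c : G} (hc : c * c = 1) (hεc : (ε c : K) = -1)

omit h hεc in
theorem pko_C_sq (hc : c * c = 1) : ρ c * ρ c = 1 := by rw [← map_mul, hc, map_one]

include h hc hεc

/-- the trace function vanishes at an odd involution -/
theorem pko_t_c [Nontrivial U] : t c = 0 := by
  have e := h c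
  rw [pko_C_sq hc, hεc] at e
  have e2 : t c • ρ c = 0 := by
    have : (1 : Module.End K U) - t c • ρ c + (-1 : K) • (1 : Module.End K U) =
        - (t c • ρ c) := by
      rw [neg_one_smul]; abel
    rw [this] at e
    exact neg_eq_zero.1 e
  rcases smul_eq_zero.1 e2 with h0 | h0
  · exact h0
  · exfalso
    have h1 := pko_C_sq (ρ := ρ) hc
    rw [h0, zero_mul] at h1
    obtain ⟨u, hu⟩ := exists_ne (0 : U)
    have := congrArg (fun f : Module.End K U => f u) h1
    simp only [LinearMap.zero_apply, Module.End.one_apply] at this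
    exact hu this.symm

/-- the anticommutator with the odd involution -/
theorem pko_anti [Nontrivial U] (k : G) :
    ρ c * ρ k + ρ k * ρ c = t (c * k) • (1 : Module.End K U) + t k • ρ c := by
  have e := qg_anti h c k
  rw [pko_t_c h hc hεc] at e
  simpa using e

end odd

section oddLine

variable {K : Type*} [Field K] {U : Type*} [AddCommGroup U] [Module K U] [Nontrivial U]
  {G : Type*} [Group G] {ρ : G →* (U →ₗ[K] U)} {ε : G →* Kˣ} {t : G → K}

variable (h2 : (2 : K) ≠ 0)
  (hirr : ∀ W : Submodule K U, (∀ g, W ≤ W.comap (ρ g)) → W = ⊥ ∨ W = ⊤)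
  (h : ∀ g, ρ g * ρ g - t g • ρ g + (ε g : K) • (1 : Module.End K U) = 0)
  {c : G} (hc : c * c = 1) (hεc : (ε c : K) = -1)

include h2 hirr h hc hεc

/-- each eigenspace of the odd involution is at most a line -/
theorem pko_eigen_line {s : K} (hs : s * s = 1) {u : U} (hu : u ≠ 0) (hCu : ρ c u = s • u)
    {v : U} (hCv : ρ c v = s • v) : ∃ x : K, v = x • u := by
  have hs0 : s ≠ 0 := by
    rintro rfl
    simp at hs
  set a : G → K := fun k => (t k + s * t (c * k)) / 2 with ha
  set γ : G → U := fun k => ρ k u - a k • u with hγ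
  -- the action of the involution on `ρ k u`
  have key : ∀ k, ρ c (ρ k u) = (-s) • ρ k u + (t (c * k) + s * t k) • u := by
    intro k
    have e := congrArg (fun f : Module.End K U => f u) (pko_anti h hc hεc k)
    simp only [LinearMap.add_apply, Module.End.mul_apply, LinearMap.smul_apply,
      Module.End.one_apply, hCu, map_smul] at e
    have e' : ρ c (ρ k u) = t (c * k) • u + t k • s • u - s • ρ k u := eq_sub_of_add_eq e
    rw [e']
    module
  have hγC : ∀ k, ρ c (γ k) = (-s) • γ k := by
    intro k
    have h2a : 2 * a k = t k + s * t (c * k) := by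
      simp only [ha]
      field_simp
    have hsc : t (c * k) + s * t k - a k * s = s * a k := by
      linear_combination (-s) * h2a - t (c * k) * hs
    calc ρ c (γ k) = ρ c (ρ k u) - a k • ρ c u := by simp [hγ, map_sub, map_smul]
      _ = (-s) • ρ k u + (t (c * k) + s * t k) • u - a k • (s • u) := by rw [key, hCu]
      _ = (-s) • ρ k u + (t (c * k) + s * t k - a k * s) • u := by module
      _ = (-s) • ρ k u + (s * a k) • u := by rw [hsc]
      _ = (-s) • γ k := by simp only [hγ]; module
  -- the stable subspace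
  set W : Submodule K U := Submodule.span K ({u} ∪ Set.range γ) with hW
  have huW : u ∈ W := Submodule.subset_span (Or.inl rfl)
  have hγW : ∀ k, γ k ∈ W := fun k => Submodule.subset_span (Or.inr ⟨k, rfl⟩)
  have hρu : ∀ g, ρ g u = γ g + a g • u := fun g => by simp [hγ]
  have hstab : ∀ g, W ≤ W.comap (ρ g) := by
    intro g
    rw [hW, Submodule.span_le]
    rintro x (hx | ⟨k, rfl⟩)
    · rw [Set.mem_singleton_iff] at hx
      rw [hx]
      change ρ g u ∈ W
      rw [hρu]
      exact W.add_mem (hγW g) (W.smul_mem _ huW)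
    · change ρ g (γ k) ∈ W
      have : ρ g (γ k) = (γ (g * k) + a (g * k) • u) - a k • (γ g + a g • u) := by
        rw [← hρu, ← hρu]
        simp only [hγ, map_sub, map_smul, map_mul, Module.End.mul_apply]
      rw [this]
      exact W.sub_mem (W.add_mem (hγW _) (W.smul_mem _ huW))
        (W.smul_mem _ (W.add_mem (hγW _) (W.smul_mem _ huW)))
  have hWtop : W = ⊤ := by
    rcases hirr W hstab with h0 | h0
    · exfalso
      rw [h0, Submodule.mem_bot] at huW
      exact hu huW
    · exact h0
  -- project with `ρ c + s`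
  have hproj : ∀ y ∈ W, ∃ x : K, ρ c y + s • y = x • u := by
    intro y hy
    rw [hW] at hy
    induction hy using Submodule.span_induction with
    | mem y hy =>
      rcases hy with hy | ⟨k, rfl⟩
      · rw [Set.mem_singleton_iff] at hy
        rw [hy, hCu]
        exact ⟨s + s, by rw [add_smul]⟩
      · rw [hγC]
        exact ⟨0, by rw [neg_smul, neg_add_cancel, zero_smul]⟩
    | zero => exact ⟨0, by simp⟩
    | add y z _ _ hy hz =>
      obtain ⟨x1, h1⟩ := hy
      obtain ⟨x2, h3⟩ := hz
      refine ⟨x1 + x2, ?_⟩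
      rw [map_add, smul_add, add_smul, ← h1, ← h3]
      abel
    | smul r y _ hy =>
      obtain ⟨x1, h1⟩ := hy
      refine ⟨r * x1, ?_⟩
      rw [map_smul, smul_comm s r y, ← smul_add, h1, smul_smul]
  obtain ⟨x, hx⟩ := hproj v (by rw [hWtop]; trivial)
  rw [hCv, ← add_smul] at hx
  have h2s : s + s ≠ 0 := by
    rw [← two_mul]
    exact mul_ne_zero h2 hs0
  refine ⟨(s + s)⁻¹ * x, ?_⟩
  rw [← smul_smul, ← hx, smul_smul, inv_mul_cancel₀ h2s, one_smul]

end oddLine

section oddDim

variable {K : Type*} [Field K] {U : Type*} [AddCommGroup U] [Module K U] [Nontrivial U]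
  {G : Type*} [Group G] {ρ : G →* (U →ₗ[K] U)} {ε : G →* Kˣ} {t : G → K}

variable (h2 : (2 : K) ≠ 0)
  (hirr : ∀ W : Submodule K U, (∀ g, W ≤ W.comap (ρ g)) → W = ⊥ ∨ W = ⊤)
  (h : ∀ g, ρ g * ρ g - t g • ρ g + (ε g : K) • (1 : Module.End K U) = 0)
  {c : G} (hc : c * c = 1) (hεc : (ε c : K) = -1)

include h2 hirr h hc hεc

/-- **The dimension is at most `2`** (no hypothesis on the field besides `2 ≠ 0`). -/
theorem pko_finrank_le_two : Module.finrank K U ≤ 2 := by
  classical
  have hCC : ∀ v : U, ρ c (ρ c v) = v := fun v => by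
    have := congrArg (fun f : Module.End K U => f v) (pko_C_sq (ρ := ρ) hc)
    simpa using this
  -- generators of the two eigenspaces
  obtain ⟨up, hup⟩ : ∃ up : U, ρ c up = (1 : K) • up ∧
      ∀ v : U, ρ c v = (1 : K) • v → ∃ x : K, v = x • up := by
    by_cases hex : ∃ u : U, u ≠ 0 ∧ ρ c u = (1 : K) • u
    · obtain ⟨u, hu, hCu⟩ := hex
      exact ⟨u, hCu, fun v hv =>
        pko_eigen_line h2 hirr h hc hεc (one_mul 1) hu hCu hv⟩
    · push Not at hex
      refine ⟨0, by simp, fun v hv => ⟨0, ?_⟩⟩
      by_contra hv0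
      rw [zero_smul] at hv0
      exact hex v hv0 hv
  obtain ⟨um, hum⟩ : ∃ um : U, ρ c um = (-1 : K) • um ∧
      ∀ v : U, ρ c v = (-1 : K) • v → ∃ x : K, v = x • um := by
    by_cases hex : ∃ u : U, u ≠ 0 ∧ ρ c u = (-1 : K) • u
    · obtain ⟨u, hu, hCu⟩ := hex
      exact ⟨u, hCu, fun v hv =>
        pko_eigen_line h2 hirr h hc hεc (by ring) hu hCu hv⟩
    · push Not at hex
      refine ⟨0, by simp, fun v hv => ⟨0, ?_⟩⟩
      by_contra hv0
      rw [zero_smul] at hv0
      exact hex v hv0 hv
  have hspan : Submodule.span K (({up, um} : Finset U) : Set U) = ⊤ := by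
    rw [eq_top_iff]
    intro v _
    have hvp : ρ c (v + ρ c v) = (1 : K) • (v + ρ c v) := by
      rw [map_add, hCC, one_smul, add_comm]
    have hvm : ρ c (v - ρ c v) = (-1 : K) • (v - ρ c v) := by
      rw [map_sub, hCC, neg_one_smul, neg_sub]
    obtain ⟨x, hx⟩ := hup.2 _ hvp
    obtain ⟨y, hy⟩ := hum.2 _ hvm
    have hv : v = ((2 : K)⁻¹ * x) • up + ((2 : K)⁻¹ * y) • um := by
      rw [← smul_smul, ← smul_smul, ← hx, ← hy, ← smul_add]
      have : v + ρ c v + (v - ρ c v) = (2 : K) • v := by rw [two_smul]; abel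
      rw [this, smul_smul, inv_mul_cancel₀ h2, one_smul]
    rw [hv]
    refine Submodule.add_mem _ (Submodule.smul_mem _ _ (Submodule.subset_span ?_))
      (Submodule.smul_mem _ _ (Submodule.subset_span ?_))
    · simp
    · simp
  calc Module.finrank K U = Module.finrank K (⊤ : Submodule K U) := (finrank_top K U).symm
    _ = Module.finrank K (Submodule.span K (({up, um} : Finset U) : Set U)) := by rw [hspan]
    _ ≤ ({up, um} : Finset U).card := finrank_span_finset_le_card _
    _ ≤ 2 := Finset.card_le_two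

end oddDim

section dimTwo

variable {K : Type*} [Field K] {U : Type*} [AddCommGroup U] [Module K U]
  [FiniteDimensional K U] [Nontrivial U]
  {G : Type*} [Group G] {ρ : G →* (U →ₗ[K] U)} {ε : G →* Kˣ} {t : G → K}

variable (h2 : (2 : K) ≠ 0)
  (hirr : ∀ W : Submodule K U, (∀ g, W ≤ W.comap (ρ g)) → W = ⊥ ∨ W = ⊤)
  (h : ∀ g, ρ g * ρ g - t g • ρ g + (ε g : K) • (1 : Module.End K U) = 0)

include h2 hirr h

/-- in dimension `2` a scalar `ρ g = x` has `t g = 2 x` (any field with `2 ≠ 0`) -/
theorem pko_scalar (hd : Module.finrank K U = 2) {g : G} {x : K}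
    (hg : ρ g = x • (1 : Module.End K U)) : t g = 2 * x := by
  by_contra hne
  have hs : 2 * x - t g ≠ 0 := fun h0 => hne (sub_eq_zero.1 h0).symm
  have hcg : qg_c ρ t g = (2 * x - t g) • (1 : Module.End K U) := by
    unfold qg_c
    rw [hg, smul_smul, sub_smul]
  -- every `ρ k` is a scalar
  have hall : ∀ k : G, ∃ y : K, ρ k = y • (1 : Module.End K U) := by
    intro k
    have e := qg_c_anti h g k
    rw [hcg, smul_mul_assoc, one_mul, mul_smul_comm, mul_one, ← two_smul K, smul_smul] at e
    have e2 : qg_c ρ t k = ((2 * (2 * x - t g))⁻¹ * (4 * t (g * k) - 2 * (t g * t k))) •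
        (1 : Module.End K U) := by
      rw [← smul_smul, ← e, smul_smul, inv_mul_cancel₀ (mul_ne_zero h2 hs), one_smul]
    set y := (2 * (2 * x - t g))⁻¹ * (4 * t (g * k) - 2 * (t g * t k)) with hy
    refine ⟨2⁻¹ * (y + t k), ?_⟩
    unfold qg_c at e2
    have e3 : (2 : K) • ρ k = (y + t k) • (1 : Module.End K U) := by
      rw [add_smul, ← e2]; abel
    rw [← smul_smul, ← e3, smul_smul, inv_mul_cancel₀ h2, one_smul]
  obtain ⟨u, hu⟩ := exists_ne (0 : U)
  have hstab : ∀ k, Submodule.span K {u} ≤ (Submodule.span K {u}).comap (ρ k) := by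
    intro k v hv
    obtain ⟨y, hy⟩ := hall k
    rw [Submodule.mem_comap, hy, LinearMap.smul_apply, Module.End.one_apply]
    exact Submodule.smul_mem _ _ hv
  rcases hirr _ hstab with h0 | h0
  · have : u ∈ Submodule.span K {u} := Submodule.mem_span_singleton_self u
    rw [h0, Submodule.mem_bot] at this
    exact hu this
  · have h1 : Module.finrank K (Submodule.span K {u}) = 1 := finrank_span_singleton hu
    rw [h0, finrank_top, hd] at h1
    omega

/-- **Trace and determinant** in dimension `2`, over any field with `2 ≠ 0`. -/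
theorem pko_trace_det (hd : Module.finrank K U = 2) (g : G) :
    LinearMap.trace K U (ρ g) = t g ∧ LinearMap.det (ρ g) = (ε g : K) := by
  classical
  by_cases hsc : ∃ x : K, ρ g = x • (1 : Module.End K U)
  · obtain ⟨x, hx⟩ := hsc
    have ht : t g = 2 * x := pko_scalar h2 hirr h hd hx
    have hrel := h g
    rw [hx, smul_mul_assoc, one_mul, smul_smul, smul_smul, ← sub_smul, ← add_smul] at hrel
    have hrel' : x * x - t g * x + (ε g : K) = 0 := by
      rcases smul_eq_zero.1 hrel with h0 | h0
      · exact h0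
      · exact absurd h0 one_ne_zero
    constructor
    · rw [hx, map_smul, LinearMap.trace_one, hd, ht, smul_eq_mul]
      push_cast
      ring
    · rw [hx, LinearMap.det_smul, hd]
      have : LinearMap.det (1 : Module.End K U) = 1 := LinearMap.det_id
      rw [this]
      rw [ht] at hrel'
      linear_combination -hrel'
  · push Not at hsc
    let b := Module.finBasisOfFinrankEq K U hd
    let Φ := LinearMap.toMatrixAlgEquiv b
    have htr : LinearMap.trace K U (ρ g) = (Φ (ρ g)).trace :=
      LinearMap.trace_eq_matrix_trace K b (ρ g)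
    have hdet : LinearMap.det (ρ g) = (Φ (ρ g)).det := (LinearMap.det_toMatrix b (ρ g)).symm
    set M := Φ (ρ g) with hM
    have hrel : M * M - t g • M + (ε g : K) • 1 = 0 := by
      have := congrArg Φ (h g)
      rw [map_add, map_sub, map_mul, map_smul, map_smul, map_one, map_zero] at this
      exact this
    have hCH : M * M - M.trace • M + M.det • 1 = 0 := by
      have := Matrix.aeval_self_charpoly M
      rw [Matrix.charpoly_fin_two] at this
      simp only [map_add, map_sub, map_mul, Polynomial.aeval_X, Polynomial.aeval_C, pow_two]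
        at this
      rw [Algebra.algebraMap_eq_smul_one, Algebra.algebraMap_eq_smul_one, smul_mul_assoc,
        one_mul] at this
      exact this
    have hdiff : (M.trace - t g) • M = (M.det - (ε g : K)) • (1 : Matrix (Fin 2) (Fin 2) K) := by
      have e : M * M = t g • M - (ε g : K) • 1 := by
        rw [← sub_eq_zero, ← hrel]; abel
      rw [e] at hCH
      rw [← sub_eq_zero, ← neg_eq_zero, ← hCH]
      module
    have htr' : M.trace = t g := by
      by_contra hne
      have hne' : M.trace - t g ≠ 0 := sub_ne_zero.2 hne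
      have hMs : M = ((M.trace - t g)⁻¹ * (M.det - (ε g : K))) •
          (1 : Matrix (Fin 2) (Fin 2) K) := by
        rw [← smul_smul, ← hdiff, smul_smul, inv_mul_cancel₀ hne', one_smul]
      apply hsc ((M.trace - t g)⁻¹ * (M.det - (ε g : K)))
      apply Φ.injective
      rw [map_smul, map_one]
      exact hMs
    refine ⟨htr.trans htr', hdet.trans ?_⟩
    rw [htr', sub_self, zero_smul] at hdiff
    have := hdiff.symm
    rcases smul_eq_zero.1 this with h0 | h0
    · exact sub_eq_zero.1 h0
    · exact absurd h0 one_ne_zero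

/-- **The characteristic polynomial** in dimension `2`, over any field with `2 ≠ 0`. -/
theorem pko_charpoly (hd : Module.finrank K U = 2) (g : G) :
    (ρ g).charpoly = Polynomial.X ^ 2 - Polynomial.C (t g) * Polynomial.X +
      Polynomial.C (ε g : K) := by
  classical
  obtain ⟨h1, h3⟩ := pko_trace_det h2 hirr h hd g
  let b := Module.finBasisOfFinrankEq K U hd
  rw [← LinearMap.charpoly_toMatrix (ρ g) b, Matrix.charpoly_fin_two,
    ← LinearMap.trace_eq_matrix_trace K b (ρ g), LinearMap.det_toMatrix b (ρ g), h1, h3]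

end dimTwo

section main

variable {K : Type*} [Field K] {U : Type*} [AddCommGroup U] [Module K U]
  [FiniteDimensional K U] [Nontrivial U]
  {G : Type*} [Group G] {ρ : G →* (U →ₗ[K] U)} {ε : G →* Kˣ} {t : G → K}

/-- **[ODD]** an irreducible representation over ANY field with `2 ≠ 0` satisfying the quadratic
relations, in the presence of an odd involution, has dimension `1`, or dimension `2` and the
expected characteristic polynomials. -/
theorem pko_main (h2 : (2 : K) ≠ 0)
    (hirr : ∀ W : Submodule K U, (∀ g, W ≤ W.comap (ρ g)) → W = ⊥ ∨ W = ⊤)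
    (h : ∀ g, ρ g * ρ g - t g • ρ g + (ε g : K) • (1 : Module.End K U) = 0)
    {c : G} (hc : c * c = 1) (hεc : (ε c : K) = -1) :
    Module.finrank K U = 1 ∨ (Module.finrank K U = 2 ∧ ∀ g, (ρ g).charpoly =
      Polynomial.X ^ 2 - Polynomial.C (t g) * Polynomial.X + Polynomial.C (ε g : K)) := by
  have hle := pko_finrank_le_two h2 hirr h hc hεc
  have hpos : 0 < Module.finrank K U := Module.finrank_pos
  rcases Nat.lt_or_ge (Module.finrank K U) 2 with hlt | hge
  · left; omega
  · right
    have hd : Module.finrank K U = 2 := le_antisymm hle hge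
    exact ⟨hd, pko_charpoly h2 hirr h hd⟩

end main

section minimal

variable {K : Type*} [Field K] {W : Type*} [AddCommGroup W] [Module K W]
  {G : Type*} [Group G] (ρ : G →* (W →ₗ[K] W))

/-- a nonzero finite-dimensional representation contains a minimal nonzero stable subspace -/
theorem pko_exists_minimal [FiniteDimensional K W] [Nontrivial W] :
    ∃ U : Submodule K W, U ≠ ⊥ ∧ (∀ g, U ≤ U.comap (ρ g)) ∧
      ∀ U' : Submodule K W, U' ≤ U → (∀ g, U' ≤ U'.comap (ρ g)) → U' = ⊥ ∨ U' = U := by
  classical
  let P : ℕ → Prop := fun n => ∃ U : Submodule K W, U ≠ ⊥ ∧ (∀ g, U ≤ U.comap (ρ g)) ∧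
    Module.finrank K U = n
  have hex : ∃ n, P n := ⟨_, ⊤, top_ne_bot, fun g => le_top.trans (by simp), rfl⟩
  obtain ⟨U, hU0, hUs, hUn⟩ := Nat.find_spec hex
  refine ⟨U, hU0, hUs, fun U' hle hs' => ?_⟩
  by_cases h0 : U' = ⊥
  · exact Or.inl h0
  · right
    have hmin : Nat.find hex ≤ Module.finrank K U' := Nat.find_min' hex ⟨U', h0, hs', rfl⟩
    rw [← hUn] at hmin
    exact Submodule.eq_of_le_of_finrank_le hle hmin

/-- the restriction of a representation to a stable subspace -/
def pko_restrict (U : Submodule K W) (hU : ∀ g, U ≤ U.comap (ρ g)) : G →* (U →ₗ[K] U) where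
  toFun g := (ρ g).restrict (hU g)
  map_one' := by
    ext x
    simp
  map_mul' g k := by
    ext x
    simp [LinearMap.restrict_apply]

@[simp] theorem pko_restrict_apply (U : Submodule K W) (hU : ∀ g, U ≤ U.comap (ρ g)) (g : G)
    (x : U) : (pko_restrict ρ U hU g x : W) = ρ g x := rfl

/-- the quadratic relations pass to a stable subspace -/
theorem pko_restrict_rel (U : Submodule K W) (hU : ∀ g, U ≤ U.comap (ρ g)) {t : G → K}
    {e : G → K}
    (h : ∀ g, ρ g * ρ g - t g • ρ g + e g • (1 : Module.End K W) = 0) (g : G) :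
    pko_restrict ρ U hU g * pko_restrict ρ U hU g - t g • pko_restrict ρ U hU g +
      e g • (1 : Module.End K U) = 0 := by
  ext x
  have := congrArg (fun f : Module.End K W => f (x : W)) (h g)
  simpa using this

/-- the restriction to a minimal stable subspace is irreducible -/
theorem pko_restrict_irr (U : Submodule K W) (hU : ∀ g, U ≤ U.comap (ρ g))
    (hmin : ∀ U' : Submodule K W, U' ≤ U → (∀ g, U' ≤ U'.comap (ρ g)) → U' = ⊥ ∨ U' = U)
    (V : Submodule K U) (hV : ∀ g, V ≤ V.comap (pko_restrict ρ U hU g)) : V = ⊥ ∨ V = ⊤ := by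
  have hle : V.map U.subtype ≤ U := by
    rintro _ ⟨x, -, rfl⟩
    exact x.2
  have hst : ∀ g, V.map U.subtype ≤ (V.map U.subtype).comap (ρ g) := by
    rintro g _ ⟨x, hx, rfl⟩
    exact ⟨pko_restrict ρ U hU g x, hV g hx, rfl⟩
  rcases hmin _ hle hst with h0 | h0
  · left
    rw [eq_bot_iff]
    intro x hx
    have : (x : W) ∈ V.map U.subtype := ⟨x, hx, rfl⟩
    rw [h0, Submodule.mem_bot] at this
    rw [Submodule.mem_bot]
    exact Subtype.ext this
  · right
    rw [eq_top_iff]
    intro x _
    have : (x : W) ∈ V.map U.subtype := by rw [h0]; exact x.2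
    obtain ⟨y, hy, hyx⟩ := this
    have : y = x := Subtype.ext hyx
    rwa [← this]

end minimal

end Fermat.Agent.JT3
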