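/-
[PK] S30 packaging, leaf PK6 (architect helper25): the reducible case.
For a local ring `O` and characters `ψ, ε : G_ℚ →* O` (monoid homs into `O`), adically continuous
in the sense `pkr_CharCont` (= the conclusion of `cya_eps_continuous`), the representation
`ψ ⊕ ε ψ⁻¹` on `Fin 2 → O` is a `GaloisRepAdic O` with characteristic polynomial
`X² - t X + ε σ` whenever `ψ σ² - t ψ σ + ε σ = 0` (`pkr_main`); a stable lattice of rank one
produces such a `ψ` (`pkr_char`, `pkr_rankOne_main`).  Prefix `pkr_`.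
-/
import Mathlib
import Fermat.Prelude.Def_GaloisRep_Adic

set_option autoImplicit false
set_option linter.unusedSectionVars false
set_option linter.style.haveILetI false

open Polynomial

namespace Fermat.Agent.JT3

local notation "Qbar" => AlgebraicClosure ℚ
local notation "GQ" => (AlgebraicClosure ℚ) ≃ₐ[ℚ] (AlgebraicClosure ℚ)

variable {O : Type} [CommRing O] [IsLocalRing O]

/-- adic continuity of a character with values in `O` -/
def pkr_CharCont (ψ : GQ →* O) : Prop :=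
  ∀ n : ℕ, ∃ L : IntermediateField ℚ Qbar, FiniteDimensional ℚ L ∧
    ∀ σ : GQ, (∀ x ∈ L, σ x = x) → ψ σ - 1 ∈ IsLocalRing.maximalIdeal O ^ n

/-- the inverse character -/
noncomputable def pkr_inv (ψ : GQ →* O) : GQ →* O where
  toFun σ := ψ σ⁻¹
  map_one' := by simp
  map_mul' σ τ := by rw [mul_inv_rev, map_mul, mul_comm]

@[simp] theorem pkr_inv_apply (ψ : GQ →* O) (σ : GQ) : pkr_inv ψ σ = ψ σ⁻¹ := rfl

theorem pkr_mul_inv (ψ : GQ →* O) (σ : GQ) : ψ σ * pkr_inv ψ σ = 1 := by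
  rw [pkr_inv_apply, ← map_mul, mul_inv_cancel, map_one]

theorem pkr_inv_mul (ψ : GQ →* O) (σ : GQ) : pkr_inv ψ σ * ψ σ = 1 := by
  rw [mul_comm, pkr_mul_inv]

theorem pkr_CharCont.one : pkr_CharCont (1 : GQ →* O) := by
  intro n
  refine ⟨⊥, inferInstance, fun σ _ => ?_⟩
  simp

theorem pkr_CharCont.mul {ψ₁ ψ₂ : GQ →* O} (h₁ : pkr_CharCont ψ₁) (h₂ : pkr_CharCont ψ₂) :
    pkr_CharCont (ψ₁ * ψ₂) := by
  intro n
  obtain ⟨L₁, hL₁, H₁⟩ := h₁ n
  obtain ⟨L₂, hL₂, H₂⟩ := h₂ n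
  refine ⟨L₁ ⊔ L₂, IntermediateField.finiteDimensional_sup L₁ L₂, fun σ hσ => ?_⟩
  have e1 := H₁ σ (fun x hx => hσ x ((le_sup_left : L₁ ≤ L₁ ⊔ L₂) hx))
  have e2 := H₂ σ (fun x hx => hσ x ((le_sup_right : L₂ ≤ L₁ ⊔ L₂) hx))
  have : (ψ₁ * ψ₂) σ - 1 = (ψ₁ σ - 1) * ψ₂ σ + (ψ₂ σ - 1) := by
    rw [MonoidHom.mul_apply]; ring
  rw [this]
  exact Ideal.add_mem _ (Ideal.mul_mem_right _ _ e1) e2

theorem pkr_CharCont.inv {ψ : GQ →* O} (h : pkr_CharCont ψ) : pkr_CharCont (pkr_inv ψ) := by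
  intro n
  obtain ⟨L, hL, H⟩ := h n
  refine ⟨L, hL, fun σ hσ => ?_⟩
  have e := H σ hσ
  have : pkr_inv ψ σ - 1 = -((ψ σ - 1) * pkr_inv ψ σ) := by
    rw [sub_mul, pkr_mul_inv]; ring
  rw [this]
  exact (Ideal.neg_mem_iff _).2 (Ideal.mul_mem_right _ _ e)

/-! ### the sum of two characters -/

/-- the diagonal endomorphism of `Fin 2 → O` -/
noncomputable def pkr_diag (a b : O) : Module.End O (Fin 2 → O) :=
  Matrix.toLin' (Matrix.diagonal ![a, b])

theorem pkr_diag_apply (a b : O) (v : Fin 2 → O) (i : Fin 2) :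
    pkr_diag a b v i = ![a, b] i * v i := by
  simp [pkr_diag, Matrix.toLin'_apply, Matrix.mulVec_diagonal]

theorem pkr_diag_one : pkr_diag (1 : O) 1 = 1 := by
  refine LinearMap.ext fun v => funext fun i => ?_
  rw [pkr_diag_apply]
  fin_cases i <;> simp

theorem pkr_diag_mul (a b c d : O) : pkr_diag (a * c) (b * d) = pkr_diag a b * pkr_diag c d := by
  refine LinearMap.ext fun v => funext fun i => ?_
  rw [Module.End.mul_apply, pkr_diag_apply, pkr_diag_apply, pkr_diag_apply]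
  fin_cases i <;> simp [mul_assoc]

theorem pkr_diag_charpoly (a b : O) :
    LinearMap.charpoly (pkr_diag a b) = X ^ 2 - C (a + b) * X + C (a * b) := by
  rw [pkr_diag, Matrix.charpoly_toLin', Matrix.charpoly_diagonal, Fin.prod_univ_two]
  simp only [Matrix.cons_val_zero, Matrix.cons_val_one, map_add, map_mul]
  ring

theorem pkr_mem_smul_top (I : Ideal O) (w : Fin 2 → O) (h : ∀ i, w i ∈ I) :
    w ∈ I • (⊤ : Submodule O (Fin 2 → O)) := by
  have hw : w = w 0 • (Pi.single 0 1 : Fin 2 → O) + w 1 • (Pi.single 1 1 : Fin 2 → O) := by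
    ext i
    fin_cases i <;> simp
  rw [hw]
  exact Submodule.add_mem _ (Submodule.smul_mem_smul (h 0) Submodule.mem_top)
    (Submodule.smul_mem_smul (h 1) Submodule.mem_top)

/-- the representation `ψ₁ ⊕ ψ₂` -/
noncomputable def pkr_sum (ψ₁ ψ₂ : GQ →* O) (h₁ : pkr_CharCont ψ₁) (h₂ : pkr_CharCont ψ₂) :
    GaloisRepAdic O where
  V := Fin 2 → O
  finrank_eq := by simp
  ρ :=
    { toFun := fun σ => pkr_diag (ψ₁ σ) (ψ₂ σ)
      map_one' := by rw [map_one, map_one, pkr_diag_one]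
      map_mul' := fun σ τ => by rw [map_mul, map_mul, pkr_diag_mul] }
  isAdicContinuous := by
    intro n
    obtain ⟨L₁, hL₁, H₁⟩ := h₁ n
    obtain ⟨L₂, hL₂, H₂⟩ := h₂ n
    refine ⟨L₁ ⊔ L₂, IntermediateField.finiteDimensional_sup L₁ L₂, fun σ hσ v => ?_⟩
    have e1 := H₁ σ (fun x hx => hσ x ((le_sup_left : L₁ ≤ L₁ ⊔ L₂) hx))
    have e2 := H₂ σ (fun x hx => hσ x ((le_sup_right : L₂ ≤ L₁ ⊔ L₂) hx))
    apply pkr_mem_smul_top
    intro i
    change pkr_diag (ψ₁ σ) (ψ₂ σ) v i - v i ∈ _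
    rw [pkr_diag_apply]
    fin_cases i
    · have : ![ψ₁ σ, ψ₂ σ] 0 * v 0 - v 0 = (ψ₁ σ - 1) * v 0 := by simp; ring
      simp only [Fin.zero_eta, Fin.isValue]
      rw [this]
      exact Ideal.mul_mem_right _ _ e1
    · have : ![ψ₁ σ, ψ₂ σ] 1 * v 1 - v 1 = (ψ₂ σ - 1) * v 1 := by simp; ring
      simp only [Fin.mk_one, Fin.isValue]
      rw [this]
      exact Ideal.mul_mem_right _ _ e2

theorem pkr_sum_rho (ψ₁ ψ₂ : GQ →* O) (h₁ : pkr_CharCont ψ₁) (h₂ : pkr_CharCont ψ₂) (σ : GQ) :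
    (pkr_sum ψ₁ ψ₂ h₁ h₂).ρ σ = pkr_diag (ψ₁ σ) (ψ₂ σ) := rfl

theorem pkr_sum_charpoly (ψ₁ ψ₂ : GQ →* O) (h₁ : pkr_CharCont ψ₁) (h₂ : pkr_CharCont ψ₂) (σ : GQ) :
    LinearMap.charpoly ((pkr_sum ψ₁ ψ₂ h₁ h₂).ρ σ) =
      X ^ 2 - C (ψ₁ σ + ψ₂ σ) * X + C (ψ₁ σ * ψ₂ σ) := by
  rw [pkr_sum_rho]
  exact pkr_diag_charpoly _ _

theorem pkr_sum_isUnramifiedAt (ψ₁ ψ₂ : GQ →* O) (h₁ : pkr_CharCont ψ₁) (h₂ : pkr_CharCont ψ₂)
    (q : ℕ) (h : ∀ P : ValuationSubring Qbar, P.LiesOverPrime q →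
      ∀ σ ∈ P.inertiaSubgroupIn ℚ, ψ₁ σ = 1 ∧ ψ₂ σ = 1) :
    (pkr_sum ψ₁ ψ₂ h₁ h₂).IsUnramifiedAt q := by
  intro P hP σ hσ
  obtain ⟨e1, e2⟩ := h P hP σ hσ
  rw [pkr_sum_rho, e1, e2]
  exact pkr_diag_one

/-! ### rank one -/

section rankOne

variable {Λ : Type} [AddCommGroup Λ] [Module O Λ] [Module.Free O Λ] [Module.Finite O Λ]

/-- an endomorphism of a free module of rank one is multiplication by its determinant -/
theorem pkr_det_smul (h1 : Module.finrank O Λ = 1) (f : Module.End O Λ) (v : Λ) :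
    f v = LinearMap.det f • v := by
  classical
  let b : Module.Basis (Fin 1) O Λ := Module.finBasisOfFinrankEq O Λ h1
  have hdet : LinearMap.det f = b.repr (f (b 0)) 0 := by
    rw [← LinearMap.det_toMatrix b f, Matrix.det_fin_one, LinearMap.toMatrix_apply]
  have hb : f (b 0) = LinearMap.det f • b 0 := by
    rw [hdet]
    conv_lhs => rw [← b.sum_repr (f (b 0))]
    simp
  have hv : v = b.repr v 0 • b 0 := by
    conv_lhs => rw [← b.sum_repr v]
    simp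
  rw [hv, map_smul, hb, smul_comm]

/-- the character of a representation of rank one -/
noncomputable def pkr_char (ρ : GQ →* Module.End O Λ) : GQ →* O :=
  (LinearMap.det : (Λ →ₗ[O] Λ) →* O).comp ρ

theorem pkr_char_spec (h1 : Module.finrank O Λ = 1) (ρ : GQ →* Module.End O Λ) (σ : GQ) (v : Λ) :
    ρ σ v = pkr_char ρ σ • v :=
  pkr_det_smul h1 (ρ σ) v

theorem pkr_char_eq_one (ρ : GQ →* Module.End O Λ) {σ : GQ} (h : ρ σ = 1) :
    pkr_char ρ σ = 1 := by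
  change LinearMap.det (ρ σ) = 1
  rw [h]
  exact LinearMap.det_id

theorem pkr_char_cont (h1 : Module.finrank O Λ = 1) (ρ : GQ →* Module.End O Λ)
    (hρ : GaloisActionIsAdicContinuous O ρ) : pkr_CharCont (pkr_char ρ) := by
  classical
  intro n
  obtain ⟨L, hL, H⟩ := hρ n
  refine ⟨L, hL, fun σ hσ => ?_⟩
  let b : Module.Basis (Fin 1) O Λ := Module.finBasisOfFinrankEq O Λ h1
  have h := H σ hσ (b 0)
  rw [pkr_char_spec h1 ρ σ (b 0), ← b.span_eq,
    Submodule.mem_ideal_smul_span_iff_exists_sum] at h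
  obtain ⟨a, ha, hsum⟩ := h
  have h2 : b.repr (pkr_char ρ σ • b 0 - b 0) 0 = pkr_char ρ σ - 1 := by
    simp
  rw [← h2, ← hsum]
  have h3 : b.repr (a.sum fun i c => c • b i) = a := by
    have : (a.sum fun i c => c • b i) = Finsupp.linearCombination O b a := rfl
    rw [this, b.repr_linearCombination]
  rw [h3]
  exact ha 0

end rankOne

/-! ### the main statement -/

theorem pkr_main (ψ ε : GQ →* O) (hψ : pkr_CharCont ψ) (hε : pkr_CharCont ε) :
    ∃ ρ : GaloisRepAdic O,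
      (∀ (σ : GQ) (t : O), ψ σ * ψ σ - t * ψ σ + ε σ = 0 →
        LinearMap.charpoly (ρ.ρ σ) = X ^ 2 - C t * X + C (ε σ)) ∧
      (∀ q : ℕ, (∀ P : ValuationSubring Qbar, P.LiesOverPrime q →
        ∀ σ ∈ P.inertiaSubgroupIn ℚ, ψ σ = 1 ∧ ε σ = 1) → ρ.IsUnramifiedAt q) := by
  refine ⟨pkr_sum ψ (ε * pkr_inv ψ) hψ (hε.mul hψ.inv), ?_, ?_⟩
  · intro σ t ht
    rw [pkr_sum_charpoly]
    have h1 : ψ σ + (ε * pkr_inv ψ) σ = t := by
      rw [MonoidHom.mul_apply]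
      have := congrArg (fun x => x * pkr_inv ψ σ) ht
      simp only [zero_mul] at this
      have e := pkr_mul_inv ψ σ
      have : ψ σ * (ψ σ * pkr_inv ψ σ) - t * (ψ σ * pkr_inv ψ σ) + ε σ * pkr_inv ψ σ = 0 := by
        rw [← this]; ring
      rw [e] at this
      linear_combination this
    have h2 : ψ σ * (ε * pkr_inv ψ) σ = ε σ := by
      rw [MonoidHom.mul_apply]
      have e := pkr_mul_inv ψ σ
      linear_combination ε σ * e
    rw [h1, h2]
  · intro q h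
    apply pkr_sum_isUnramifiedAt
    intro P hP σ hσ
    obtain ⟨e1, e2⟩ := h P hP σ hσ
    refine ⟨e1, ?_⟩
    rw [MonoidHom.mul_apply, e2, one_mul]
    have := pkr_mul_inv ψ σ
    rwa [e1, one_mul] at this

section rankOneMain

variable {Λ : Type} [AddCommGroup Λ] [Module O Λ] [Module.Free O Λ] [Module.Finite O Λ]

/-- a quadratic relation for an endomorphism of a free module of rank one is a relation for its
determinant -/
theorem pkr_rel_of_rankOne (h1 : Module.finrank O Λ = 1) (f : Module.End O Λ) (t e : O)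
    (h : f * f - t • f + e • (1 : Module.End O Λ) = 0) :
    LinearMap.det f * LinearMap.det f - t * LinearMap.det f + e = 0 := by
  classical
  let b : Module.Basis (Fin 1) O Λ := Module.finBasisOfFinrankEq O Λ h1
  have h2 := congrArg (fun g : Module.End O Λ => b.repr (g (b 0)) 0) h
  simp only [LinearMap.add_apply, LinearMap.sub_apply, Module.End.mul_apply, LinearMap.smul_apply,
    Module.End.one_apply, LinearMap.zero_apply, map_zero, Finsupp.coe_zero, Pi.zero_apply] at h2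
  rw [pkr_det_smul h1 f (b 0), map_smul, pkr_det_smul h1 f (b 0)] at h2
  simpa [smul_smul] using h2

/-- the reducible case: a stable lattice of rank one gives `ψ ⊕ ε ψ⁻¹` -/
theorem pkr_rankOne_main (h1 : Module.finrank O Λ = 1) (ρ : GQ →* Module.End O Λ)
    (hρ : GaloisActionIsAdicContinuous O ρ) (ε : GQ →* O) (hε : pkr_CharCont ε) :
    ∃ ρ' : GaloisRepAdic O,
      (∀ (σ : GQ) (t : O), ρ σ * ρ σ - t • ρ σ + ε σ • (1 : Module.End O Λ) = 0 →
        LinearMap.charpoly (ρ'.ρ σ) = X ^ 2 - C t * X + C (ε σ)) ∧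
      (∀ q : ℕ, (∀ P : ValuationSubring Qbar, P.LiesOverPrime q →
        ∀ σ ∈ P.inertiaSubgroupIn ℚ, ρ σ = 1 ∧ ε σ = 1) → ρ'.IsUnramifiedAt q) := by
  obtain ⟨ρ', H1, H2⟩ := pkr_main (pkr_char ρ) ε (pkr_char_cont h1 ρ hρ) hε
  refine ⟨ρ', fun σ t ht => H1 σ t (pkr_rel_of_rankOne h1 (ρ σ) t (ε σ) ht), fun q hq => H2 q ?_⟩
  intro P hP σ hσ
  obtain ⟨e1, e2⟩ := hq P hP σ hσ
  exact ⟨pkr_char_eq_one ρ e1, e2⟩

end rankOneMain

end Fermat.Agent.JT3
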