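/-
[PK] = S30 packaging, PK7: THE FINAL ASSEMBLY (rational route: `𝒪'' := 𝒪'`, `K := Frac 𝒪'`).

* `pk_core_abs` : abstract form (a finite free `O`-module `M` with a continuous Galois action,
  unramified outside `N p`, `V = K ⊗ M`, a nonzero Galois-stable subspace `W ⊆ V` on which the
  Frobenius elements at the good primes `ℓ` satisfy `φ² - a_ℓ φ + ℓ = 0`) ⟹ there is a
  `GaloisRepAdic O` with `charpoly ρ(φ) = X² - a_ℓ X + ℓ`, unramified outside `N p`.
  [minimal stable `U ⊆ W` (`pk_exists_minimal_le`), lattice `Λ = M ∩ U` (helper6's `pkb_`),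
  relation for ALL `σ` by weak Chebotarev (helper9's `gcl_good_cyclo`), oddness
  (helper28's `pko_main`, `c` = complex conjugation, `ε(c) = -1`), rank one
  (helper28's `pkr_rankOne_main`) or rank two.]
* `pk_core` : tensor form, `M = O ⊗ Tp`, `V = K ⊗ Tp`, `W` = the simultaneous eigenspace of the
  Hecke operators, hypothesis: a nonzero simultaneous eigenvector in `K ⊗ Tp`.
* `pk_S30_of_eigenvector` : S30 from a `pk_Tate` package and the eigenvector clause (EV).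
* `pk_S30` : S30 from a `pk_Tate` package (eigenvector by `pk_eigen_tensor`).

Owner: helper25.  Prefix `pk_`.
-/
import Mathlib
import Fermat.Prelude.Def_GaloisRep_ComplexConjugation
import Fermat.Agent.JT3.Algebra.GoodClosureFinal
import Fermat.Agent.JT3.Algebra.CycloAdic
import Fermat.Agent.JT3.Pack.Defs
import Fermat.Agent.JT3.Pack.Char
import Fermat.Agent.JT3.Pack.Reducible
import Fermat.Agent.JT3.Pack.OddRational
import Fermat.Agent.JT3.Pack.LatticeBC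
import Fermat.Agent.JT3.Pack.MainAux

set_option autoImplicit false
set_option linter.unusedSectionVars false

namespace Fermat.Agent.JT3

open IsLocalRing TensorProduct Polynomial

local notation "GQ" => (AlgebraicClosure ℚ ≃ₐ[ℚ] AlgebraicClosure ℚ)
local notation "Qbar" => AlgebraicClosure ℚ

/-- `Frac O` is a torsion-free `O`-module. -/
theorem pk_noZeroSMulDivisors {O K : Type*} [CommRing O] [Field K] [Algebra O K]
    (hinj : Function.Injective (algebraMap O K)) : NoZeroSMulDivisors O K := by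
  refine ⟨fun {c x} h => ?_⟩
  rw [Algebra.smul_def, mul_eq_zero] at h
  rcases h with h | h
  · left
    exact hinj (h.trans (map_zero _).symm)
  · exact Or.inr h

section abs

variable (p : ℕ) [Fact p.Prime] (N : ℕ) (S : Finset ℕ)
  {O : Type} [CommRing O] [IsDomain O] [IsDiscreteValuationRing O]
  [IsAdicComplete (maximalIdeal O) O] [CharZero O]
  {K : Type} [Field K] [Algebra O K] [IsFractionRing O K]
  {M : Type} [AddCommGroup M] [Module O M] [Module.Free O M] [Module.Finite O M]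
  {V : Type} [AddCommGroup V] [Module K V] [Module O V] [IsScalarTower O K V]
  [FiniteDimensional K V]

/-- **The packaging theorem, abstract form.** -/
theorem pk_core_abs (hpS : p ∈ S) (hNS : ∀ q : ℕ, q.Prime → q ∣ N → q ∈ S)
    (hp : (p : O) ∈ maximalIdeal O)
    (ι : M →ₗ[O] V) (hι : IsBaseChange K ι) (hιinj : Function.Injective ι)
    (hrat : ∀ U : Submodule K V, U ≤ Submodule.span K (ι '' (pkb_lat ι U : Set M)))
    (ρM : GQ →* Module.End O M) (ρV : GQ →* Module.End K V)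
    (hc : ∀ σ m, ι (ρM σ m) = ρV σ (ι m))
    (contM : GaloisActionIsAdicContinuous O ρM)
    (unramM : ∀ q : ℕ, q.Prime → ¬ q ∣ N → q ≠ p → ∀ P : ValuationSubring Qbar,
      P.LiesOverPrime q → ∀ σ ∈ P.inertiaSubgroupIn ℚ, ρM σ = 1)
    (a : ℕ → O) (W : Submodule K V) (hW0 : W ≠ ⊥) (hWst : ∀ σ, W ≤ W.comap (ρV σ))
    (hfrobW : ∀ ℓ : ℕ, pk_Good N S ℓ → ∀ A : ValuationSubring Qbar, A.LiesOverPrime ℓ →
      ∀ φ : GQ, A.IsFrobeniusAt φ ℓ → ∀ u ∈ W,
        ρV φ (ρV φ u) - algebraMap O K (a ℓ) • ρV φ u + (ℓ : K) • u = 0) :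
    ∃ ρ' : GaloisRepAdic O,
      (∀ ℓ : ℕ, pk_Good N S ℓ → ∀ A : ValuationSubring Qbar, A.LiesOverPrime ℓ →
        ∀ φ : GQ, A.IsFrobeniusAt φ ℓ →
          LinearMap.charpoly (ρ'.ρ φ) = X ^ 2 - C (a ℓ) * X + C ((ℓ : O))) ∧
      (∀ q : ℕ, q.Prime → ¬ q ∣ N → q ≠ p → ρ'.IsUnramifiedAt q) := by
  classical
  have hinjK : Function.Injective (algebraMap O K) := IsFractionRing.injective O K
  have : NoZeroSMulDivisors O K := pk_noZeroSMulDivisors hinjK
  have : CharZero K := charZero_of_injective_algebraMap hinjK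
  obtain ⟨U, hUW, hU0, hUst, hmin⟩ := pk_exists_minimal_le ρV W hW0 hWst
  have hUrat := hrat U
  -- the lattice
  have contΛ : GaloisActionIsAdicContinuous O (pkb_rho ι U ρM ρV hc hUst) :=
    pkb_adicContinuous ι U ρM ρV hc hUst contM
  have hrank : Module.finrank O (pkb_lat ι U) = Module.finrank K U := pkb_finrank ι U hι hUrat
  have hUpos : 0 < Module.finrank K U := by
    rw [Module.finrank_pos_iff, Submodule.nontrivial_iff_ne_bot]
    exact hU0
  -- the Frobenius relation on the lattice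
  have hfrobΛ : ∀ ℓ : ℕ, pk_Good N S ℓ → ∀ A : ValuationSubring Qbar, A.LiesOverPrime ℓ →
      ∀ φ : GQ, A.IsFrobeniusAt φ ℓ →
        pkb_rho ι U ρM ρV hc hUst φ * pkb_rho ι U ρM ρV hc hUst φ
          - a ℓ • pkb_rho ι U ρM ρV hc hUst φ + (ℓ : O) • 1 = 0 := by
    intro ℓ hℓ A hA φ hφ
    ext x
    apply hιinj
    have hx : ι (x : M) ∈ W := hUW x.2
    have h1 := hfrobW ℓ hℓ A hA φ hφ _ hx
    simp only [LinearMap.add_apply, LinearMap.sub_apply, Module.End.mul_apply,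
      LinearMap.smul_apply, Module.End.one_apply, LinearMap.zero_apply, Submodule.coe_add,
      Submodule.coe_sub, Submodule.coe_smul, pkb_rho_coe, Submodule.coe_zero, map_add, map_sub,
      map_smul, hc, map_zero]
    rw [← h1, algebraMap_smul, Nat.cast_smul_eq_nsmul, Nat.cast_smul_eq_nsmul]
  -- the relation for all σ
  have hgood : ∀ ℓ : ℕ, ℓ.Prime → ℓ ∉ S → pk_Good N S ℓ := fun ℓ hℓ hℓS =>
    ⟨hℓ, fun hdvd => hℓS (hNS ℓ hℓ hdvd), fun h => hℓS (Finset.mem_coe.1 h)⟩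
  have hrel := gcl_good_cyclo p hp (pkb_rho ι U ρM ρV hc hUst) contΛ S hpS
    (fun ℓ hℓ hℓS A hA φ hφ => ⟨a ℓ, hfrobΛ ℓ (hgood ℓ hℓ hℓS) A hA φ hφ⟩)
  choose t ht using hrel
  -- oddness: rank 1 or rank 2 with the right characteristic polynomials
  have hfr : Module.finrank K (K ⊗[O] (pkb_lat ι U)) = Module.finrank O (pkb_lat ι U) :=
    Module.finrank_baseChange
  have : Nontrivial (K ⊗[O] (pkb_lat ι U)) := by
    apply Module.nontrivial_of_finrank_pos (R := K)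
    rw [hfr, hrank]
    exact hUpos
  set ε' : GQ →* Kˣ :=
    (Units.map (algebraMap O K : O →* K)).comp (cya_eps p O hp).toHomUnits with hε'
  have hε'coe : ∀ g, ((ε' g : Kˣ) : K) = algebraMap O K (cya_eps p O hp g) := fun g => rfl
  have hodd := pko_main (K := K) (U := K ⊗[O] (pkb_lat ι U))
    (ρ := pk_bc K (pkb_rho ι U ρM ρV hc hUst)) (ε := ε') (t := fun g => algebraMap O K (t g))
    two_ne_zero
    (fun W hW => pkb_irreducible ι U ρM ρV hc hUst hι hUrat hmin W hW)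
    (fun g => by
      rw [hε'coe]
      exact pk_bc_relation K (pkb_rho ι U ρM ρV hc hUst) g (ht g))
    (c := complexConjugation) complexConjugation_mul_self
    (by rw [hε'coe, cya_eps_complexConjugation, map_neg, map_one])
  have hℓp : ∀ ℓ : ℕ, pk_Good N S ℓ → ℓ ≠ p := by
    rintro ℓ hℓ rfl
    exact hℓ.2.2 (Finset.mem_coe.2 hpS)
  -- the relation at Frobenius elements, with `ε φ` in place of `ℓ`
  have hfrobΛ' : ∀ ℓ : ℕ, pk_Good N S ℓ → ∀ A : ValuationSubring Qbar, A.LiesOverPrime ℓ →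
      ∀ φ : GQ, A.IsFrobeniusAt φ ℓ →
        pkb_rho ι U ρM ρV hc hUst φ * pkb_rho ι U ρM ρV hc hUst φ
          - a ℓ • pkb_rho ι U ρM ρV hc hUst φ + cya_eps p O hp φ • 1 = 0 := by
    intro ℓ hℓ A hA φ hφ
    rw [cya_eps_frob p O hp hℓ.1 (hℓp ℓ hℓ) A hA φ hφ]
    exact hfrobΛ ℓ hℓ A hA φ hφ
  rcases hodd with h1 | ⟨h2, hchar⟩
  · -- rank one
    rw [hfr] at h1
    obtain ⟨ρ', hρ'char, hρ'unr⟩ := pkr_rankOne_main h1 (pkb_rho ι U ρM ρV hc hUst) contΛ
      (cya_eps p O hp) (fun n => cya_eps_continuous p O hp n)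
    refine ⟨ρ', fun ℓ hℓ A hA φ hφ => ?_, fun q hq hqN hqp => ?_⟩
    · rw [hρ'char φ (a ℓ) (hfrobΛ' ℓ hℓ A hA φ hφ),
        cya_eps_frob p O hp hℓ.1 (hℓp ℓ hℓ) A hA φ hφ]
    · exact hρ'unr q fun P hP σ hσ =>
        ⟨pkb_rho_eq_one ι U ρM ρV hc hUst (unramM q hq hqN hqp P hP σ hσ),
          cya_eps_inertia p O hp hq hqp P hP hσ⟩
  · -- rank two
    rw [hfr] at h2
    have : Nontrivial (pkb_lat ι U) := by
      apply Module.nontrivial_of_finrank_pos (R := O)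
      rw [h2]
      norm_num
    have hcharΛ : ∀ g : GQ, LinearMap.charpoly (pkb_rho ι U ρM ρV hc hUst g) =
        X ^ 2 - C (t g) * X + C (cya_eps p O hp g) := by
      intro g
      apply Polynomial.map_injective (algebraMap O K) hinjK
      rw [← LinearMap.charpoly_baseChange (A := K), ← pk_bc_apply, hchar g, hε'coe]
      simp only [Polynomial.map_add, Polynomial.map_sub, Polynomial.map_mul, Polynomial.map_pow,
        Polynomial.map_X, Polynomial.map_C]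
    refine ⟨{ V := pkb_lat ι U
              finrank_eq := h2
              ρ := pkb_rho ι U ρM ρV hc hUst
              isAdicContinuous := contΛ }, fun ℓ hℓ A hA φ hφ => ?_, fun q hq hqN hqp => ?_⟩
    · have ht0 : t φ - a ℓ = 0 := pk_eq_of_smul_one (Λ := pkb_lat ι U)
        (pkc_sub_smul_one_eq_zero (pkb_rho ι U ρM ρV hc hUst) φ (ht φ) (hfrobΛ' ℓ hℓ A hA φ hφ))
      change LinearMap.charpoly (pkb_rho ι U ρM ρV hc hUst φ) = _
      rw [hcharΛ φ, sub_eq_zero.1 ht0, cya_eps_frob p O hp hℓ.1 (hℓp ℓ hℓ) A hA φ hφ]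
    · intro P hP σ hσ
      exact pkb_rho_eq_one ι U ρM ρV hc hUst (unramM q hq hqN hqp P hP σ hσ)

end abs

section core

variable (p : ℕ) [Fact p.Prime] (N : ℕ) (S : Finset ℕ)
  {Tp : Type} [AddCommGroup Tp] [Module ℤ_[p] Tp] [Module.Free ℤ_[p] Tp] [Module.Finite ℤ_[p] Tp]
  (ρ : GQ →* Module.End ℤ_[p] Tp) (Tl : ℕ → Module.End ℤ_[p] Tp)
  (O : Type) [CommRing O] [IsDomain O] [IsDiscreteValuationRing O]
  [IsAdicComplete (maximalIdeal O) O] [CharZero O] [Algebra ℤ_[p] O]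
  (K : Type) [Field K] [Algebra O K] [IsFractionRing O K] [Algebra ℤ_[p] K]
  [IsScalarTower ℤ_[p] O K]

/-- The simultaneous eigenspace of the Hecke operators in `K ⊗ Tp`. -/
def pk_eigenspace (a : ℕ → O) : Submodule K (K ⊗[ℤ_[p]] Tp) where
  carrier := {v | ∀ ℓ, pk_Good N S ℓ → (Tl ℓ).baseChange K v = algebraMap O K (a ℓ) • v}
  add_mem' := by
    intro x y hx hy ℓ hℓ
    rw [map_add, hx ℓ hℓ, hy ℓ hℓ, smul_add]
  zero_mem' := by
    intro ℓ _
    rw [map_zero, smul_zero]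
  smul_mem' := by
    intro c x hx ℓ hℓ
    rw [map_smul, hx ℓ hℓ, smul_comm]

theorem pk_mem_eigenspace (a : ℕ → O) (v : K ⊗[ℤ_[p]] Tp) :
    v ∈ pk_eigenspace p N S Tl O K a ↔
      ∀ ℓ, pk_Good N S ℓ → (Tl ℓ).baseChange K v = algebraMap O K (a ℓ) • v := Iff.rfl

theorem pk_eigenspace_stable (Tl_ρ : ∀ (ℓ : ℕ) (σ : GQ), Commute (Tl ℓ) (ρ σ)) (a : ℕ → O)
    (σ : GQ) :
    pk_eigenspace p N S Tl O K a ≤ (pk_eigenspace p N S Tl O K a).comap (pk_bc K ρ σ) := by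
  intro v hv
  rw [Submodule.mem_comap, pk_mem_eigenspace]
  intro ℓ hℓ
  have h1 : (Tl ℓ).baseChange K (pk_bc K ρ σ v) = pk_bc K ρ σ ((Tl ℓ).baseChange K v) := by
    rw [pk_bc_apply, ← Module.End.mul_apply, ← LinearMap.baseChange_mul, (Tl_ρ ℓ σ).eq,
      LinearMap.baseChange_mul, Module.End.mul_apply]
  rw [h1, hv ℓ hℓ, map_smul]

/-- The Frobenius relation on the eigenspace. -/
theorem pk_frob_eigenspace (a : ℕ → O) {ℓ : ℕ} (hℓ : pk_Good N S ℓ) (φ : GQ)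
    (Tl_ρ : ∀ (ℓ : ℕ) (σ : GQ), Commute (Tl ℓ) (ρ σ))
    (hfrob : ρ φ * ρ φ - Tl ℓ * ρ φ + (ℓ : ℤ_[p]) • 1 = 0)
    (u : K ⊗[ℤ_[p]] Tp) (hu : u ∈ pk_eigenspace p N S Tl O K a) :
    pk_bc K ρ φ (pk_bc K ρ φ u) - algebraMap O K (a ℓ) • pk_bc K ρ φ u + (ℓ : K) • u = 0 := by
  have h1 := congrArg (LinearMap.baseChange K) hfrob
  rw [LinearMap.baseChange_add, LinearMap.baseChange_sub, LinearMap.baseChange_mul,
    LinearMap.baseChange_mul, LinearMap.baseChange_smul, LinearMap.baseChange_one,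
    LinearMap.baseChange_zero] at h1
  have h2 := LinearMap.congr_fun h1 u
  rw [LinearMap.add_apply, LinearMap.sub_apply, Module.End.mul_apply, Module.End.mul_apply,
    LinearMap.smul_apply, Module.End.one_apply, LinearMap.zero_apply] at h2
  have h3 := pk_eigenspace_stable p N S ρ Tl O K Tl_ρ a φ hu
  rw [Submodule.mem_comap, pk_mem_eigenspace] at h3
  rw [← pk_bc_apply, h3 ℓ hℓ] at h2
  have h4 : ((ℓ : ℤ_[p]) • u : K ⊗[ℤ_[p]] Tp) = (ℓ : K) • u := by
    rw [Nat.cast_smul_eq_nsmul, Nat.cast_smul_eq_nsmul]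
  rw [h4] at h2
  exact h2


/-- **The packaging theorem, eigenvector form.** -/
theorem pk_core (hpS : p ∈ S) (hNS : ∀ q : ℕ, q.Prime → q ∣ N → q ∈ S)
    (cont : GaloisActionIsAdicContinuous ℤ_[p] ρ)
    (unram : ∀ q : ℕ, q.Prime → ¬ q ∣ N → q ≠ p → ∀ P : ValuationSubring Qbar,
      P.LiesOverPrime q → ∀ σ ∈ P.inertiaSubgroupIn ℚ, ρ σ = 1)
    (Tl_ρ : ∀ (ℓ : ℕ) (σ : GQ), Commute (Tl ℓ) (ρ σ))
    (frob : ∀ ℓ : ℕ, pk_Good N S ℓ → ∀ A : ValuationSubring Qbar, A.LiesOverPrime ℓ →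
      ∀ φ : GQ, A.IsFrobeniusAt φ ℓ → ρ φ * ρ φ - Tl ℓ * ρ φ + (ℓ : ℤ_[p]) • 1 = 0)
    (hp : (p : O) ∈ maximalIdeal O) (a : ℕ → O)
    (hev : ∃ v : K ⊗[ℤ_[p]] Tp, v ≠ 0 ∧
      ∀ ℓ, pk_Good N S ℓ → (Tl ℓ).baseChange K v = algebraMap O K (a ℓ) • v) :
    ∃ ρ' : GaloisRepAdic O,
      (∀ ℓ : ℕ, pk_Good N S ℓ → ∀ A : ValuationSubring Qbar, A.LiesOverPrime ℓ →
        ∀ φ : GQ, A.IsFrobeniusAt φ ℓ →
          LinearMap.charpoly (ρ'.ρ φ) = X ^ 2 - C (a ℓ) * X + C ((ℓ : O))) ∧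
      (∀ q : ℕ, q.Prime → ¬ q ∣ N → q ≠ p → ρ'.IsUnramifiedAt q) := by
  have hinjK : Function.Injective (algebraMap O K) := IsFractionRing.injective O K
  have : IsLocalHom (algebraMap ℤ_[p] O) := pk_isLocalHom_padic p hp _
  have hW0 : pk_eigenspace p N S Tl O K a ≠ ⊥ := by
    obtain ⟨v, hv0, hv⟩ := hev
    intro h
    apply hv0
    have : v ∈ pk_eigenspace p N S Tl O K a := hv
    rw [h, Submodule.mem_bot] at this
    exact this
  refine pk_core_abs p N S hpS hNS hp (pkb_iota ℤ_[p] O K Tp)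
    (pkb_iota_isBaseChange ℤ_[p] O K Tp) (pk_iota_injective ℤ_[p] O K Tp hinjK)
    (pk_le_span_lat ℤ_[p] O K Tp) (pk_bc O ρ) (pk_bc K ρ)
    (fun σ m => pkb_iota_baseChange ℤ_[p] O K Tp (ρ σ) m)
    (pk_adicContinuous_bc ρ cont) ?_ a (pk_eigenspace p N S Tl O K a) hW0
    (pk_eigenspace_stable p N S ρ Tl O K Tl_ρ a) ?_
  · intro q hq hqN hqp P hP σ hσ
    rw [pk_bc_apply, unram q hq hqN hqp P hP σ hσ, LinearMap.baseChange_one]
  · intro ℓ hℓ A hA φ hφ u hu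
    exact pk_frob_eigenspace p N S ρ Tl O K a hℓ φ Tl_ρ (frob ℓ hℓ A hA φ hφ) u hu

end core

section final

variable {p : ℕ} [Fact p.Prime] {N : ℕ} [NeZero N] {S : Finset ℕ}

/-- The Hecke algebra of the Tate module is commutative. -/
theorem pk_hecke_comm (D : pk_Tate p N S) :
    ∀ a ∈ Algebra.adjoin ℤ_[p] (pk_heckeSet N S D.Tl),
      ∀ b ∈ Algebra.adjoin ℤ_[p] (pk_heckeSet N S D.Tl), a * b = b * a := by
  intro a ha b hb
  have h1 : ∀ s ∈ pk_heckeSet N S D.Tl, Commute a s := fun s hs =>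
    (Algebra.commute_of_mem_adjoin_of_forall_mem_commute ha (fun s' hs' => by
      obtain ⟨ℓ, _, rfl⟩ := hs
      obtain ⟨ℓ', _, rfl⟩ := hs'
      exact D.Tl_comm ℓ ℓ')).symm
  exact (Algebra.commute_of_mem_adjoin_of_forall_mem_commute hb h1).eq

/-- **S30 from the Tate package, with the eigenvector clause `(EV)` as a hypothesis** in place of
`pk_Tate.eigen` (which is not used). -/
theorem pk_S30_of_eigenvector (D : pk_Tate p N S) (hpS : p ∈ S)
    (hNS : ∀ q : ℕ, q.Prime → q ∣ N → q ∈ S)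
    (hEV : ∀ (O : Type) [CommRing O] [IsDomain O] [IsDiscreteValuationRing O]
      [IsAdicComplete (maximalIdeal O) O] [CharZero O] (_ : (p : O) ∈ maximalIdeal O)
      (χ : CuspForm.heckeAlgebra N 2 (↑S : Set ℕ) →+* O),
      ∃ (_ : Algebra ℤ_[p] O) (v : FractionRing O ⊗[ℤ_[p]] D.Tp), v ≠ 0 ∧
        ∀ (ℓ : ℕ) (hℓ : ℓ.Prime) (hℓN : ¬ ℓ ∣ N) (hℓS : ℓ ∉ (↑S : Set ℕ)),
          (D.Tl ℓ).baseChange (FractionRing O) v =
            algebraMap O (FractionRing O) (χ (CuspForm.heckeAlgebra.T hℓ hℓN hℓS)) • v) :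
    pk_S30Statement p N S := by
  classical
  intro O _ _ _ _ _ _ hp χ
  obtain ⟨_, v, hv0, hv⟩ := hEV O hp χ
  let a : ℕ → O := fun ℓ =>
    if h : pk_Good N S ℓ then χ (CuspForm.heckeAlgebra.T h.1 h.2.1 h.2.2) else 0
  obtain ⟨ρ', h1, h2⟩ := pk_core p N S D.ρ D.Tl O (FractionRing O) hpS hNS D.cont D.unram D.Tl_ρ
    D.frob hp a ⟨v, hv0, fun ℓ hℓ => by
      rw [hv ℓ hℓ.1 hℓ.2.1 hℓ.2.2]
      simp only [a, dif_pos hℓ]⟩
  refine ⟨O, inferInstance, inferInstance, inferInstance, inferInstance, inferInstance,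
    inferInstance, Algebra.id O, inferInstance, inferInstance, Function.injective_id, ρ', ?_, h2⟩
  intro ℓ hℓ hℓN hℓS A hA σ hσ
  have hgood : pk_Good N S ℓ := ⟨hℓ, hℓN, hℓS⟩
  rw [h1 ℓ hgood A hA σ hσ]
  simp only [a, dif_pos hgood, Algebra.algebraMap_self, RingHom.id_apply]

/-- **S30 from the Tate package.** -/
theorem pk_S30 (D : pk_Tate p N S) (hpS : p ∈ S) (hNS : ∀ q : ℕ, q.Prime → q ∣ N → q ∈ S) :
    pk_S30Statement p N S := by
  refine pk_S30_of_eigenvector D hpS hNS ?_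
  intro O _ _ _ _ _ hp χ
  obtain ⟨χ₀, hχ₀⟩ := D.eigen O hp χ
  let φ : ℤ_[p] →+* O :=
    χ₀.comp (algebraMap ℤ_[p] ↥(Algebra.adjoin ℤ_[p] (pk_heckeSet N S D.Tl)))
  let _ : Algebra ℤ_[p] O := φ.toAlgebra
  let χ₁ : ↥(Algebra.adjoin ℤ_[p] (pk_heckeSet N S D.Tl)) →ₐ[ℤ_[p]] O :=
    { χ₀ with commutes' := fun r => rfl }
  have hinj : Function.Injective (algebraMap ℤ_[p] (FractionRing O)) := by
    rw [IsScalarTower.algebraMap_eq ℤ_[p] O (FractionRing O)]
    exact (IsFractionRing.injective O (FractionRing O)).comp (pk_padic_injective p φ)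
  have : FaithfulSMul ℤ_[p] (FractionRing O) :=
    (faithfulSMul_iff_algebraMap_injective _ _).2 hinj
  obtain ⟨v, hv0, hv⟩ := pk_eigen_tensor (Algebra.adjoin ℤ_[p] (pk_heckeSet N S D.Tl))
    (pk_hecke_comm D) ((IsScalarTower.toAlgHom ℤ_[p] O (FractionRing O)).comp χ₁)
  refine ⟨inferInstance, v, hv0, fun ℓ hℓ hℓN hℓS => ?_⟩
  have := hv ⟨D.Tl ℓ, pk_mem_heckeSet D.Tl hℓ hℓN hℓS⟩
  rw [this]
  congr 1
  change algebraMap O (FractionRing O) (χ₀ _) = _
  rw [hχ₀ ℓ hℓ hℓN hℓS]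

end final

end Fermat.Agent.JT3
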