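/-
[PK-LAT] (helper25's #1404 open leaf; also helper19's `pk_eigen_gen` of #1403 (3)).

From the LATTICE FORM of the Tate module of `J₀(N)` to the `eigen` clause of `pk_Tate`, for an
arbitrary commutative coefficient ring:

* `H` a finitely generated abelian group (`gh_H N`), `TH ℓ : H →+ H`,
* `e : Tp ≃ₗ[ℤ_[p]] (H →+ ℤ_[p])` with `e (Tl ℓ x) = (e x).comp (TH ℓ)`,
* `Ts ℓ : Module.End ℤ (H →+ ℤ)` the dual operators, `Ts ℓ ψ = ψ.comp (TH ℓ)`,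
* `θ : Algebra.adjoin ℤ {Ts ℓ | ℓ good} →+* heckeAlgebra N 2 S`, `θ (Ts ℓ) = T_ℓ`.

Then every ring homomorphism `χ : heckeAlgebra N 2 S →+* R` into a commutative `ℤ_[p]`-algebra
extends to `χ₀ : Algebra.adjoin ℤ_[p] {Tl ℓ | ℓ good} →ₐ[ℤ_[p]] R` with `χ₀ (Tl ℓ) = χ (T_ℓ)`
(`pkh_eigen_gen`; `pkh_eigen_ringHom` is the shape of the field `pk_Tate.eigen`).

Core (`pkh_char_ext`, Mathlib only): `H / torsion ≅ ℤ^n` gives a basis `b` of `Hom(H, ℤ)` whose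
image is a basis of `Hom(H, ℤ_p)`; integral endomorphisms act on `Hom(H, ℤ_p)` through the same
matrices (`pkh_Phi`); `ℤ_p ⊗_ℤ 𝕋 → End_{ℤ_p} Hom(H, ℤ_p)` is injective because `ℤ_p` is flat over
`ℤ` and `ℤ_p ⊗ Mat_n(ℤ) ≅ Mat_n(ℤ_p)` (`pkh_Psi_injective`); the algebra generated by the `Tl ℓ`
lies in its range, and `χ₀` is `Algebra.TensorProduct.lift` composed with the inverse.

Owner: helper28.  Prefix `pkh_`.
-/
import Mathlib
import Fermat.Agent.JT3.Pack.Defs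

set_option autoImplicit false

namespace Fermat.Agent.JT3

open scoped DirectSum TensorProduct

/-- evaluation at a family of elements, as a group homomorphism. -/
def pkh_ev {H : Type} [AddCommGroup H] {n : ℕ} (h : Fin n → H) (A : Type) [AddCommGroup A] :
    (H →+ A) →+ (Fin n → A) where
  toFun ψ k := ψ (h k)
  map_zero' := rfl
  map_add' _ _ := rfl

@[simp] theorem pkh_ev_apply {H : Type} [AddCommGroup H] {n : ℕ} (h : Fin n → H) (A : Type)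
    [AddCommGroup A] (ψ : H →+ A) (k : Fin n) : pkh_ev h A ψ k = ψ (h k) := rfl

/-- a finitely generated abelian group has a "basis modulo torsion": elements `h k` such that
homomorphisms into any torsion-free group are freely determined by their values at the `h k`. -/
theorem pkh_exists_frame (H : Type) [AddCommGroup H] [AddGroup.FG H] :
    ∃ (n : ℕ) (h : Fin n → H), ∀ (A : Type) [AddCommGroup A],
      (∀ (m : ℕ) (a : A), m ≠ 0 → m • a = 0 → a = 0) → Function.Bijective (pkh_ev h A) := by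
  classical
  obtain ⟨n, ι, _, q, hq, e, ⟨f⟩⟩ := AddCommGroup.equiv_free_prod_directSum_zmod H
  have : ∀ i, NeZero (q i ^ e i) := fun i => ⟨pow_ne_zero _ (hq i).ne_zero⟩
  have hY : Finite (⨁ i : ι, ZMod (q i ^ e i)) := by
    have : ∀ i, Fintype (ZMod (q i ^ e i)) := fun i => ZMod.fintype _
    exact Finite.of_fintype (Π₀ i : ι, ZMod (q i ^ e i))
  set Y := ⨁ i : ι, ZMod (q i ^ e i) with hYdef
  refine ⟨n, fun k => f.symm (Finsupp.single k 1, 0), ?_⟩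
  intro A _ hA
  constructor
  · -- injective
    rw [injective_iff_map_eq_zero]
    intro ψ hψ
    have hψ' : ∀ k, ψ (f.symm (Finsupp.single k 1, 0)) = 0 := fun k => congrFun hψ k
    have h1 : ∀ a : Fin n →₀ ℤ, ψ (f.symm ((a, 0) : (Fin n →₀ ℤ) × Y)) = 0 := by
      intro a
      induction a using Finsupp.induction_linear with
      | zero =>
        have : ((0, 0) : (Fin n →₀ ℤ) × Y) = 0 := rfl
        rw [this, map_zero, map_zero]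
      | add a b ha hb =>
        have : ((a + b, 0) : (Fin n →₀ ℤ) × Y) = (a, 0) + (b, 0) := by simp
        rw [this, map_add, map_add, ha, hb, add_zero]
      | single k c =>
        have : ((Finsupp.single k c, 0) : (Fin n →₀ ℤ) × Y) = c • (Finsupp.single k 1, 0) := by
          simp
        rw [this, map_zsmul, map_zsmul, hψ' k, smul_zero]
    ext x
    obtain ⟨⟨a, y⟩, rfl⟩ := f.symm.surjective x
    have hsplit : ((a, y) : (Fin n →₀ ℤ) × Y) = (a, 0) + (0, y) := by simp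
    rw [hsplit, map_add, map_add, AddMonoidHom.zero_apply]
    have h2 : ψ (f.symm ((0, y) : (Fin n →₀ ℤ) × Y)) = 0 := by
      apply hA (Nat.card Y) _ Nat.card_pos.ne'
      rw [← map_nsmul, ← map_nsmul]
      have : Nat.card Y • ((0, y) : (Fin n →₀ ℤ) × Y) = 0 := by
        rw [Prod.smul_mk, smul_zero, card_nsmul_eq_zero']
        rfl
      rw [this, map_zero, map_zero]
    rw [h1 a, h2, add_zero]
  · -- surjective
    intro v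
    let g : (Fin n →₀ ℤ) →+ A := Finsupp.liftAddHom (fun k => (zmultiplesHom A) (v k))
    refine ⟨(g.comp (AddMonoidHom.fst _ _)).comp f.toAddMonoidHom, ?_⟩
    ext k
    simp [g]

/-- evaluation at a frame, as a linear map over the coefficient ring. -/
def pkh_evL {H : Type} [AddCommGroup H] {n : ℕ} (h : Fin n → H) (A : Type) [CommRing A] :
    (H →+ A) →ₗ[A] (Fin n → A) where
  toFun ψ k := ψ (h k)
  map_add' _ _ := rfl
  map_smul' _ _ := rfl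

theorem pkh_evL_apply {H : Type} [AddCommGroup H] {n : ℕ} (h : Fin n → H) (A : Type)
    [CommRing A] (ψ : H →+ A) (k : Fin n) : pkh_evL h A ψ k = ψ (h k) := rfl

theorem pkh_evL_bijective {H : Type} [AddCommGroup H] {n : ℕ} (h : Fin n → H)
    (hh : ∀ (A : Type) [AddCommGroup A],
      (∀ (m : ℕ) (a : A), m ≠ 0 → m • a = 0 → a = 0) → Function.Bijective (pkh_ev h A))
    (A : Type) [CommRing A] (hA : ∀ (m : ℕ) (a : A), m ≠ 0 → m • a = 0 → a = 0) :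
    Function.Bijective (pkh_evL h A) := hh A hA

/-- the basis of `Hom(H, A)` dual to a frame. -/
noncomputable def pkh_basis {H : Type} [AddCommGroup H] {n : ℕ} (h : Fin n → H)
    (hh : ∀ (A : Type) [AddCommGroup A],
      (∀ (m : ℕ) (a : A), m ≠ 0 → m • a = 0 → a = 0) → Function.Bijective (pkh_ev h A))
    (A : Type) [CommRing A] (hA : ∀ (m : ℕ) (a : A), m ≠ 0 → m • a = 0 → a = 0) :
    Module.Basis (Fin n) A (H →+ A) :=
  Module.Basis.ofEquivFun (LinearEquiv.ofBijective (pkh_evL h A) (pkh_evL_bijective h hh A hA))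

theorem pkh_basis_repr {H : Type} [AddCommGroup H] {n : ℕ} (h : Fin n → H)
    (hh : ∀ (A : Type) [AddCommGroup A],
      (∀ (m : ℕ) (a : A), m ≠ 0 → m • a = 0 → a = 0) → Function.Bijective (pkh_ev h A))
    (A : Type) [CommRing A] (hA : ∀ (m : ℕ) (a : A), m ≠ 0 → m • a = 0 → a = 0)
    (ψ : H →+ A) (k : Fin n) : (pkh_basis h hh A hA).repr ψ k = ψ (h k) := by
  simp [pkh_basis, pkh_evL_apply]

theorem pkh_torsionFree_int : ∀ (m : ℕ) (a : ℤ), m ≠ 0 → m • a = 0 → a = 0 := by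
  intro m a hm h
  rcases smul_eq_zero.1 h with h | h
  · exact absurd h hm
  · exact h

theorem pkh_torsionFree_padic (p : ℕ) [Fact p.Prime] :
    ∀ (m : ℕ) (a : ℤ_[p]), m ≠ 0 → m • a = 0 → a = 0 := by
  intro m a hm h
  rw [nsmul_eq_mul] at h
  rcases mul_eq_zero.1 h with h | h
  · exact absurd (by exact_mod_cast h) hm
  · exact h

section

variable (p : ℕ) [Fact p.Prime] {H : Type} [AddCommGroup H] {n : ℕ} (h : Fin n → H)
  (hh : ∀ (A : Type) [AddCommGroup A],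
      (∀ (m : ℕ) (a : A), m ≠ 0 → m • a = 0 → a = 0) → Function.Bijective (pkh_ev h A))

/-- the integral dual basis. -/
noncomputable abbrev pkh_bZ : Module.Basis (Fin n) ℤ (H →+ ℤ) :=
  pkh_basis h hh ℤ pkh_torsionFree_int

/-- the `p`-adic dual basis. -/
noncomputable abbrev pkh_bP : Module.Basis (Fin n) ℤ_[p] (H →+ ℤ_[p]) :=
  pkh_basis h hh ℤ_[p] (pkh_torsionFree_padic p)

include hh in
theorem pkh_ext_frame {ψ ψ' : H →+ ℤ_[p]} (hψ : ∀ k, ψ (h k) = ψ' (h k)) : ψ = ψ' := by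
  apply (hh ℤ_[p] (pkh_torsionFree_padic p)).1
  funext k
  exact hψ k

theorem pkh_bP_eq (l : Fin n) :
    pkh_bP p h hh l = (Int.castAddHom ℤ_[p]).comp (pkh_bZ h hh l) := by
  apply pkh_ext_frame p h hh
  intro k
  have h1 : (pkh_bP p h hh l) (h k) = (pkh_bP p h hh).repr (pkh_bP p h hh l) k :=
    (pkh_basis_repr h hh ℤ_[p] (pkh_torsionFree_padic p) _ k).symm
  have h2 : (pkh_bZ h hh l) (h k) = (pkh_bZ h hh).repr (pkh_bZ h hh l) k :=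
    (pkh_basis_repr h hh ℤ pkh_torsionFree_int _ k).symm
  rw [h1, AddMonoidHom.comp_apply, h2, Module.Basis.repr_self, Module.Basis.repr_self]
  simp [Finsupp.single_apply]

/-- integral endomorphisms of `Hom(H, ℤ)` act on `Hom(H, ℤ_p)` (same matrix). -/
noncomputable def pkh_Phi : Module.End ℤ (H →+ ℤ) →+* Module.End ℤ_[p] (H →+ ℤ_[p]) :=
  ((Matrix.toLinAlgEquiv (pkh_bP p h hh)).toRingEquiv.toRingHom).comp
    ((Int.castRingHom ℤ_[p]).mapMatrix.comp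
      (LinearMap.toMatrixAlgEquiv (pkh_bZ h hh)).toRingEquiv.toRingHom)

theorem pkh_Phi_apply (x : Module.End ℤ (H →+ ℤ)) :
    pkh_Phi p h hh x = Matrix.toLin (pkh_bP p h hh) (pkh_bP p h hh)
      ((LinearMap.toMatrix (pkh_bZ h hh) (pkh_bZ h hh) x).map (Int.castRingHom ℤ_[p])) := rfl

theorem pkh_Phi_dual (f : H →+ H) (x : Module.End ℤ (H →+ ℤ)) (hx : ∀ ψ, x ψ = ψ.comp f)
    (y : Module.End ℤ_[p] (H →+ ℤ_[p])) (hy : ∀ ψ, y ψ = ψ.comp f) : pkh_Phi p h hh x = y := by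
  rw [pkh_Phi_apply]
  have : (LinearMap.toMatrix (pkh_bZ h hh) (pkh_bZ h hh) x).map (Int.castRingHom ℤ_[p]) =
      LinearMap.toMatrix (pkh_bP p h hh) (pkh_bP p h hh) y := by
    ext k l
    rw [Matrix.map_apply, LinearMap.toMatrix_apply, LinearMap.toMatrix_apply,
      pkh_basis_repr, pkh_basis_repr, hx, hy, pkh_bP_eq]
    rfl
  rw [this, Matrix.toLin_toMatrix]

end

section

variable (p : ℕ) [Fact p.Prime] {H : Type} [AddCommGroup H] {n : ℕ} (h : Fin n → H)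
  (hh : ∀ (A : Type) [AddCommGroup A],
      (∀ (m : ℕ) (a : A), m ≠ 0 → m • a = 0 → a = 0) → Function.Bijective (pkh_ev h A))
  (𝕋 : Subalgebra ℤ (Module.End ℤ (H →+ ℤ)))

/-- `pkh_Phi` restricted to a subalgebra, as a `ℤ`-algebra homomorphism. -/
noncomputable def pkh_PhiT : ↥𝕋 →ₐ[ℤ] Module.End ℤ_[p] (H →+ ℤ_[p]) where
  toRingHom := (pkh_Phi p h hh).comp 𝕋.val.toRingHom
  commutes' r := by
    show pkh_Phi p h hh ((algebraMap ℤ ↥𝕋 r : ↥𝕋) : Module.End ℤ (H →+ ℤ)) = _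
    rw [Algebra.algebraMap_eq_smul_one, Algebra.algebraMap_eq_smul_one]
    simp only [map_zsmul, Subalgebra.coe_smul, Subalgebra.coe_one, map_one]

theorem pkh_PhiT_apply (x : ↥𝕋) :
    pkh_PhiT p h hh 𝕋 x = pkh_Phi p h hh (x : Module.End ℤ (H →+ ℤ)) := rfl

/-- the comparison map `ℤ_p ⊗ 𝕋 → End_{ℤ_p} Hom(H, ℤ_p)`. -/
noncomputable def pkh_Psi :
    ℤ_[p] ⊗[ℤ] ↥𝕋 →ₐ[ℤ_[p]] Module.End ℤ_[p] (H →+ ℤ_[p]) :=
  Algebra.TensorProduct.lift (Algebra.ofId ℤ_[p] _)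
    (pkh_PhiT p h hh 𝕋)
    (fun a x => show Commute (Algebra.ofId ℤ_[p] (Module.End ℤ_[p] (H →+ ℤ_[p])) a)
      (pkh_PhiT p h hh 𝕋 x) from Algebra.commute_algebraMap_left a _)

theorem pkh_Psi_tmul (a : ℤ_[p]) (x : ↥𝕋) :
    pkh_Psi p h hh 𝕋 (a ⊗ₜ x) = a • pkh_Phi p h hh (x : Module.End ℤ (H →+ ℤ)) := by
  rw [pkh_Psi, Algebra.TensorProduct.lift_tmul, pkh_PhiT_apply]
  simp [Algebra.ofId_apply, Algebra.algebraMap_eq_smul_one]

theorem pkh_Psi_injective : Function.Injective (pkh_Psi p h hh 𝕋) := by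
  classical
  let lin1 : ℤ_[p] ⊗[ℤ] ↥𝕋 →ₗ[ℤ] ℤ_[p] ⊗[ℤ] Module.End ℤ (H →+ ℤ) :=
    LinearMap.lTensor ℤ_[p] 𝕋.val.toLinearMap
  have hlin1 : Function.Injective lin1 :=
    Module.Flat.lTensor_preserves_injective_linearMap _ Subtype.val_injective
  let lin2 : ℤ_[p] ⊗[ℤ] Module.End ℤ (H →+ ℤ) ≃ₗ[ℤ] ℤ_[p] ⊗[ℤ] Matrix (Fin n) (Fin n) ℤ :=
    LinearEquiv.lTensor ℤ_[p] (LinearMap.toMatrix (pkh_bZ h hh) (pkh_bZ h hh))
  let lin3 := (matrixEquivTensor (Fin n) ℤ ℤ_[p]).symm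
  let lin4 := Matrix.toLin (pkh_bP p h hh) (pkh_bP p h hh)
  have key : ∀ y, pkh_Psi p h hh 𝕋 y = lin4 (lin3 (lin2 (lin1 y))) := by
    intro y
    induction y using TensorProduct.induction_on with
    | zero => simp
    | add y z hy hz => rw [map_add, hy, hz, map_add, map_add, map_add, map_add]
    | tmul a x =>
      rw [pkh_Psi_tmul, pkh_Phi_apply]
      have e1 : lin1 (a ⊗ₜ[ℤ] x) = a ⊗ₜ[ℤ] (x : Module.End ℤ (H →+ ℤ)) :=
        LinearMap.lTensor_tmul _ _ _ _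
      have e2 : lin2 (a ⊗ₜ[ℤ] (x : Module.End ℤ (H →+ ℤ))) =
          a ⊗ₜ[ℤ] (LinearMap.toMatrix (pkh_bZ h hh) (pkh_bZ h hh) (x : Module.End ℤ (H →+ ℤ))) :=
        LinearEquiv.lTensor_tmul _ _ _ _
      rw [e1, e2]
      simp only [lin3, lin4]
      rw [matrixEquivTensor_apply_symm, ← map_smul]
      congr 1
  intro y z hyz
  rw [key, key] at hyz
  exact hlin1 (lin2.injective (lin3.injective (lin4.injective hyz)))

end

/-- a ring homomorphism out of a `ℤ`-subalgebra, as a `ℤ`-algebra homomorphism. -/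
def pkh_intAlgHom {E : Type} [Ring E] (𝕋 : Subalgebra ℤ E) {R : Type} [CommRing R]
    (ψ : ↥𝕋 →+* R) : ↥𝕋 →ₐ[ℤ] R where
  toRingHom := ψ
  commutes' r := by
    rw [Algebra.algebraMap_eq_smul_one, Algebra.algebraMap_eq_smul_one]
    simp

theorem pkh_intAlgHom_apply {E : Type} [Ring E] (𝕋 : Subalgebra ℤ E) {R : Type} [CommRing R]
    (ψ : ↥𝕋 →+* R) (x : ↥𝕋) : pkh_intAlgHom 𝕋 ψ x = ψ x := rfl

theorem pkh_char_ext (p : ℕ) [Fact p.Prime] {H : Type} [AddCommGroup H] [AddGroup.FG H]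
    {Tp : Type} [AddCommGroup Tp] [Module ℤ_[p] Tp] (e : Tp ≃ₗ[ℤ_[p]] (H →+ ℤ_[p]))
    {ι : Type} (TH : ι → H →+ H) (Ts : ι → Module.End ℤ (H →+ ℤ))
    (hTs : ∀ i ψ, Ts i ψ = ψ.comp (TH i)) (Tl : ι → Module.End ℤ_[p] Tp)
    (he : ∀ i x, e (Tl i x) = (e x).comp (TH i)) {R : Type} [CommRing R] [Algebra ℤ_[p] R]
    (ψ : ↥(Algebra.adjoin ℤ (Set.range Ts)) →+* R) :
    ∃ χ₀ : ↥(Algebra.adjoin ℤ_[p] (Set.range Tl)) →ₐ[ℤ_[p]] R,
      ∀ i, χ₀ ⟨Tl i, Algebra.subset_adjoin ⟨i, rfl⟩⟩ =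
        ψ ⟨Ts i, Algebra.subset_adjoin ⟨i, rfl⟩⟩ := by
  obtain ⟨n, h, hh⟩ := pkh_exists_frame H
  let Ψ := pkh_Psi p h hh (Algebra.adjoin ℤ (Set.range Ts))
  have hΨ : Function.Injective Ψ := pkh_Psi_injective p h hh _
  let cj := LinearEquiv.conjAlgEquiv ℤ_[p] e
  have hcj : ∀ i, cj (Tl i) =
      Ψ ((1 : ℤ_[p]) ⊗ₜ[ℤ] (⟨Ts i, Algebra.subset_adjoin ⟨i, rfl⟩⟩ :
        ↥(Algebra.adjoin ℤ (Set.range Ts)))) := by
    intro i
    rw [pkh_Psi_tmul, one_smul]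
    symm
    apply pkh_Phi_dual p h hh (TH i) _ (hTs i)
    intro φ
    rw [LinearEquiv.conjAlgEquiv_apply]
    simp [he]
  have hle : Algebra.adjoin ℤ_[p] (Set.range Tl) ≤ Ψ.range.comap cj.toAlgHom := by
    apply Algebra.adjoin_le
    rintro _ ⟨i, rfl⟩
    exact ⟨_, (hcj i).symm⟩
  let L : ℤ_[p] ⊗[ℤ] ↥(Algebra.adjoin ℤ (Set.range Ts)) →ₐ[ℤ_[p]] R :=
    Algebra.TensorProduct.lift (Algebra.ofId ℤ_[p] R) (pkh_intAlgHom _ ψ)
      (fun _ _ => Commute.all _ _)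
  let Ψe := AlgEquiv.ofInjective Ψ hΨ
  let incl : ↥(Algebra.adjoin ℤ_[p] (Set.range Tl)) →ₐ[ℤ_[p]] ↥Ψ.range :=
    AlgHom.codRestrict (cj.toAlgHom.comp (Subalgebra.val _)) Ψ.range (fun c => hle c.2)
  refine ⟨(L.comp Ψe.symm.toAlgHom).comp incl, ?_⟩
  intro i
  have h1 : incl ⟨Tl i, Algebra.subset_adjoin ⟨i, rfl⟩⟩ =
      Ψe ((1 : ℤ_[p]) ⊗ₜ[ℤ] (⟨Ts i, Algebra.subset_adjoin ⟨i, rfl⟩⟩ :
        ↥(Algebra.adjoin ℤ (Set.range Ts)))) := Subtype.ext (hcj i)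
  have h2 : ∀ y, (Ψe.symm : ↥Ψ.range →ₐ[ℤ_[p]] _) (Ψe y) = y := fun y => Ψe.symm_apply_apply y
  rw [AlgHom.comp_apply, h1, AlgHom.comp_apply]
  show L ((Ψe.symm : ↥Ψ.range →ₐ[ℤ_[p]] _) (Ψe _)) = _
  rw [h2]
  simp only [L, Algebra.TensorProduct.lift_tmul, map_one, one_mul, pkh_intAlgHom_apply]

/-- **[PK-LAT]**, general-`R` form: from the lattice form of the Tate module
(`Tp ≃ Hom(H, ℤ_p)`, Hecke operators induced by endomorphisms `TH ℓ` of `H`, and a ring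
homomorphism `θ` from the `ℤ`-algebra generated by the dual operators on `Hom(H, ℤ)` to the
Hecke algebra of cusp forms), every character of the Hecke algebra with values in a commutative
`ℤ_p`-algebra extends to the `ℤ_p`-algebra generated by the `Tl ℓ` on `Tp`. -/
theorem pkh_eigen_gen (p : ℕ) [Fact p.Prime] (N : ℕ) [NeZero N] (S : Finset ℕ)
    {H : Type} [AddCommGroup H] [AddGroup.FG H]
    {Tp : Type} [AddCommGroup Tp] [Module ℤ_[p] Tp] (e : Tp ≃ₗ[ℤ_[p]] (H →+ ℤ_[p]))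
    (TH : ℕ → H →+ H) (Ts : ℕ → Module.End ℤ (H →+ ℤ))
    (hTs : ∀ ℓ, pk_Good N S ℓ → ∀ ψ, Ts ℓ ψ = ψ.comp (TH ℓ))
    (Tl : ℕ → Module.End ℤ_[p] Tp)
    (he : ∀ ℓ, pk_Good N S ℓ → ∀ x, e (Tl ℓ x) = (e x).comp (TH ℓ))
    (θ : ↥(Algebra.adjoin ℤ {T | ∃ ℓ, pk_Good N S ℓ ∧ T = Ts ℓ}) →+*
      CuspForm.heckeAlgebra N 2 (↑S : Set ℕ))
    (hθ : ∀ (ℓ : ℕ) (hℓ : ℓ.Prime) (hℓN : ¬ ℓ ∣ N) (hℓS : ℓ ∉ (↑S : Set ℕ)),
      θ ⟨Ts ℓ, Algebra.subset_adjoin ⟨ℓ, ⟨hℓ, hℓN, hℓS⟩, rfl⟩⟩ =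
        CuspForm.heckeAlgebra.T hℓ hℓN hℓS)
    {R : Type} [CommRing R] [Algebra ℤ_[p] R]
    (χ : CuspForm.heckeAlgebra N 2 (↑S : Set ℕ) →+* R) :
    ∃ χ₀ : ↥(Algebra.adjoin ℤ_[p] (pk_heckeSet N S Tl)) →ₐ[ℤ_[p]] R,
      ∀ (ℓ : ℕ) (hℓ : ℓ.Prime) (hℓN : ¬ ℓ ∣ N) (hℓS : ℓ ∉ (↑S : Set ℕ)),
        χ₀ ⟨Tl ℓ, pk_mem_heckeSet Tl hℓ hℓN hℓS⟩ = χ (CuspForm.heckeAlgebra.T hℓ hℓN hℓS) := by
  have hZ : Set.range (fun i : {ℓ : ℕ // pk_Good N S ℓ} => Ts i.1) =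
      {T | ∃ ℓ, pk_Good N S ℓ ∧ T = Ts ℓ} := by
    ext T
    constructor
    · rintro ⟨i, rfl⟩
      exact ⟨i.1, i.2, rfl⟩
    · rintro ⟨ℓ, hℓ, rfl⟩
      exact ⟨⟨ℓ, hℓ⟩, rfl⟩
  have hP : pk_heckeSet N S Tl = Set.range (fun i : {ℓ : ℕ // pk_Good N S ℓ} => Tl i.1) := by
    ext T
    constructor
    · rintro ⟨ℓ, hℓ, rfl⟩
      exact ⟨⟨ℓ, hℓ⟩, rfl⟩
    · rintro ⟨i, rfl⟩
      exact ⟨i.1, i.2, rfl⟩
  have hZ' : Algebra.adjoin ℤ (Set.range (fun i : {ℓ : ℕ // pk_Good N S ℓ} => Ts i.1)) ≤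
      Algebra.adjoin ℤ {T | ∃ ℓ, pk_Good N S ℓ ∧ T = Ts ℓ} := le_of_eq (by rw [hZ])
  have hP' : Algebra.adjoin ℤ_[p] (pk_heckeSet N S Tl) ≤
      Algebra.adjoin ℤ_[p] (Set.range (fun i : {ℓ : ℕ // pk_Good N S ℓ} => Tl i.1)) :=
    le_of_eq (by rw [hP])
  obtain ⟨χ₀, hχ₀⟩ := pkh_char_ext p e (fun i : {ℓ : ℕ // pk_Good N S ℓ} => TH i.1)
    (fun i => Ts i.1) (fun i => hTs i.1 i.2) (fun i => Tl i.1) (fun i => he i.1 i.2)
    ((χ.comp θ).comp (Subalgebra.inclusion hZ').toRingHom)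
  refine ⟨χ₀.comp (Subalgebra.inclusion hP'), ?_⟩
  intro ℓ hℓ hℓN hℓS
  have := hχ₀ ⟨ℓ, ⟨hℓ, hℓN, hℓS⟩⟩
  rw [AlgHom.comp_apply]
  refine Eq.trans ?_ (this.trans ?_)
  · rfl
  · show χ (θ _) = _
    rw [← hθ ℓ hℓ hℓN hℓS]
    rfl

/-- the same with a ring homomorphism `ℤ_p → R` instead of an algebra structure, and a plain
ring homomorphism as output (the shape of the field `pk_Tate.eigen`). -/
theorem pkh_eigen_ringHom (p : ℕ) [Fact p.Prime] (N : ℕ) [NeZero N] (S : Finset ℕ)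
    {H : Type} [AddCommGroup H] [AddGroup.FG H]
    {Tp : Type} [AddCommGroup Tp] [Module ℤ_[p] Tp] (e : Tp ≃ₗ[ℤ_[p]] (H →+ ℤ_[p]))
    (TH : ℕ → H →+ H) (Ts : ℕ → Module.End ℤ (H →+ ℤ))
    (hTs : ∀ ℓ, pk_Good N S ℓ → ∀ ψ, Ts ℓ ψ = ψ.comp (TH ℓ))
    (Tl : ℕ → Module.End ℤ_[p] Tp)
    (he : ∀ ℓ, pk_Good N S ℓ → ∀ x, e (Tl ℓ x) = (e x).comp (TH ℓ))
    (θ : ↥(Algebra.adjoin ℤ {T | ∃ ℓ, pk_Good N S ℓ ∧ T = Ts ℓ}) →+*
      CuspForm.heckeAlgebra N 2 (↑S : Set ℕ))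
    (hθ : ∀ (ℓ : ℕ) (hℓ : ℓ.Prime) (hℓN : ¬ ℓ ∣ N) (hℓS : ℓ ∉ (↑S : Set ℕ)),
      θ ⟨Ts ℓ, Algebra.subset_adjoin ⟨ℓ, ⟨hℓ, hℓN, hℓS⟩, rfl⟩⟩ =
        CuspForm.heckeAlgebra.T hℓ hℓN hℓS)
    {R : Type} [CommRing R] (j : ℤ_[p] →+* R)
    (χ : CuspForm.heckeAlgebra N 2 (↑S : Set ℕ) →+* R) :
    ∃ χ₀ : ↥(Algebra.adjoin ℤ_[p] (pk_heckeSet N S Tl)) →+* R,
      (∀ a : ℤ_[p], χ₀ (algebraMap ℤ_[p] _ a) = j a) ∧
      ∀ (ℓ : ℕ) (hℓ : ℓ.Prime) (hℓN : ¬ ℓ ∣ N) (hℓS : ℓ ∉ (↑S : Set ℕ)),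
        χ₀ ⟨Tl ℓ, pk_mem_heckeSet Tl hℓ hℓN hℓS⟩ = χ (CuspForm.heckeAlgebra.T hℓ hℓN hℓS) := by
  let _ : Algebra ℤ_[p] R := j.toAlgebra
  obtain ⟨χ₀, hχ₀⟩ := pkh_eigen_gen p N S e TH Ts hTs Tl he θ hθ χ
  exact ⟨χ₀.toRingHom, fun a => χ₀.commutes a, hχ₀⟩

end Fermat.Agent.JT3
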