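/-
[PK] = S30 packaging (lead Design Note #17 (4)(b)(d)), leaf PK1: finite extensions of complete
discrete valuation rings.

For a complete DVR `O` of characteristic zero with fraction field `K` and a finite extension `E / K`,
the integral closure `O'' := integralClosure O E` is again a complete DVR of characteristic zero,
module-finite over `O`, with `O → O''` injective and local, and with finite residue field when `O`
has one.  (Locality: a domain finite over a complete local ring is local, from the prelude's
decomposition of finite algebras over complete local rings.)

Owner: helper25.  Prefix `pkd_`.
-/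
import Mathlib
import Fermat.Prelude.Thm_Algebra_finite_maximalSpectrum_and_bijective_localization_of_module_finite
import Fermat.Prelude.Thm_IsLocalRing_isAdicComplete_of_module_finite

set_option autoImplicit false
set_option linter.unusedSectionVars false
set_option linter.style.haveILetI false

namespace Fermat.Agent.JT3

open IsLocalRing

/-- A domain that is module-finite over a complete noetherian local ring is a local ring. -/
theorem pkd_isLocalRing_of_finite (O : Type) [CommRing O] [IsLocalRing O] [IsNoetherianRing O]
    [IsAdicComplete (maximalIdeal O) O] (A : Type) [CommRing A] [IsDomain A] [Algebra O A]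
    [Module.Finite O A] : IsLocalRing A := by
  obtain ⟨-, hbij, -, -⟩ :=
    Algebra.finite_maximalSpectrum_and_bijective_localization_of_module_finite (𝒪 := O) A
  classical
  have hsub : ∀ I J : MaximalSpectrum A, I = J := by
    intro I J
    by_contra hIJ
    set f := RingHom.pi fun I : MaximalSpectrum A => algebraMap A (Localization.AtPrime I.asIdeal)
      with hf
    obtain ⟨a, ha⟩ := hbij.2 (Pi.single I 1)
    obtain ⟨b, hb⟩ := hbij.2 (Pi.single J 1)
    have hab : f (a * b) = 0 := by
      rw [map_mul, ha, hb]
      funext K
      by_cases hK : K = I
      · subst hK
        simp [Pi.single_eq_of_ne hIJ]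
      · simp [Pi.single_eq_of_ne hK]
    have hab0 : a * b = 0 := hbij.1 (by rw [hab, map_zero])
    rcases mul_eq_zero.1 hab0 with h | h
    · rw [h, map_zero] at ha
      have := congrFun ha I
      simp at this
    · rw [h, map_zero] at hb
      have := congrFun hb J
      simp at this
  obtain ⟨M, hM⟩ := Ideal.exists_maximal A
  refine IsLocalRing.of_unique_max_ideal ⟨M, hM, fun M' hM' => ?_⟩
  exact congrArg MaximalSpectrum.asIdeal (hsub ⟨M', hM'⟩ ⟨M, hM⟩)

/-- A local ring that is module-finite over a local ring with finite residue field (along a local
homomorphism) has a finite residue field. -/
theorem pkd_finite_residueField (O : Type) [CommRing O] [IsLocalRing O] [Finite (ResidueField O)]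
    (A : Type) [CommRing A] [IsLocalRing A] [Algebra O A] [Module.Finite O A]
    [IsLocalHom (algebraMap O A)] : Finite (ResidueField A) := by
  haveI : Module.Finite (ResidueField O) (ResidueField A) := inferInstance
  exact Module.finite_of_finite (ResidueField O)

section ext

variable (O : Type) [CommRing O] [IsDomain O] [IsDiscreteValuationRing O]
  [IsAdicComplete (maximalIdeal O) O]
  (K : Type) [Field K] [Algebra O K] [IsFractionRing O K] [CharZero O]
  (E : Type) [Field E] [Algebra K E] [Algebra O E] [IsScalarTower O K E] [FiniteDimensional K E]

include K

theorem pkd_finite : Module.Finite O (integralClosure O E) :=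
  haveI : CharZero K := charZero_of_injective_algebraMap (IsFractionRing.injective O K)
  IsIntegralClosure.finite O K E (integralClosure O E)

theorem pkd_isLocalRing : IsLocalRing (integralClosure O E) :=
  haveI := pkd_finite O K E
  pkd_isLocalRing_of_finite O (integralClosure O E)

theorem pkd_isDedekindDomain : IsDedekindDomain (integralClosure O E) :=
  haveI : CharZero K := charZero_of_injective_algebraMap (IsFractionRing.injective O K)
  integralClosure.isDedekindDomain O K E

theorem pkd_injective : Function.Injective (algebraMap O (integralClosure O E)) := by
  have h1 : Function.Injective (algebraMap O E) := by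
    rw [IsScalarTower.algebraMap_eq O K E]
    exact (algebraMap K E).injective.comp (IsFractionRing.injective O K)
  intro a b hab
  apply h1
  have := congrArg (algebraMap (integralClosure O E) E) hab
  rwa [← IsScalarTower.algebraMap_apply, ← IsScalarTower.algebraMap_apply] at this

theorem pkd_not_isField : ¬ IsField (integralClosure O E) := by
  intro h
  have hint : Algebra.IsIntegral O (integralClosure O E) := inferInstance
  have := isField_of_isIntegral_of_isField (pkd_injective O K E) h
  exact IsDiscreteValuationRing.not_isField O this

/-- The integral closure of a complete DVR in a finite extension of its fraction field is a DVR. -/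
theorem pkd_isDVR : IsDiscreteValuationRing (integralClosure O E) := by
  have h1 := pkd_isLocalRing O K E
  have h2 := pkd_isDedekindDomain O K E
  exact ((IsDiscreteValuationRing.TFAE (integralClosure O E) (pkd_not_isField O K E)).out 0 2).2 h2

theorem pkd_isLocalHom : IsLocalHom (algebraMap O (integralClosure O E)) := by
  have hint : (algebraMap O (integralClosure O E)).IsIntegral :=
    algebraMap_isIntegral_iff.mpr inferInstance
  exact hint.isLocalHom (pkd_injective O K E)

theorem pkd_isAdicComplete [IsLocalRing (integralClosure O E)] :
    IsAdicComplete (maximalIdeal (integralClosure O E)) (integralClosure O E) := by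
  haveI := pkd_finite O K E
  haveI := pkd_isLocalHom O K E
  exact IsLocalRing.isAdicComplete_of_module_finite (𝒪 := O)

theorem pkd_finite_residue [Finite (ResidueField O)] [IsLocalRing (integralClosure O E)] :
    Finite (ResidueField (integralClosure O E)) := by
  haveI := pkd_finite O K E
  haveI := pkd_isLocalHom O K E
  exact pkd_finite_residueField O _

theorem pkd_charZero : CharZero (integralClosure O E) :=
  charZero_of_injective_algebraMap (pkd_injective O K E)

end ext

end Fermat.Agent.JT3
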