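/-
[PK] S30 packaging, leaf PK4: the lattice `Λ = U ∩ O^d` cut out by a subspace `U ⊆ Ω^d`
(`O` a principal ideal domain, e.g. a discrete valuation ring, `Ω` a field containing `O`).

* `pkl_lat U`          : the `O`-submodule `{v ∈ O^d | v ∈ U}` of `O^d` (free and finite over `O`);
* `pkl_Rational U`     : `U` is spanned over `Ω` by `pkl_lat U` ("`U` is defined over `Frac O`");
* `pkl_basis_indep`, `pkl_basis_span`, `pkl_finrank` : an `O`-basis of the lattice is an `Ω`-basis
  of `U`;
* `pkl_end`, `pkl_rep` : matrices over `O` stabilising `U` act on the lattice;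
* `pkl_charpoly`       : the characteristic polynomial on the lattice maps to the one on `U`;
* `pkl_saturated`, `pkl_sub_mem` : the lattice is saturated (continuity is inherited).

Owner: helper13.  Prefix `pkl_`.
-/
import Mathlib

set_option autoImplicit false
set_option linter.unusedSectionVars false

open Matrix TensorProduct

namespace Fermat.Agent.JT3

section lattice
variable {O Ω : Type*} [CommRing O] [IsDomain O] [IsPrincipalIdealRing O] [Field Ω] [Algebra O Ω]
  [FaithfulSMul O Ω] {d : ℕ}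

/-- The coordinatewise map `O^d → Ω^d`. -/
def pkl_coe (O Ω : Type*) [CommRing O] [Field Ω] [Algebra O Ω] (d : ℕ) :
    (Fin d → O) →ₗ[O] (Fin d → Ω) :=
  (Algebra.linearMap O Ω).compLeft (Fin d)

omit [IsDomain O] [IsPrincipalIdealRing O] [FaithfulSMul O Ω] in
@[simp] theorem pkl_coe_apply (v : Fin d → O) (i : Fin d) :
    pkl_coe O Ω d v i = algebraMap O Ω (v i) := rfl

omit [IsDomain O] [IsPrincipalIdealRing O] in
theorem pkl_coe_injective : Function.Injective (pkl_coe O Ω d) := by
  intro v w h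
  funext i
  have := congrFun h i
  rw [pkl_coe_apply, pkl_coe_apply] at this
  exact FaithfulSMul.algebraMap_injective O Ω this

variable (O) in
/-- The lattice `U ∩ O^d`. -/
def pkl_lat (U : Submodule Ω (Fin d → Ω)) : Submodule O (Fin d → O) :=
  (U.restrictScalars O).comap (pkl_coe O Ω d)

omit [IsDomain O] [IsPrincipalIdealRing O] [FaithfulSMul O Ω] in
theorem pkl_mem_lat {U : Submodule Ω (Fin d → Ω)} {v : Fin d → O} :
    v ∈ pkl_lat O U ↔ (fun i => algebraMap O Ω (v i)) ∈ U := Iff.rfl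

omit [IsDomain O] [IsPrincipalIdealRing O] [FaithfulSMul O Ω] in
theorem pkl_coe_mem {U : Submodule Ω (Fin d → Ω)} (x : ↥(pkl_lat O U)) :
    pkl_coe O Ω d (x : Fin d → O) ∈ U := x.2

variable (O) in
/-- `U` is spanned by its lattice points. -/
def pkl_Rational (U : Submodule Ω (Fin d → Ω)) : Prop :=
  Submodule.span Ω ((fun (v : Fin d → O) (i : Fin d) => algebraMap O Ω (v i)) ''
    (pkl_lat O U : Set (Fin d → O))) = U

omit [IsDomain O] [IsPrincipalIdealRing O] [FaithfulSMul O Ω] in
theorem pkl_span_le (O : Type*) [CommRing O] [Algebra O Ω] (U : Submodule Ω (Fin d → Ω)) :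
    Submodule.span Ω ((fun (v : Fin d → O) (i : Fin d) => algebraMap O Ω (v i)) ''
      (pkl_lat O U : Set (Fin d → O))) ≤ U := by
  rw [Submodule.span_le]
  rintro _ ⟨v, hv, rfl⟩
  exact hv

/-! ### An `O`-basis of the lattice is an `Ω`-basis of `U` -/

/-- Flat base change: `O`-linearly independent vectors of `O^d` are `Ω`-linearly independent
in `Ω^d`. -/
theorem pkl_indep_of_indep {ι : Type*} {w : ι → (Fin d → O)} (hw : LinearIndependent O w) :
    LinearIndependent Ω (fun k => pkl_coe O Ω d (w k)) := by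
  classical
  have h1 : LinearIndependent Ω (fun k => (1 : Ω) ⊗ₜ[O] w k) :=
    Module.Flat.linearIndependent_one_tmul hw
  have h2 := h1.map' (TensorProduct.piScalarRight O Ω Ω (Fin d)).toLinearMap
    (LinearEquiv.ker _)
  have h3 : (fun k => pkl_coe O Ω d (w k)) =
      (⇑(TensorProduct.piScalarRight O Ω Ω (Fin d)).toLinearMap ∘
        fun k => (1 : Ω) ⊗ₜ[O] w k) := by
    funext k i
    simp [pkl_coe_apply, Algebra.smul_def]
  rw [h3]
  exact h2

theorem pkl_basis_indep {U : Submodule Ω (Fin d → Ω)} {ι : Type*}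
    (e : Module.Basis ι O ↥(pkl_lat O U)) :
    LinearIndependent Ω (fun k => pkl_coe O Ω d (e k : Fin d → O)) := by
  apply pkl_indep_of_indep
  exact e.linearIndependent.map' (pkl_lat O U).subtype (Submodule.ker_subtype _)

omit [IsDomain O] [IsPrincipalIdealRing O] [FaithfulSMul O Ω] in
theorem pkl_basis_span {U : Submodule Ω (Fin d → Ω)} (hU : pkl_Rational O U) {ι : Type*}
    (e : Module.Basis ι O ↥(pkl_lat O U)) :
    Submodule.span Ω (Set.range fun k => pkl_coe O Ω d (e k : Fin d → O)) = U := by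
  apply le_antisymm
  · rw [Submodule.span_le]
    rintro _ ⟨k, rfl⟩
    exact (e k).2
  · conv_lhs => rw [← hU]
    rw [Submodule.span_le]
    rintro _ ⟨v, hv, rfl⟩
    -- `v` is an `O`-combination of the basis
    have h1 : (⟨v, hv⟩ : ↥(pkl_lat O U)) ∈ Submodule.span O (Set.range e) := by
      rw [e.span_eq]; exact Submodule.mem_top
    have h2 : v ∈ Submodule.span O (Set.range fun k => (e k : Fin d → O)) := by
      have := Submodule.apply_mem_span_image_of_mem_span (pkl_lat O U).subtype h1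
      rwa [← Set.range_comp] at this
    have h3 : pkl_coe O Ω d v ∈ Submodule.span O
        (Set.range fun k => pkl_coe O Ω d (e k : Fin d → O)) := by
      have := Submodule.apply_mem_span_image_of_mem_span (pkl_coe O Ω d) h2
      rwa [← Set.range_comp] at this
    exact Submodule.span_le_restrictScalars O Ω _ h3

/-- The `Ω`-basis of `U` given by an `O`-basis of the lattice. -/
noncomputable def pkl_basisU {U : Submodule Ω (Fin d → Ω)} (hU : pkl_Rational O U) {ι : Type*}
    (e : Module.Basis ι O ↥(pkl_lat O U)) : Module.Basis ι Ω ↥U :=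
  Module.Basis.mk (v := fun k => (⟨pkl_coe O Ω d (e k : Fin d → O), pkl_coe_mem (e k)⟩ : ↥U))
    (by
      have h := pkl_basis_indep (Ω := Ω) e
      exact LinearIndependent.of_comp U.subtype h)
    (by
      intro x _
      have hx : (x : Fin d → Ω) ∈ Submodule.span Ω
          (Set.range fun k => pkl_coe O Ω d (e k : Fin d → O)) := by
        rw [pkl_basis_span hU e]; exact x.2
      have : Set.range (fun k => pkl_coe O Ω d (e k : Fin d → O)) =
          U.subtype '' Set.range
            (fun k => (⟨pkl_coe O Ω d (e k : Fin d → O), pkl_coe_mem (e k)⟩ : ↥U)) := by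
        rw [← Set.range_comp]; rfl
      rw [this, ← Submodule.map_span] at hx
      obtain ⟨y, hy, hyx⟩ := hx
      have : y = x := Subtype.ext hyx
      rwa [← this])

theorem pkl_basisU_apply {U : Submodule Ω (Fin d → Ω)} (hU : pkl_Rational O U) {ι : Type*}
    (e : Module.Basis ι O ↥(pkl_lat O U)) (k : ι) :
    ((pkl_basisU hU e k : ↥U) : Fin d → Ω) = pkl_coe O Ω d (e k : Fin d → O) := by
  rw [pkl_basisU, Module.Basis.mk_apply]

/-- **The rank of the lattice is the dimension of `U`.** -/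
theorem pkl_finrank {U : Submodule Ω (Fin d → Ω)} (hU : pkl_Rational O U) :
    Module.finrank O ↥(pkl_lat O U) = Module.finrank Ω ↥U := by
  let e := Module.Free.chooseBasis O ↥(pkl_lat O U)
  rw [Module.finrank_eq_card_basis e, Module.finrank_eq_card_basis (pkl_basisU hU e)]

/-- A subspace spanned by vectors with coordinates in `K = Frac O` is rational. -/
theorem pkl_rational_of_basis {K : Type*} [Field K] [Algebra O K] [IsFractionRing O K]
    [Algebra K Ω] [IsScalarTower O K Ω] {U : Submodule Ω (Fin d → Ω)} {ι : Type*}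
    (b : ι → Fin d → K)
    (hspan : Submodule.span Ω (Set.range fun j (i : Fin d) => algebraMap K Ω (b j i)) = U) :
    pkl_Rational O U := by
  apply le_antisymm (pkl_span_le O U)
  conv_lhs => rw [← hspan]
  rw [Submodule.span_le]
  rintro _ ⟨j, rfl⟩
  have hbU : (fun i : Fin d => algebraMap K Ω (b j i)) ∈ U := by
    rw [← hspan]
    exact Submodule.subset_span ⟨j, rfl⟩
  obtain ⟨s, hs⟩ := IsLocalization.exist_integer_multiples_of_finite (nonZeroDivisors O) (b j)
  choose v hv using hs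
  have hs0 : algebraMap O Ω (s : O) ≠ 0 := by
    rw [Ne, FaithfulSMul.algebraMap_eq_zero_iff]
    exact nonZeroDivisors.coe_ne_zero s
  have hcoe : (fun i : Fin d => algebraMap O Ω (v i)) =
      algebraMap O Ω (s : O) • fun i : Fin d => algebraMap K Ω (b j i) := by
    funext i
    rw [IsScalarTower.algebraMap_apply O K Ω, hv i, Pi.smul_apply, smul_eq_mul,
      Algebra.smul_def, map_mul, ← IsScalarTower.algebraMap_apply O K Ω]
  have hvU : v ∈ pkl_lat O U := by
    rw [pkl_mem_lat, hcoe]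
    exact U.smul_mem _ hbU
  have h2 : (fun i : Fin d => algebraMap K Ω (b j i)) =
      (algebraMap O Ω (s : O))⁻¹ • fun i : Fin d => algebraMap O Ω (v i) := by
    rw [hcoe, smul_smul, inv_mul_cancel₀ hs0, one_smul]
  show (fun i : Fin d => algebraMap K Ω (b j i)) ∈ _
  rw [h2]
  exact Submodule.smul_mem _ _ (Submodule.subset_span ⟨v, hvU, rfl⟩)

/-! ### Matrices stabilising `U` act on the lattice -/

omit [IsDomain O] [IsPrincipalIdealRing O] [FaithfulSMul O Ω] in
theorem pkl_coe_mulVec (A : Matrix (Fin d) (Fin d) O) (v : Fin d → O) :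
    pkl_coe O Ω d (A *ᵥ v) = (A.map (algebraMap O Ω)) *ᵥ pkl_coe O Ω d v := by
  funext i
  exact RingHom.map_mulVec (algebraMap O Ω) A v i

/-- The endomorphism of the lattice induced by a matrix stabilising `U`. -/
def pkl_end {U : Submodule Ω (Fin d → Ω)} (A : Matrix (Fin d) (Fin d) O)
    (hA : ∀ v ∈ U, (A.map (algebraMap O Ω)) *ᵥ v ∈ U) : Module.End O ↥(pkl_lat O U) :=
  A.mulVecLin.restrict (p := pkl_lat O U) (q := pkl_lat O U) (fun v hv => by
    show pkl_coe O Ω d (A *ᵥ v) ∈ U
    rw [pkl_coe_mulVec]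
    exact hA _ hv)

omit [IsDomain O] [IsPrincipalIdealRing O] [FaithfulSMul O Ω] in
@[simp] theorem pkl_end_coe {U : Submodule Ω (Fin d → Ω)} (A : Matrix (Fin d) (Fin d) O)
    (hA : ∀ v ∈ U, (A.map (algebraMap O Ω)) *ᵥ v ∈ U) (v : ↥(pkl_lat O U)) :
    ((pkl_end A hA v : ↥(pkl_lat O U)) : Fin d → O) = A *ᵥ (v : Fin d → O) := rfl

omit [IsDomain O] [IsPrincipalIdealRing O] [FaithfulSMul O Ω] in
theorem pkl_coe_end {U : Submodule Ω (Fin d → Ω)} (A : Matrix (Fin d) (Fin d) O)
    (hA : ∀ v ∈ U, (A.map (algebraMap O Ω)) *ᵥ v ∈ U) (v : ↥(pkl_lat O U)) :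
    pkl_coe O Ω d ((pkl_end A hA v : ↥(pkl_lat O U)) : Fin d → O) =
      (A.map (algebraMap O Ω)) *ᵥ pkl_coe O Ω d (v : Fin d → O) := by
  rw [pkl_end_coe, pkl_coe_mulVec]

/-- The representation on the lattice induced by a matrix representation stabilising `U`. -/
def pkl_rep {G : Type*} [Group G] {U : Submodule Ω (Fin d → Ω)}
    (M : G →* Matrix (Fin d) (Fin d) O)
    (hM : ∀ g, ∀ v ∈ U, ((M g).map (algebraMap O Ω)) *ᵥ v ∈ U) :
    G →* Module.End O ↥(pkl_lat O U) where
  toFun g := pkl_end (M g) (hM g)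
  map_one' := by
    apply LinearMap.ext
    intro v
    apply Subtype.ext
    rw [pkl_end_coe, map_one, Matrix.one_mulVec]
    rfl
  map_mul' g h := by
    apply LinearMap.ext
    intro v
    apply Subtype.ext
    rw [pkl_end_coe, map_mul, Module.End.mul_apply, pkl_end_coe, pkl_end_coe,
      Matrix.mulVec_mulVec]

omit [IsDomain O] [IsPrincipalIdealRing O] [FaithfulSMul O Ω] in
@[simp] theorem pkl_rep_apply {G : Type*} [Group G] {U : Submodule Ω (Fin d → Ω)}
    (M : G →* Matrix (Fin d) (Fin d) O)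
    (hM : ∀ g, ∀ v ∈ U, ((M g).map (algebraMap O Ω)) *ᵥ v ∈ U) (g : G) :
    pkl_rep M hM g = pkl_end (M g) (hM g) := rfl

omit [IsDomain O] [IsPrincipalIdealRing O] [FaithfulSMul O Ω] in
/-- Unramifiedness is inherited. -/
theorem pkl_rep_eq_one {G : Type*} [Group G] {U : Submodule Ω (Fin d → Ω)}
    (M : G →* Matrix (Fin d) (Fin d) O)
    (hM : ∀ g, ∀ v ∈ U, ((M g).map (algebraMap O Ω)) *ᵥ v ∈ U) {g : G} (hg : M g = 1) :
    pkl_rep M hM g = 1 := by
  apply LinearMap.ext
  intro v
  apply Subtype.ext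
  rw [pkl_rep_apply, pkl_end_coe, hg, Matrix.one_mulVec]
  rfl

/-! ### Characteristic polynomials -/

/-- Coordinates with respect to the two bases agree. -/
theorem pkl_repr {U : Submodule Ω (Fin d → Ω)} (hU : pkl_Rational O U) {ι : Type*} [Fintype ι]
    (e : Module.Basis ι O ↥(pkl_lat O U)) (x : ↥(pkl_lat O U)) (i : ι) :
    (pkl_basisU hU e).repr ⟨pkl_coe O Ω d (x : Fin d → O), pkl_coe_mem x⟩ i =
      algebraMap O Ω (e.repr x i) := by
  have hx : (⟨pkl_coe O Ω d (x : Fin d → O), pkl_coe_mem x⟩ : ↥U) =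
      ∑ k, algebraMap O Ω (e.repr x k) • pkl_basisU hU e k := by
    apply Subtype.ext
    rw [Submodule.coe_sum]
    simp only [Submodule.coe_smul, pkl_basisU_apply]
    conv_lhs => rw [← e.sum_repr x]
    rw [Submodule.coe_sum, map_sum]
    apply Finset.sum_congr rfl
    intro k _
    rw [Submodule.coe_smul, map_smul, algebraMap_smul]
  rw [hx, Module.Basis.repr_sum_self]

omit [IsDomain O] [IsPrincipalIdealRing O] [FaithfulSMul O Ω] in
/-- The endomorphism of `U` induced by a matrix over `O` stabilising `U`. -/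
def pkl_endU {U : Submodule Ω (Fin d → Ω)} (A : Matrix (Fin d) (Fin d) O)
    (hA : ∀ v ∈ U, (A.map (algebraMap O Ω)) *ᵥ v ∈ U) : Module.End Ω ↥U :=
  (A.map (algebraMap O Ω)).mulVecLin.restrict (p := U) (q := U) (fun v hv => by
    rw [Matrix.mulVecLin_apply]
    exact hA v hv)

omit [IsDomain O] [IsPrincipalIdealRing O] [FaithfulSMul O Ω] in
@[simp] theorem pkl_endU_coe {U : Submodule Ω (Fin d → Ω)} (A : Matrix (Fin d) (Fin d) O)
    (hA : ∀ v ∈ U, (A.map (algebraMap O Ω)) *ᵥ v ∈ U) (x : ↥U) :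
    ((pkl_endU A hA x : ↥U) : Fin d → Ω) = (A.map (algebraMap O Ω)) *ᵥ (x : Fin d → Ω) := rfl

/-- **The characteristic polynomial on the lattice maps to the characteristic polynomial
on `U`.** -/
theorem pkl_charpoly {U : Submodule Ω (Fin d → Ω)} (hU : pkl_Rational O U)
    (A : Matrix (Fin d) (Fin d) O) (hA : ∀ v ∈ U, (A.map (algebraMap O Ω)) *ᵥ v ∈ U) :
    (LinearMap.charpoly (pkl_end A hA)).map (algebraMap O Ω) =
      LinearMap.charpoly (pkl_endU A hA) := by
  classical
  let e := Module.Free.chooseBasis O ↥(pkl_lat O U)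
  rw [← LinearMap.charpoly_toMatrix (pkl_end A hA) e,
    ← LinearMap.charpoly_toMatrix (pkl_endU A hA) (pkl_basisU hU e), ← Matrix.charpoly_map]
  congr 1
  ext i j
  have key : (⟨pkl_coe O Ω d (pkl_end A hA (e j) : Fin d → O), pkl_coe_mem _⟩ : ↥U) =
      pkl_endU A hA (pkl_basisU hU e j) := by
    apply Subtype.ext
    rw [pkl_endU_coe, pkl_basisU_apply]
    exact pkl_coe_end A hA (e j)
  rw [Matrix.map_apply, LinearMap.toMatrix_apply, LinearMap.toMatrix_apply, ← key, pkl_repr]

/-! ### Saturation and continuity -/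

/-- The lattice is saturated in `O^d`. -/
theorem pkl_saturated {U : Submodule Ω (Fin d → Ω)} (I : Ideal O) {v : Fin d → O}
    (hv : v ∈ pkl_lat O U) (h : ∀ i, v i ∈ I) :
    (⟨v, hv⟩ : ↥(pkl_lat O U)) ∈ I • (⊤ : Submodule O ↥(pkl_lat O U)) := by
  obtain ⟨a, rfl⟩ := (IsPrincipalIdealRing.principal I).principal
  by_cases ha : a = 0
  · subst ha
    have hv0 : v = 0 := by
      funext i
      have := h i
      rw [Ideal.submodule_span_eq, Ideal.mem_span_singleton, zero_dvd_iff] at this
      exact this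
    subst hv0
    exact Submodule.zero_mem _
  · have h' : ∀ i, ∃ w : O, v i = a * w := by
      intro i
      have := h i
      rw [Ideal.submodule_span_eq, Ideal.mem_span_singleton] at this
      exact this
    choose w hw using h'
    have ha0 : algebraMap O Ω a ≠ 0 := by
      rw [Ne, FaithfulSMul.algebraMap_eq_zero_iff]
      exact ha
    have hvw : v = a • w := by
      funext i
      rw [Pi.smul_apply, smul_eq_mul, hw i]
    have hwU : w ∈ pkl_lat O U := by
      rw [pkl_mem_lat]
      have h1 : (fun i => algebraMap O Ω (w i)) =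
          (algebraMap O Ω a)⁻¹ • fun i => algebraMap O Ω (v i) := by
        funext i
        rw [Pi.smul_apply, smul_eq_mul, hw i, map_mul, ← mul_assoc, inv_mul_cancel₀ ha0,
          one_mul]
      rw [h1]
      exact U.smul_mem _ hv
    have h2 : (⟨v, hv⟩ : ↥(pkl_lat O U)) = a • (⟨w, hwU⟩ : ↥(pkl_lat O U)) := by
      apply Subtype.ext
      exact hvw
    rw [h2]
    exact Submodule.smul_mem_smul (Ideal.mem_span_singleton_self a) Submodule.mem_top

/-- If `A ≡ 1` modulo `I`, then `A` acts trivially on the lattice modulo `I`. -/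
theorem pkl_sub_mem {U : Submodule Ω (Fin d → Ω)} (A : Matrix (Fin d) (Fin d) O)
    (hA : ∀ v ∈ U, (A.map (algebraMap O Ω)) *ᵥ v ∈ U) (I : Ideal O)
    (h1 : ∀ i j, (A - 1) i j ∈ I) (v : ↥(pkl_lat O U)) :
    pkl_end A hA v - v ∈ I • (⊤ : Submodule O ↥(pkl_lat O U)) := by
  have hmem : ((pkl_end A hA v - v : ↥(pkl_lat O U)) : Fin d → O) ∈ pkl_lat O U :=
    (pkl_end A hA v - v).2
  have h2 : ∀ i, ((pkl_end A hA v - v : ↥(pkl_lat O U)) : Fin d → O) i ∈ I := by
    intro i
    have h3 : ((pkl_end A hA v - v : ↥(pkl_lat O U)) : Fin d → O) =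
        (A - 1) *ᵥ (v : Fin d → O) := by
      rw [Submodule.coe_sub, pkl_end_coe, Matrix.sub_mulVec, Matrix.one_mulVec]
    rw [h3, Matrix.mulVec, dotProduct]
    exact Ideal.sum_mem _ (fun j _ => Ideal.mul_mem_right _ _ (h1 i j))
  exact pkl_saturated I hmem h2

/-! ### Base change: `Ω ⊗ Λ ≃ U` -/

omit [IsDomain O] [IsPrincipalIdealRing O] [FaithfulSMul O Ω] in
/-- The `O`-linear inclusion of the lattice into `U`. -/
def pkl_toU (U : Submodule Ω (Fin d → Ω)) : ↥(pkl_lat O U) →ₗ[O] ↥U where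
  toFun x := ⟨pkl_coe O Ω d (x : Fin d → O), pkl_coe_mem x⟩
  map_add' x y := by
    apply Subtype.ext
    simp only [Submodule.coe_add, map_add]
  map_smul' a x := by
    apply Subtype.ext
    simp only [Submodule.coe_smul, map_smul, RingHom.id_apply]
    rfl

omit [IsDomain O] [IsPrincipalIdealRing O] [FaithfulSMul O Ω] in
@[simp] theorem pkl_toU_coe {U : Submodule Ω (Fin d → Ω)} (x : ↥(pkl_lat O U)) :
    ((pkl_toU U x : ↥U) : Fin d → Ω) = pkl_coe O Ω d (x : Fin d → O) := rfl

omit [IsDomain O] [IsPrincipalIdealRing O] [FaithfulSMul O Ω] in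
/-- The inclusion intertwines the two actions of a matrix stabilising `U`. -/
theorem pkl_toU_end {U : Submodule Ω (Fin d → Ω)} (A : Matrix (Fin d) (Fin d) O)
    (hA : ∀ v ∈ U, (A.map (algebraMap O Ω)) *ᵥ v ∈ U) (x : ↥(pkl_lat O U)) :
    pkl_toU U (pkl_end A hA x) = pkl_endU A hA (pkl_toU U x) := by
  apply Subtype.ext
  rw [pkl_toU_coe, pkl_endU_coe, pkl_toU_coe]
  exact pkl_coe_end A hA x

/-- **`Ω ⊗_O Λ ≃ U`.** -/
noncomputable def pkl_baseChangeEquiv {U : Submodule Ω (Fin d → Ω)} (hU : pkl_Rational O U) :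
    Ω ⊗[O] ↥(pkl_lat O U) ≃ₗ[Ω] ↥U :=
  (Algebra.TensorProduct.basis Ω (Module.Free.chooseBasis O ↥(pkl_lat O U))).equiv
    (pkl_basisU hU (Module.Free.chooseBasis O ↥(pkl_lat O U))) (Equiv.refl _)

theorem pkl_baseChangeEquiv_eq {U : Submodule Ω (Fin d → Ω)} (hU : pkl_Rational O U) :
    (pkl_baseChangeEquiv hU).toLinearMap = LinearMap.liftBaseChange Ω (pkl_toU U) := by
  apply (Algebra.TensorProduct.basis Ω (Module.Free.chooseBasis O ↥(pkl_lat O U))).ext
  intro k
  rw [LinearEquiv.coe_coe, pkl_baseChangeEquiv, Module.Basis.equiv_apply,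
    Algebra.TensorProduct.basis_apply, LinearMap.liftBaseChange_tmul, one_smul, Equiv.refl_apply]
  apply Subtype.ext
  rw [pkl_basisU_apply, pkl_toU_coe]

@[simp] theorem pkl_baseChangeEquiv_tmul {U : Submodule Ω (Fin d → Ω)} (hU : pkl_Rational O U)
    (c : Ω) (x : ↥(pkl_lat O U)) :
    pkl_baseChangeEquiv hU (c ⊗ₜ[O] x) = c • pkl_toU U x := by
  have := LinearMap.congr_fun (pkl_baseChangeEquiv_eq hU) (c ⊗ₜ[O] x)
  rw [LinearEquiv.coe_coe, LinearMap.liftBaseChange_tmul] at this
  exact this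

/-- The base change isomorphism intertwines `(pkl_end A hA).baseChange Ω` and `pkl_endU A hA`. -/
theorem pkl_baseChangeEquiv_end {U : Submodule Ω (Fin d → Ω)} (hU : pkl_Rational O U)
    (A : Matrix (Fin d) (Fin d) O) (hA : ∀ v ∈ U, (A.map (algebraMap O Ω)) *ᵥ v ∈ U)
    (z : Ω ⊗[O] ↥(pkl_lat O U)) :
    pkl_baseChangeEquiv hU ((pkl_end A hA).baseChange Ω z) =
      pkl_endU A hA (pkl_baseChangeEquiv hU z) := by
  induction z using TensorProduct.induction_on with
  | zero => simp
  | tmul c x =>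
    rw [LinearMap.baseChange_tmul, pkl_baseChangeEquiv_tmul, pkl_baseChangeEquiv_tmul, map_smul,
      pkl_toU_end]
  | add a b ha hb => rw [map_add, map_add, ha, hb, map_add, map_add]

end lattice

end Fermat.Agent.JT3
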