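/-
[PK] S30 packaging, leaf PK3: a subspace `U ⊆ Ω^d` (`Ω / K` algebraic) is defined over a finite
subextension `K'' / K`: the coordinates of any `Ω`-basis of `U` generate a finite extension.

* `pks_exists_rational_basis`    : the finite extension `K''` and the basis `b` with coordinates
                                   in `K''`;
* `pks_exists_rational_basis_ge` : the same with `K''` containing a given finite subextension.

(`U ∩ K''^d` is `pkl_lat ↥K'' U` of `Pack/Lattice.lean`, with `O := ↥K''`; `pkl_rational_of_basis`
and `pkl_finrank` say that it is the `K''`-span of `b`, of dimension `dim_Ω U`.)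

Owner: helper13.  Prefix `pks_`.
-/
import Mathlib
import Fermat.Agent.JT3.Pack.Lattice

set_option autoImplicit false

namespace Fermat.Agent.JT3

section descent
variable {K Ω : Type*} [Field K] [Field Ω] [Algebra K Ω] [Algebra.IsAlgebraic K Ω] {d : ℕ}

/-- A subspace of `Ω^d` has a basis with coordinates in a finite subextension containing a given
one. -/
theorem pks_exists_rational_basis_ge (U : Submodule Ω (Fin d → Ω)) (F : IntermediateField K Ω)
    [FiniteDimensional K ↥F] :
    ∃ K'' : IntermediateField K Ω, F ≤ K'' ∧ FiniteDimensional K ↥K'' ∧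
      ∃ b : Fin (Module.finrank Ω ↥U) → (Fin d → ↥K''),
        LinearIndependent Ω (fun j (i : Fin d) => ((b j i : ↥K'') : Ω)) ∧
        Submodule.span Ω (Set.range fun j (i : Fin d) => ((b j i : ↥K'') : Ω)) = U := by
  classical
  let B := Module.finBasis Ω ↥U
  let S : Set Ω := Set.range fun p : Fin (Module.finrank Ω ↥U) × Fin d =>
    ((B p.1 : ↥U) : Fin d → Ω) p.2
  have hSfin : Finite ↥S := Set.finite_range _
  have hfd : FiniteDimensional K ↥(IntermediateField.adjoin K S) :=
    IntermediateField.finiteDimensional_adjoin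
      (fun x _ => (Algebra.IsAlgebraic.isAlgebraic x).isIntegral)
  have hfd2 : FiniteDimensional K ↥(F ⊔ IntermediateField.adjoin K S) :=
    IntermediateField.finiteDimensional_sup F (IntermediateField.adjoin K S)
  have hmem : ∀ j i, ((B j : ↥U) : Fin d → Ω) i ∈ F ⊔ IntermediateField.adjoin K S := by
    intro j i
    have h1 : ((B j : ↥U) : Fin d → Ω) i ∈ IntermediateField.adjoin K S :=
      IntermediateField.subset_adjoin K S ⟨(j, i), rfl⟩
    exact (le_sup_right : IntermediateField.adjoin K S ≤ F ⊔ IntermediateField.adjoin K S) h1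
  refine ⟨F ⊔ IntermediateField.adjoin K S, le_sup_left, hfd2,
    fun j i => ⟨((B j : ↥U) : Fin d → Ω) i, hmem j i⟩, ?_, ?_⟩
  · have h1 : LinearIndependent Ω (fun j => ((B j : ↥U) : Fin d → Ω)) :=
      B.linearIndependent.map' U.subtype (Submodule.ker_subtype U)
    exact h1
  · have h1 : (Set.range fun j => ((B j : ↥U) : Fin d → Ω)) = U.subtype '' Set.range B := by
      rw [← Set.range_comp]
      rfl
    show Submodule.span Ω (Set.range fun j => ((B j : ↥U) : Fin d → Ω)) = U
    rw [h1, ← Submodule.map_span, B.span_eq, Submodule.map_top, Submodule.range_subtype]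

/-- A subspace of `Ω^d` has a basis with coordinates in a finite subextension. -/
theorem pks_exists_rational_basis (U : Submodule Ω (Fin d → Ω)) :
    ∃ K'' : IntermediateField K Ω, FiniteDimensional K ↥K'' ∧
      ∃ b : Fin (Module.finrank Ω ↥U) → (Fin d → ↥K''),
        LinearIndependent Ω (fun j (i : Fin d) => ((b j i : ↥K'') : Ω)) ∧
        Submodule.span Ω (Set.range fun j (i : Fin d) => ((b j i : ↥K'') : Ω)) = U := by
  have : FiniteDimensional K ↥(⊥ : IntermediateField K Ω) :=
    inferInstance
  obtain ⟨K'', -, h1, h2⟩ := pks_exists_rational_basis_ge U (⊥ : IntermediateField K Ω)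
  exact ⟨K'', h1, h2⟩

omit [Algebra.IsAlgebraic K Ω] in
/-- The output of `pks_exists_rational_basis` feeds `pkl_Rational`: if `O` has fraction field
`K''`, a subspace spanned by `K''`-rational vectors is spanned by its `O`-lattice. -/
theorem pks_rational (K'' : IntermediateField K Ω) {O : Type*} [CommRing O] [IsDomain O]
    [IsPrincipalIdealRing O] [Algebra O ↥K''] [IsFractionRing O ↥K''] [Algebra O Ω]
    [FaithfulSMul O Ω] [IsScalarTower O ↥K'' Ω] {U : Submodule Ω (Fin d → Ω)} {ι : Type*}
    (b : ι → Fin d → ↥K'')
    (hspan : Submodule.span Ω (Set.range fun j (i : Fin d) => ((b j i : ↥K'') : Ω)) = U) :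
    pkl_Rational O U :=
  pkl_rational_of_basis (K := ↥K'') b hspan

end descent

end Fermat.Agent.JT3
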