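/-
[PK] S30 packaging, leaf PK3 in MODULE form (companion of `Pack/LatticeBC.lean`):
a subspace `U` of `Ω ⊗[R] T` (`T` finite free over `R`, `Ω / K` algebraic) is spanned by vectors
whose coordinates lie in a finite subextension `K'' / K`, hence -- after clearing denominators --
by the image of its lattice in `O'' ⊗[R] T` for every `O''` with fraction field `K''`.
This is exactly the hypothesis `hU` of `pkb_isBaseChange`, `pkb_finrank`, `pkb_irreducible` at
`ι := pkb_iota R O'' Ω T`.

* `pksb_exists_rational_span` : (A) the finite subextension, relative to a finite `Ω`-basis;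
* `pksb_span_iota`            : (B) clearing denominators;
* `pksb_main`                 : (A) + (B) for `Ω ⊗[R] T`.

Owner: helper13.  Prefix `pksb_`.
-/
import Mathlib
import Fermat.Agent.JT3.Pack.LatticeBC

set_option autoImplicit false
set_option linter.style.haveILetI false

open TensorProduct

namespace Fermat.Agent.JT3

section A
variable {K Ω : Type*} [Field K] [Field Ω] [Algebra K Ω] [Algebra.IsAlgebraic K Ω]
  {V : Type*} [AddCommGroup V] [Module Ω V] {ι' : Type*} [Finite ι']

/-- (A) A subspace of a finite-dimensional `Ω`-space is spanned by its vectors with coordinates in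
a finite subextension (containing a given one). -/
theorem pksb_exists_rational_span (B : Module.Basis ι' Ω V) (U : Submodule Ω V)
    (F : IntermediateField K Ω) [FiniteDimensional K ↥F] :
    ∃ K'' : IntermediateField K Ω, F ≤ K'' ∧ FiniteDimensional K ↥K'' ∧
      U ≤ Submodule.span Ω {u | u ∈ U ∧ ∀ i, B.repr u i ∈ K''} := by
  classical
  haveI : Module.Finite Ω V := Module.Finite.of_basis B
  let C := Module.finBasis Ω ↥U
  let S : Set Ω := Set.range fun p : Fin (Module.finrank Ω ↥U) × ι' =>
    B.repr ((C p.1 : ↥U) : V) p.2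
  have hSfin : Finite ↥S := Set.finite_range _
  have hfd : FiniteDimensional K ↥(IntermediateField.adjoin K S) :=
    IntermediateField.finiteDimensional_adjoin
      (fun x _ => (Algebra.IsAlgebraic.isAlgebraic x).isIntegral)
  have hfd2 : FiniteDimensional K ↥(F ⊔ IntermediateField.adjoin K S) :=
    IntermediateField.finiteDimensional_sup F (IntermediateField.adjoin K S)
  refine ⟨F ⊔ IntermediateField.adjoin K S, le_sup_left, hfd2, ?_⟩
  intro u hu
  have h1 : (⟨u, hu⟩ : ↥U) ∈ Submodule.span Ω (Set.range C) := by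
    rw [C.span_eq]; exact Submodule.mem_top
  have h2 := Submodule.apply_mem_span_image_of_mem_span U.subtype h1
  rw [← Set.range_comp] at h2
  refine Submodule.span_mono ?_ h2
  rintro _ ⟨j, rfl⟩
  refine ⟨(C j).2, fun i => ?_⟩
  have h3 : B.repr ((C j : ↥U) : V) i ∈ IntermediateField.adjoin K S :=
    IntermediateField.subset_adjoin K S ⟨(j, i), rfl⟩
  exact (le_sup_right : IntermediateField.adjoin K S ≤ F ⊔ IntermediateField.adjoin K S) h3

end A

section B
variable (R : Type*) [CommRing R] {K Ω : Type*} [Field K] [Field Ω] [Algebra K Ω] [Algebra R Ω]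
  (T : Type*) [AddCommGroup T] [Module R T] {ι' : Type*} [Finite ι'] (t : Module.Basis ι' R T)
  (K'' : IntermediateField K Ω)
  (O'' : Type*) [CommRing O''] [Algebra R O''] [Algebra O'' ↥K''] [IsFractionRing O'' ↥K'']
  [Algebra O'' Ω] [IsScalarTower O'' ↥K'' Ω] [IsScalarTower R O'' Ω]

/-- (B) Clearing denominators: vectors of `U ⊆ Ω ⊗[R] T` with coordinates in `K'' = Frac O''` lie
in the `Ω`-span of the image of the `O''`-lattice of `U`. -/
theorem pksb_span_iota (U : Submodule Ω (Ω ⊗[R] T))
    (hU : U ≤ Submodule.span Ω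
      {u | u ∈ U ∧ ∀ i, (Algebra.TensorProduct.basis Ω t).repr u i ∈ K''}) :
    U ≤ Submodule.span Ω (pkb_iota R O'' Ω T ''
      (pkb_lat (pkb_iota R O'' Ω T) U : Set (O'' ⊗[R] T))) := by
  classical
  haveI : Fintype ι' := Fintype.ofFinite ι'
  haveI : Nontrivial O'' := (algebraMap O'' ↥K'').domain_nontrivial
  refine hU.trans ?_
  rw [Submodule.span_le]
  rintro u ⟨huU, hu⟩
  -- common denominator
  obtain ⟨s, hs⟩ := IsLocalization.exist_integer_multiples_of_finite (nonZeroDivisors O'')
    (fun i => (⟨(Algebra.TensorProduct.basis Ω t).repr u i, hu i⟩ : ↥K''))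
  choose a ha using hs
  have hs0 : algebraMap O'' Ω (s : O'') ≠ 0 := by
    rw [IsScalarTower.algebraMap_apply O'' ↥K'' Ω]
    intro h0
    have h1 : algebraMap O'' ↥K'' (s : O'') = 0 := by
      apply (algebraMap ↥K'' Ω).injective
      rw [h0, map_zero]
    have h2 : (s : O'') = 0 := by
      apply IsFractionRing.injective O'' ↥K''
      rw [h1, map_zero]
    exact nonZeroDivisors.coe_ne_zero s h2
  -- the lattice vector
  set m : O'' ⊗[R] T := ∑ i, a i ⊗ₜ[R] t i with hm
  have hcoord : ∀ i, algebraMap O'' Ω (a i) =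
      algebraMap O'' Ω (s : O'') * (Algebra.TensorProduct.basis Ω t).repr u i := by
    intro i
    have h1 := ha i
    have h2 := congrArg (algebraMap ↥K'' Ω) h1
    rw [← IsScalarTower.algebraMap_apply O'' ↥K'' Ω, Algebra.smul_def, map_mul,
      ← IsScalarTower.algebraMap_apply O'' ↥K'' Ω] at h2
    exact h2
  have hιm : pkb_iota R O'' Ω T m = algebraMap O'' Ω (s : O'') • u := by
    rw [hm, map_sum]
    conv_rhs => rw [← (Algebra.TensorProduct.basis Ω t).sum_repr u, Finset.smul_sum]
    apply Finset.sum_congr rfl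
    intro i _
    rw [pkb_iota_tmul, hcoord i, Algebra.TensorProduct.basis_apply, smul_smul,
      TensorProduct.smul_tmul', smul_eq_mul, mul_one]
  have hmU : m ∈ pkb_lat (pkb_iota R O'' Ω T) U := by
    rw [pkb_mem_lat, hιm]
    exact U.smul_mem _ huU
  have hu2 : u = (algebraMap O'' Ω (s : O''))⁻¹ • pkb_iota R O'' Ω T m := by
    rw [hιm, smul_smul, inv_mul_cancel₀ hs0, one_smul]
  rw [hu2]
  exact Submodule.smul_mem _ _ (Submodule.subset_span ⟨m, hmU, rfl⟩)

end B

section main
variable (R : Type*) [CommRing R] {K Ω : Type*} [Field K] [Field Ω] [Algebra K Ω]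
  [Algebra.IsAlgebraic K Ω] [Algebra R Ω]
  (T : Type*) [AddCommGroup T] [Module R T] [Module.Free R T] [Module.Finite R T]

/-- **PK3, module form.** A subspace `U` of `Ω ⊗[R] T` is defined over a finite subextension
`K'' / K` (containing a given one): for EVERY `O''` with fraction field `K''`, `U` is spanned by
the image of its `O''`-lattice -- the hypothesis `hU` of `pkb_isBaseChange` at
`ι := pkb_iota R O'' Ω T`. -/
theorem pksb_main (U : Submodule Ω (Ω ⊗[R] T)) (F : IntermediateField K Ω)
    [FiniteDimensional K ↥F] :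
    ∃ K'' : IntermediateField K Ω, F ≤ K'' ∧ FiniteDimensional K ↥K'' ∧
      ∀ (O'' : Type*) [CommRing O''] [Algebra R O''] [Algebra O'' ↥K''] [IsFractionRing O'' ↥K'']
        [Algebra O'' Ω] [IsScalarTower O'' ↥K'' Ω] [IsScalarTower R O'' Ω],
        U ≤ Submodule.span Ω (pkb_iota R O'' Ω T ''
          (pkb_lat (pkb_iota R O'' Ω T) U : Set (O'' ⊗[R] T))) := by
  obtain ⟨K'', hF, hfd, hspan⟩ := pksb_exists_rational_span
    (Algebra.TensorProduct.basis Ω (Module.Free.chooseBasis R T)) U F
  refine ⟨K'', hF, hfd, ?_⟩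
  intro O'' _ _ _ _ _ _ _
  exact pksb_span_iota R T (Module.Free.chooseBasis R T) K'' O'' U hspan

end main

end Fermat.Agent.JT3
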