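/-
[PK] S30 / S31 packaging: flat base change of Hecke algebras.

`Λ` a finite module over `R₀`, `t : ι → End_{R₀} Λ` a family of endomorphisms,
`𝕋 = R₀[t i] ⊆ End_{R₀} Λ`; `A` a FLAT `R₀`-algebra, `T i = (t i).baseChange A` acting on `A ⊗ Λ`,
`𝕋_A = A[T i] ⊆ End_A (A ⊗ Λ)`.  Then `A ⊗ 𝕋 ≃ 𝕋_A` (`pkf_equiv`), hence every `R₀`-algebra
character `φ : 𝕋 → R` into ANY commutative `A`-algebra `R` extends to an `A`-algebra character
`χ₀ : 𝕋_A → R` with `χ₀ (T i) = φ (t i)` (`pkf_extend`), also after transport along an isomorphism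
`A ⊗ Λ ≃ Tp` intertwining `T i` with given `Tl i` (`pkf_extend_transport`).

With `R₀ = ℤ`, `A = ℤ_[p]`, `Λ` = the integral homology lattice, `t ℓ` = the coset operators and
`φ` = (`𝕋 → heckeAlgebra N 2 S`, from T2-lite) followed by any `χ : heckeAlgebra → R`, this is the
`eigen` clause of `pk_Tate` for an arbitrary target ring.

Owner: helper13.  Prefix `pkf_`.
-/
import Mathlib

set_option autoImplicit false

open TensorProduct

namespace Fermat.Agent.JT3

section flat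
variable {R₀ A : Type*} [CommRing R₀] [CommRing A] [Algebra R₀ A]
  {Λ : Type*} [AddCommGroup Λ] [Module R₀ Λ]

/-- The natural `A`-algebra map `A ⊗ 𝕋 → End_A (A ⊗ Λ)`, `a ⊗ f ↦ a • f.baseChange A`. -/
noncomputable def pkf_Psi (A : Type*) [CommRing A] [Algebra R₀ A]
    (𝕋 : Subalgebra R₀ (Module.End R₀ Λ)) :
    A ⊗[R₀] ↥𝕋 →ₐ[A] Module.End A (A ⊗[R₀] Λ) :=
  Algebra.TensorProduct.lift (Algebra.ofId A (Module.End A (A ⊗[R₀] Λ)))
    ((Module.End.baseChangeHom R₀ A Λ).comp 𝕋.val)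
    (fun a f => by
      rw [Algebra.ofId_apply]
      exact Algebra.commute_algebraMap_left a _)

theorem pkf_Psi_tmul (𝕋 : Subalgebra R₀ (Module.End R₀ Λ)) (a : A) (f : ↥𝕋) :
    pkf_Psi A 𝕋 (a ⊗ₜ[R₀] f) = a • (f : Module.End R₀ Λ).baseChange A := by
  rw [pkf_Psi, Algebra.TensorProduct.lift_tmul]
  show algebraMap A (Module.End A (A ⊗[R₀] Λ)) a * (f : Module.End R₀ Λ).baseChange A = _
  rw [Algebra.algebraMap_eq_smul_one, smul_mul_assoc, one_mul]

/-- **Flatness**: `A ⊗ 𝕋 → End_A (A ⊗ Λ)` is injective. -/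
theorem pkf_Psi_injective [Module.Flat R₀ A] [Module.Finite R₀ Λ]
    (𝕋 : Subalgebra R₀ (Module.End R₀ Λ)) : Function.Injective (pkf_Psi A 𝕋) := by
  classical
  obtain ⟨r, s, hs⟩ := Module.Finite.exists_fin (R := R₀) (M := Λ)
  -- evaluation at the generators
  let ev : ↥𝕋 →ₗ[R₀] (Fin r → Λ) :=
    LinearMap.pi (fun j => (LinearMap.applyₗ (s j)).comp 𝕋.val.toLinearMap)
  have hev : ∀ (f : ↥𝕋) (j : Fin r), ev f j = (f : Module.End R₀ Λ) (s j) := fun f j => rfl
  have hevinj : Function.Injective ev := by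
    rw [← LinearMap.ker_eq_bot, LinearMap.ker_eq_bot']
    intro f hf
    apply Subtype.ext
    apply LinearMap.ext_on_range hs
    intro j
    have := congrFun hf j
    rw [hev] at this
    rw [this]
    rfl
  have hinj2 : Function.Injective (ev.lTensor A) :=
    Module.Flat.lTensor_preserves_injective_linearMap ev hevinj
  have key : ∀ (z : A ⊗[R₀] ↥𝕋) (j : Fin r),
      TensorProduct.piRight R₀ A A (fun _ : Fin r => Λ) (ev.lTensor A z) j =
        pkf_Psi A 𝕋 z ((1 : A) ⊗ₜ[R₀] s j) := by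
    intro z j
    induction z using TensorProduct.induction_on with
    | zero => simp
    | tmul a f =>
      rw [LinearMap.lTensor_tmul, TensorProduct.piRight_apply, TensorProduct.piRightHom_tmul,
        pkf_Psi_tmul, LinearMap.smul_apply, LinearMap.baseChange_tmul,
        TensorProduct.smul_tmul', smul_eq_mul, mul_one]
      show a ⊗ₜ[R₀] ev f j = _
      rw [hev]
    | add x y hx hy =>
      rw [map_add, map_add, Pi.add_apply, hx, hy, map_add, LinearMap.add_apply]
  rw [injective_iff_map_eq_zero]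
  intro z hz
  apply hinj2
  rw [map_zero]
  apply (TensorProduct.piRight R₀ A A (fun _ : Fin r => Λ)).injective
  rw [map_zero]
  funext j
  rw [key, hz]
  rfl

end flat

section extend
variable {R₀ A : Type*} [CommRing R₀] [CommRing A] [Algebra R₀ A]
  {Λ : Type*} [AddCommGroup Λ] [Module R₀ Λ] {ι : Type*} (t : ι → Module.End R₀ Λ)

/-- Base change maps `R₀[t i]` into `A[T i]`. -/
theorem pkf_baseChange_mem {f : Module.End R₀ Λ} (hf : f ∈ Algebra.adjoin R₀ (Set.range t)) :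
    f.baseChange A ∈ Algebra.adjoin A (Set.range fun i => (t i).baseChange A) := by
  induction hf using Algebra.adjoin_induction with
  | mem x hx =>
    obtain ⟨i, rfl⟩ := hx
    exact Algebra.subset_adjoin ⟨i, rfl⟩
  | algebraMap r =>
    have h1 : (algebraMap R₀ (Module.End R₀ Λ) r).baseChange A =
        algebraMap A (Module.End A (A ⊗[R₀] Λ)) (algebraMap R₀ A r) := by
      have := (Module.End.baseChangeHom R₀ A Λ).commutes r
      rw [IsScalarTower.algebraMap_apply R₀ A (Module.End A (A ⊗[R₀] Λ))] at this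
      exact this
    rw [h1]
    exact Subalgebra.algebraMap_mem _ _
  | add x y hx hy hx' hy' =>
    rw [LinearMap.baseChange_add]
    exact add_mem hx' hy'
  | mul x y hx hy hx' hy' =>
    rw [LinearMap.baseChange_mul]
    exact mul_mem hx' hy'

/-- The image of `A ⊗ R₀[t i]` lies in `A[T i]`. -/
theorem pkf_Psi_mem (z : A ⊗[R₀] ↥(Algebra.adjoin R₀ (Set.range t))) :
    pkf_Psi A (Algebra.adjoin R₀ (Set.range t)) z ∈
      Algebra.adjoin A (Set.range fun i => (t i).baseChange A) := by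
  induction z using TensorProduct.induction_on with
  | zero => rw [map_zero]; exact zero_mem _
  | tmul a f =>
    rw [pkf_Psi_tmul]
    exact Subalgebra.smul_mem _ (pkf_baseChange_mem t f.2) a
  | add x y hx hy => rw [map_add]; exact add_mem hx hy

/-- The map `A ⊗ R₀[t i] → A[T i]`. -/
noncomputable def pkf_PsiR : A ⊗[R₀] ↥(Algebra.adjoin R₀ (Set.range t)) →ₐ[A]
    ↥(Algebra.adjoin A (Set.range fun i => (t i).baseChange A)) :=
  (pkf_Psi A (Algebra.adjoin R₀ (Set.range t))).codRestrict _ (pkf_Psi_mem t)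

theorem pkf_PsiR_coe (z : A ⊗[R₀] ↥(Algebra.adjoin R₀ (Set.range t))) :
    ((pkf_PsiR t z : ↥(Algebra.adjoin A (Set.range fun i => (t i).baseChange A))) :
      Module.End A (A ⊗[R₀] Λ)) = pkf_Psi A (Algebra.adjoin R₀ (Set.range t)) z := rfl

theorem pkf_PsiR_surjective : Function.Surjective (pkf_PsiR (A := A) t) := by
  -- the range is a subalgebra containing the generators
  have hle : Algebra.adjoin A (Set.range fun i => (t i).baseChange A) ≤
      (pkf_Psi A (Algebra.adjoin R₀ (Set.range t))).range := by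
    rw [Algebra.adjoin_le_iff]
    rintro _ ⟨i, rfl⟩
    refine ⟨(1 : A) ⊗ₜ[R₀] ⟨t i, Algebra.subset_adjoin ⟨i, rfl⟩⟩, ?_⟩
    show pkf_Psi A (Algebra.adjoin R₀ (Set.range t))
      ((1 : A) ⊗ₜ[R₀] ⟨t i, Algebra.subset_adjoin ⟨i, rfl⟩⟩) = (t i).baseChange A
    rw [pkf_Psi_tmul, one_smul]
  intro y
  obtain ⟨z, hz⟩ := hle y.2
  exact ⟨z, Subtype.ext hz⟩

/-- **`A ⊗ R₀[t i] ≃ A[T i]` for flat `A`.** -/
noncomputable def pkf_equiv [Module.Flat R₀ A] [Module.Finite R₀ Λ] :
    A ⊗[R₀] ↥(Algebra.adjoin R₀ (Set.range t)) ≃ₐ[A]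
      ↥(Algebra.adjoin A (Set.range fun i => (t i).baseChange A)) :=
  AlgEquiv.ofBijective (pkf_PsiR t)
    ⟨fun _ _ h => pkf_Psi_injective (A := A) (Algebra.adjoin R₀ (Set.range t))
        (congrArg Subtype.val h), pkf_PsiR_surjective t⟩

theorem pkf_equiv_tmul [Module.Flat R₀ A] [Module.Finite R₀ Λ] (a : A)
    (f : ↥(Algebra.adjoin R₀ (Set.range t))) :
    ((pkf_equiv (A := A) t (a ⊗ₜ[R₀] f) :
      ↥(Algebra.adjoin A (Set.range fun i => (t i).baseChange A))) :
      Module.End A (A ⊗[R₀] Λ)) = a • (f : Module.End R₀ Λ).baseChange A := by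
  show pkf_Psi A (Algebra.adjoin R₀ (Set.range t)) (a ⊗ₜ[R₀] f) = _
  rw [pkf_Psi_tmul]

/-- **Extension of characters along a flat base change.** -/
theorem pkf_extend [Module.Flat R₀ A] [Module.Finite R₀ Λ] {R : Type*} [CommRing R]
    [Algebra R₀ R] [Algebra A R] [IsScalarTower R₀ A R]
    (φ : ↥(Algebra.adjoin R₀ (Set.range t)) →ₐ[R₀] R) :
    ∃ χ₀ : ↥(Algebra.adjoin A (Set.range fun i => (t i).baseChange A)) →ₐ[A] R,
      ∀ i, χ₀ ⟨(t i).baseChange A, Algebra.subset_adjoin ⟨i, rfl⟩⟩ =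
        φ ⟨t i, Algebra.subset_adjoin ⟨i, rfl⟩⟩ := by
  let ρ : A ⊗[R₀] ↥(Algebra.adjoin R₀ (Set.range t)) →ₐ[A] R :=
    Algebra.TensorProduct.lift (Algebra.ofId A R) φ (fun _ _ => Commute.all _ _)
  refine ⟨ρ.comp (pkf_equiv (A := A) t).symm.toAlgHom, fun i => ?_⟩
  have h1 : (pkf_equiv (A := A) t).symm
      ⟨(t i).baseChange A, Algebra.subset_adjoin ⟨i, rfl⟩⟩ =
      (1 : A) ⊗ₜ[R₀] ⟨t i, Algebra.subset_adjoin ⟨i, rfl⟩⟩ := by
    rw [AlgEquiv.symm_apply_eq]
    apply Subtype.ext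
    rw [pkf_equiv_tmul, one_smul]
  show ρ ((pkf_equiv (A := A) t).symm _) = _
  rw [h1]
  show Algebra.TensorProduct.lift (Algebra.ofId A R) φ _ _ = _
  rw [Algebra.TensorProduct.lift_tmul, map_one, one_mul]

/-- **Extension of characters, transported** along an isomorphism `A ⊗ Λ ≃ Tp` intertwining the
base-changed operators with given operators `Tl i` on `Tp`. -/
theorem pkf_extend_transport [Module.Flat R₀ A] [Module.Finite R₀ Λ] {R : Type*} [CommRing R]
    [Algebra R₀ R] [Algebra A R] [IsScalarTower R₀ A R]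
    {Tp : Type*} [AddCommGroup Tp] [Module A Tp] (e : A ⊗[R₀] Λ ≃ₗ[A] Tp)
    (Tl : ι → Module.End A Tp) (he : ∀ i x, e ((t i).baseChange A x) = Tl i (e x))
    (φ : ↥(Algebra.adjoin R₀ (Set.range t)) →ₐ[R₀] R) :
    ∃ χ₀ : ↥(Algebra.adjoin A (Set.range Tl)) →ₐ[A] R,
      ∀ i, χ₀ ⟨Tl i, Algebra.subset_adjoin ⟨i, rfl⟩⟩ =
        φ ⟨t i, Algebra.subset_adjoin ⟨i, rfl⟩⟩ := by
  obtain ⟨χ₁, hχ₁⟩ := pkf_extend (A := A) t φ
  let c : Module.End A (A ⊗[R₀] Λ) ≃ₐ[A] Module.End A Tp := LinearEquiv.conjAlgEquiv A e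
  have hc : ∀ i, c.symm (Tl i) = (t i).baseChange A := by
    intro i
    rw [AlgEquiv.symm_apply_eq]
    apply LinearMap.ext
    intro y
    show Tl i y = e ((t i).baseChange A (e.symm y))
    rw [he, LinearEquiv.apply_symm_apply]
  have hmem : ∀ y : ↥(Algebra.adjoin A (Set.range Tl)),
      c.symm (y : Module.End A Tp) ∈
        Algebra.adjoin A (Set.range fun i => (t i).baseChange A) := by
    rintro ⟨y, hy⟩
    induction hy using Algebra.adjoin_induction with
    | mem x hx =>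
      obtain ⟨i, rfl⟩ := hx
      show c.symm (Tl i) ∈ _
      rw [hc]
      exact Algebra.subset_adjoin ⟨i, rfl⟩
    | algebraMap r =>
      show c.symm (algebraMap A _ r) ∈ _
      rw [AlgEquiv.commutes]
      exact Subalgebra.algebraMap_mem _ _
    | add x y hx hy hx' hy' =>
      show c.symm (x + y) ∈ _
      rw [map_add]
      exact add_mem hx' hy'
    | mul x y hx hy hx' hy' =>
      show c.symm (x * y) ∈ _
      rw [map_mul]
      exact mul_mem hx' hy'
  let ψ : ↥(Algebra.adjoin A (Set.range Tl)) →ₐ[A]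
      ↥(Algebra.adjoin A (Set.range fun i => (t i).baseChange A)) :=
    ((c.symm : Module.End A Tp →ₐ[A] Module.End A (A ⊗[R₀] Λ)).comp
      (Algebra.adjoin A (Set.range Tl)).val).codRestrict _ hmem
  refine ⟨χ₁.comp ψ, fun i => ?_⟩
  have h2 : ψ ⟨Tl i, Algebra.subset_adjoin ⟨i, rfl⟩⟩ =
      ⟨(t i).baseChange A, Algebra.subset_adjoin ⟨i, rfl⟩⟩ := by
    apply Subtype.ext
    show c.symm (Tl i) = (t i).baseChange A
    exact hc i
  show χ₁ (ψ _) = _
  rw [h2, hχ₁]

end extend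

section int
variable {A : Type*} [CommRing A] {Λ : Type*} [AddCommGroup Λ] {ι : Type*}
  (t : ι → Module.End ℤ Λ)

/-- The case `R₀ = ℤ`: ring homomorphisms out of `ℤ[t i]` are `ℤ`-algebra homomorphisms, so every
RING character `φ : ℤ[t i] →+* R` into a commutative `A`-algebra extends to an `A`-algebra character
of `A[Tl i]` (`A` flat over `ℤ`, i.e. torsion-free; `Λ` a finitely generated abelian group). -/
theorem pkf_extend_transport_int [Module.Flat ℤ A] [Module.Finite ℤ Λ] {R : Type*} [CommRing R]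
    [Algebra A R] {Tp : Type*} [AddCommGroup Tp] [Module A Tp] (e : A ⊗[ℤ] Λ ≃ₗ[A] Tp)
    (Tl : ι → Module.End A Tp) (he : ∀ i x, e ((t i).baseChange A x) = Tl i (e x))
    (φ : ↥(Algebra.adjoin ℤ (Set.range t)) →+* R) :
    ∃ χ₀ : ↥(Algebra.adjoin A (Set.range Tl)) →ₐ[A] R,
      ∀ i, χ₀ ⟨Tl i, Algebra.subset_adjoin ⟨i, rfl⟩⟩ =
        φ ⟨t i, Algebra.subset_adjoin ⟨i, rfl⟩⟩ :=
  pkf_extend_transport (A := A) t e Tl he φ.toIntAlgHom

end int

end Fermat.Agent.JT3
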